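import Fermat.Agent.Dihedral.Normalize

/-!
# Carayol's lemma for two-dimensional representations and the counting lemma

* a representation over a finite local ring whose traces lie in a subring `R` and whose residual
  image spans `M₂(residue field of R)` can be conjugated into `M₂(R)`;
* a surjection onto a free `ℤ/2ⁿ`-module whose source is spanned mod two by as few elements is
  bijective;
* a subalgebra generated inside the span of a finite monoid and of involutions has small dimension.

Main results: `exists_conj_mem`, `bijective_of_card_le`, `finrank_le_of_adjoin`.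
-/

namespace Fermat.Agent.Dihedral

open Matrix IsLocalRing

section carayol

variable {B : Type*} [CommRing B] {G : Type*} [Group G]

/-- In a frame of an idempotent contained in the span of the image, a representation with traces
in `R` takes values in `R` after scaling. -/
theorem exists_scale_mem (R : Subring B) (hR : ∀ a ∈ R, ∀ b, a * b = 1 → b ∈ R)
    (ρ : G →* Matrix (Fin 2) (Fin 2) B) (he : ∀ g, ρ g 0 0 ∈ R) (htr : ∀ g, (ρ g).trace ∈ R)
    (w : G) (h01 : IsUnit (ρ w 0 1)) (h10 : IsUnit (ρ w 1 0))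
    (hprod : ρ w 0 1 * ρ w 1 0 ∈ R) :
    ∃ c : Bˣ, ∀ g, ρ g 0 0 ∈ R ∧ ρ g 1 1 ∈ R ∧ ↑c⁻¹ * ρ g 0 1 ∈ R ∧ ↑c * ρ g 1 0 ∈ R := by
  obtain ⟨c, hc⟩ := h01
  obtain ⟨d, hd⟩ := h10
  have h11 : ∀ g, ρ g 1 1 ∈ R := by
    intro g
    have := R.sub_mem (htr g) (he g)
    simpa [Matrix.trace_fin_two] using this
  have hcd : ((↑c * ↑d : B)) ∈ R := by rw [hc, hd]; exact hprod
  have hinv : (↑c⁻¹ * ↑d⁻¹ : B) ∈ R := hR _ hcd _ (by
    calc (↑c * ↑d : B) * (↑c⁻¹ * ↑d⁻¹) = (↑c * ↑c⁻¹) * (↑d * ↑d⁻¹) := by ring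
      _ = 1 := by simp)
  refine ⟨c, fun g => ⟨he g, h11 g, ?_, ?_⟩⟩
  · have e : ρ g 0 1 * ↑d = ρ (g * w) 0 0 - ρ g 0 0 * ρ w 0 0 := by
      rw [map_mul, mul_apply_two, hd]; ring
    have : (↑c⁻¹ * ρ g 0 1 : B) = (↑c⁻¹ * ↑d⁻¹) * (ρ (g * w) 0 0 - ρ g 0 0 * ρ w 0 0) := by
      rw [← e]
      calc (↑c⁻¹ * ρ g 0 1 : B) = ↑c⁻¹ * ρ g 0 1 * (↑d * ↑d⁻¹) := by simp
        _ = _ := by ring
    rw [this]
    exact R.mul_mem hinv (R.sub_mem (he _) (R.mul_mem (he _) (he _)))
  · have e : (↑c * ρ g 1 0 : B) = ρ (g * w) 1 1 - ρ g 1 1 * ρ w 1 1 := by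
      rw [map_mul, mul_apply_two, hc]; ring
    rw [e]
    exact R.sub_mem (h11 _) (R.mul_mem (h11 _) (h11 _))

/-- Carayol: traces in `R` and an idempotent with residue `diag (1, 0)` in the `R`-span of the
image give a conjugate representation with values in `R`. -/
theorem exists_conj_mem [IsLocalRing B] {N : ℕ} (hN : maximalIdeal B ^ N = ⊥) (R : Subring B)
    (hR : ∀ a ∈ R, ∀ b, a * b = 1 → b ∈ R) (ρ : G →* Matrix (Fin 2) (Fin 2) B)
    (htr : ∀ g, (ρ g).trace ∈ R) (e : Matrix (Fin 2) (Fin 2) B)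
    (hespan : e ∈ Submodule.span R (Set.range ρ)) (he : e * e = e)
    (h00 : e 0 0 - 1 ∈ maximalIdeal B) (h11 : e 1 1 ∈ maximalIdeal B)
    (h01 : e 0 1 ∈ maximalIdeal B) (h10 : e 1 0 ∈ maximalIdeal B)
    (w : G) (hw01 : IsUnit (ρ w 0 1)) (hw10 : IsUnit (ρ w 1 0)) :
    ∃ P : (Matrix (Fin 2) (Fin 2) B)ˣ, ∀ g i j,
      ((↑P⁻¹ : Matrix (Fin 2) (Fin 2) B) * ρ g * (P : Matrix (Fin 2) (Fin 2) B)) i j ∈ R := by
  have hu : IsUnit (e 0 0 - e 1 1) := by
    by_contra hn
    have := (maximalIdeal B).add_mem ((maximalIdeal B).sub_mem ((mem_maximalIdeal _).mpr hn) h00)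
      h11
    exact (mem_maximalIdeal _).mp (by simp at this : (1 : B) ∈ maximalIdeal B) isUnit_one
  obtain ⟨P, D, hD01, hD10, hP, hP1, hD00, hD11⟩ := exists_conj_diag hN e h01 h10 hu
  let σ : G →* Matrix (Fin 2) (Fin 2) B :=
    { toFun := fun g => (↑P⁻¹ : Matrix (Fin 2) (Fin 2) B) * ρ g * (P : Matrix (Fin 2) (Fin 2) B)
      map_one' := by simp
      map_mul' := fun g h => by simp [mul_assoc] }
  have hDe : D = (↑P⁻¹ : Matrix (Fin 2) (Fin 2) B) * e * (P : Matrix (Fin 2) (Fin 2) B) := by
    rw [mul_assoc, hP, ← mul_assoc, P.inv_mul, one_mul]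
  have hDD : D * D = D := by
    rw [hDe, show ∀ a b c : Matrix (Fin 2) (Fin 2) B, a * b * c * (a * b * c) =
      a * b * (c * a) * b * c from fun a b c => by simp [mul_assoc], P.mul_inv, mul_one,
      mul_assoc (↑P⁻¹ : Matrix (Fin 2) (Fin 2) B) e e, he]
  have d00 : D 0 0 = 1 := by
    have := congrArg (fun M => M 0 0) hDD
    simp [mul_apply_two, hD01] at this
    have hu0 : IsUnit (D 0 0) := by
      by_contra hn
      have := (maximalIdeal B).sub_mem ((mem_maximalIdeal _).mpr hn)
        ((maximalIdeal B).add_mem hD00 h00)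
      exact (mem_maximalIdeal _).mp (by simp at this : (1 : B) ∈ maximalIdeal B) isUnit_one
    exact hu0.mul_left_cancel (by rw [this, mul_one])
  have d11 : D 1 1 = 0 := by
    have := congrArg (fun M => M 1 1) hDD
    simp [mul_apply_two, hD10] at this
    have hm : D 1 1 ∈ maximalIdeal B := by simpa using (maximalIdeal B).add_mem hD11 h11
    have hu1 : IsUnit (1 - D 1 1) := by
      by_contra hn
      have := (maximalIdeal B).add_mem ((mem_maximalIdeal _).mpr hn) hm
      exact (mem_maximalIdeal _).mp (by simp at this : (1 : B) ∈ maximalIdeal B) isUnit_one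
    exact hu1.mul_right_eq_zero.mp (by rw [sub_mul, one_mul, this, sub_self])
  have hσspan : ∀ x ∈ Submodule.span R (Set.range ρ),
      ((↑P⁻¹ : Matrix (Fin 2) (Fin 2) B) * x * (P : Matrix (Fin 2) (Fin 2) B)).trace ∈ R ∧
      ∀ y ∈ Submodule.span R (Set.range ρ), x * y ∈ Submodule.span R (Set.range ρ) := by
    intro x hx
    refine ⟨?_, ?_⟩
    · rw [Matrix.trace_mul_cycle, P.mul_inv, one_mul]
      induction hx using Submodule.span_induction with
      | mem x hx => obtain ⟨g, rfl⟩ := hx; exact htr g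
      | zero => simp
      | add x y _ _ a b => rw [Matrix.trace_add]; exact R.add_mem a b
      | smul r x _ a =>
        rw [show r • x = (r : B) • x from rfl, Matrix.trace_smul, smul_eq_mul]
        exact R.mul_mem r.2 a
    · intro y hy
      induction hx using Submodule.span_induction with
      | mem x hx =>
        obtain ⟨g, rfl⟩ := hx
        induction hy using Submodule.span_induction with
        | mem y hy =>
          obtain ⟨h, rfl⟩ := hy
          exact Submodule.subset_span ⟨g * h, map_mul ρ g h⟩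
        | zero => simp
        | add y z _ _ a b => rw [mul_add]; exact add_mem a b
        | smul r y _ a => rw [mul_smul_comm]; exact Submodule.smul_mem _ _ a
      | zero => simp
      | add x z _ _ a b => rw [add_mul]; exact add_mem a b
      | smul r x _ a => rw [smul_mul_assoc]; exact Submodule.smul_mem _ _ a
  have hρmem : ∀ g, ρ g ∈ Submodule.span R (Set.range ρ) := fun g => Submodule.subset_span ⟨g, rfl⟩
  have hσ00 : ∀ g, σ g 0 0 ∈ R := by
    intro g
    have h := (hσspan _ ((hσspan _ hespan).2 _ (hρmem g))).1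
    have : ((↑P⁻¹ : Matrix (Fin 2) (Fin 2) B) * (e * ρ g) * (P : Matrix (Fin 2) (Fin 2) B)) =
        D * σ g := by
      simp only [σ, MonoidHom.coe_mk, OneHom.coe_mk, hDe]
      simp [mul_assoc]
    rw [this, Matrix.trace_fin_two] at h
    simpa [mul_apply_two, d00, d11, hD01, hD10] using h
  have hprod : σ w 0 1 * σ w 1 0 ∈ R := by
    have h : σ (w * w) 0 0 - σ w 0 0 * σ w 0 0 ∈ R :=
      R.sub_mem (hσ00 _) (R.mul_mem (hσ00 _) (hσ00 _))
    simpa [mul_apply_two] using h
  have hσunit : ∀ i j, IsUnit (ρ w i j) → IsUnit (σ w i j) := by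
    intro i j hij
    have hmk : σ w i j - ρ w i j ∈ maximalIdeal B := by
      let π := Ideal.Quotient.mk (maximalIdeal B)
      have hPπ : (↑P : Matrix (Fin 2) (Fin 2) B).map π = 1 := by
        ext a b
        have e1 := Ideal.Quotient.eq.mpr (hP1 a b)
        rw [Matrix.map_apply, e1]
        by_cases hab : a = b <;> simp [Matrix.one_apply, hab]
      have hPi : (↑P⁻¹ : Matrix (Fin 2) (Fin 2) B).map π = 1 := by
        have h := congrArg (fun M : Matrix (Fin 2) (Fin 2) B => M.map π) P.inv_mul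
        rw [Matrix.map_mul, hPπ, mul_one, Matrix.map_one π (map_zero _) (map_one _)] at h
        exact h
      refine Ideal.Quotient.eq.mp ?_
      have h := congrArg (fun M : Matrix (Fin 2) (Fin 2) (B ⧸ maximalIdeal B) => M i j)
        (show (σ w).map π = (ρ w).map π by
          simp only [σ, MonoidHom.coe_mk, OneHom.coe_mk, Matrix.map_mul, hPπ, hPi, one_mul,
            mul_one])
      exact h
    by_contra hn
    have := (maximalIdeal B).sub_mem ((mem_maximalIdeal _).mpr hn) hmk
    exact (mem_maximalIdeal _).mp (by simpa using this) hij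
  obtain ⟨c, hc⟩ := exists_scale_mem R hR σ hσ00 (fun g => (hσspan _ (hρmem g)).1) w
    (hσunit 0 1 hw01) (hσunit 1 0 hw10) hprod
  let S : (Matrix (Fin 2) (Fin 2) B)ˣ :=
    ⟨!![(c : B), 0; 0, 1], !![(↑c⁻¹ : B), 0; 0, 1],
      by ext i j; fin_cases i <;> fin_cases j <;> simp [mul_apply_two],
      by ext i j; fin_cases i <;> fin_cases j <;> simp [mul_apply_two]⟩
  refine ⟨P * S, fun g i j => ?_⟩
  have hval : ((↑(P * S)⁻¹ : Matrix (Fin 2) (Fin 2) B) * ρ g *
        ((P * S : (Matrix (Fin 2) (Fin 2) B)ˣ) : Matrix (Fin 2) (Fin 2) B)) =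
      (↑S⁻¹ : Matrix (Fin 2) (Fin 2) B) * σ g * (↑S : Matrix (Fin 2) (Fin 2) B) := by
    simp [σ, mul_assoc]
  rw [hval]
  obtain ⟨a, d, b, c'⟩ := hc g
  fin_cases i <;> fin_cases j <;> simp [S, mul_apply_two, Matrix.vecMul, dotProduct,
    Fin.sum_univ_two]
  · rw [show (↑c⁻¹ : B) * σ g 0 0 * ↑c = σ g 0 0 * (↑c⁻¹ * ↑c) by ring, c.inv_mul, mul_one]
    exact a
  · exact b
  · rw [mul_comm]; exact c'
  · exact d

end carayol

section counting

/-- A surjection onto a free `ℤ/2ⁿ`-module of rank `r` from a group which has at most `2 ^ r`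
classes mod two is bijective. -/
theorem bijective_of_card_le {M T : Type*} [AddCommGroup M] [AddCommGroup T] [Finite M]
    {n r : ℕ} (hkill : ∀ x : M, (2 ^ n : ℕ) • x = 0)
    (hM : Nat.card (M ⧸ (nsmulAddMonoidHom (α := M) 2).range) ≤ 2 ^ r)
    (hT : Nat.card T = 2 ^ (n * r)) (f : M →+ T) (hf : Function.Surjective f) :
    Function.Bijective f := by
  have hb : ∀ i, Nat.card M ≤ (2 ^ r) ^ i *
      Nat.card (nsmulAddMonoidHom (α := M) (2 ^ i)).range := by
    intro i
    induction i with
    | zero =>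
      have : (nsmulAddMonoidHom (α := M) (2 ^ 0)).range = ⊤ := by
        ext x; simp
      rw [this]; simp
    | succ i ih =>
      let A' := (nsmulAddMonoidHom (α := M) (2 ^ i)).range
      let S' := (nsmulAddMonoidHom (α := M) (2 ^ (i + 1))).range
      have hle : S' ≤ A' := by
        rintro _ ⟨x, rfl⟩
        exact ⟨2 • x, by simp only [nsmulAddMonoidHom_apply, smul_smul, pow_succ]⟩
      let g : M →+ A' ⧸ S'.addSubgroupOf A' :=
        (QuotientAddGroup.mk' _).comp (nsmulAddMonoidHom (α := M) (2 ^ i)).rangeRestrict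
      have hg : Function.Surjective g :=
        (QuotientAddGroup.mk'_surjective _).comp
          (AddMonoidHom.rangeRestrict_surjective _)
      have hker : (nsmulAddMonoidHom (α := M) 2).range ≤ g.ker := by
        rintro _ ⟨y, rfl⟩
        rw [AddMonoidHom.mem_ker]
        refine (QuotientAddGroup.eq_zero_iff _).mpr ?_
        refine ⟨y, ?_⟩
        show (2 ^ (i + 1)) • y = (2 ^ i) • (2 • y)
        rw [pow_succ, mul_smul]
      have hcard : Nat.card (A' ⧸ S'.addSubgroupOf A') ≤ 2 ^ r :=
        (Nat.card_le_card_of_surjective _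
          (QuotientAddGroup.lift_surjective_of_surjective _ g hg hker)).trans hM
      have hA : Nat.card A' = Nat.card (A' ⧸ S'.addSubgroupOf A') * Nat.card S' := by
        rw [AddSubgroup.card_eq_card_quotient_mul_card_addSubgroup (S'.addSubgroupOf A'),
          Nat.card_congr (AddSubgroup.addSubgroupOfEquivOfLe hle).toEquiv]
      calc Nat.card M ≤ (2 ^ r) ^ i * Nat.card A' := ih
        _ ≤ (2 ^ r) ^ i * (2 ^ r * Nat.card S') := by
          rw [hA]; gcongr
        _ = _ := by rw [pow_succ]; ring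
  have h1 : Nat.card (nsmulAddMonoidHom (α := M) (2 ^ n)).range = 1 := by
    rw [Nat.card_eq_one_iff_unique]
    refine ⟨⟨?_⟩, ⟨0⟩⟩
    rintro ⟨_, x, rfl⟩ ⟨_, y, rfl⟩
    ext; simp [hkill]
  have h2 := hb n
  rw [h1, mul_one, ← pow_mul, mul_comm, ← hT] at h2
  have hle := Nat.card_le_card_of_surjective f hf
  exact (Nat.bijective_iff_surjective_and_card f).mpr ⟨hf, le_antisymm h2 hle⟩

/-- The algebra generated by elements in the span of a finite monoid image and by involutions
has dimension at most `#image * 2 ^ #involutions`. -/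
theorem finrank_le_of_adjoin {k A : Type*} [Field k] [CommRing A] [Algebra k A] {M : Type*}
    [Monoid M] (ψ : M →* A) (hfin : (Set.range ψ).Finite) {Q : Type*} [Fintype Q] (U : Q → A)
    (hU : ∀ q, U q * U q = 1) (S : Set A) (hS : S ⊆ Submodule.span k (Set.range ψ))
    (hgen : Algebra.adjoin k (S ∪ Set.range U) = ⊤) :
    Module.finrank k A ≤ Nat.card (Set.range ψ) * 2 ^ Fintype.card Q := by
  classical
  have := hfin.to_subtype
  let X : Set A :=
    Set.range fun x : Set.range ψ × (Q → Bool) => (x.1 : A) * ∏ q, if x.2 q then U q else 1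
  have hX1 : ∀ m, ψ m ∈ X := fun m => ⟨(⟨ψ m, m, rfl⟩, fun _ => false), by simp⟩
  have hmul : ∀ x ∈ X, ∀ y ∈ X, x * y ∈ X := by
    rintro _ ⟨⟨⟨_, a, rfl⟩, f⟩, rfl⟩ _ ⟨⟨⟨_, b, rfl⟩, g⟩, rfl⟩
    refine ⟨(⟨ψ (a * b), a * b, rfl⟩, fun q => xor (f q) (g q)), ?_⟩
    simp only [map_mul]
    rw [mul_mul_mul_comm, ← Finset.prod_mul_distrib]
    congr 1
    refine Finset.prod_congr rfl fun q _ => ?_
    by_cases hfq : f q = true <;> by_cases hgq : g q = true <;> simp [hfq, hgq, hU]
  have hmul' : ∀ x ∈ Submodule.span k X, ∀ y ∈ Submodule.span k X,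
      x * y ∈ Submodule.span k X := by
    intro x hx y hy
    have h := Submodule.mul_mem_mul hx hy
    rw [Submodule.span_mul_span] at h
    refine Submodule.span_mono ?_ h
    rintro _ ⟨a, ha, b, hb, rfl⟩
    exact hmul a ha b hb
  let W : Subalgebra k A := Submodule.toSubalgebra (Submodule.span k X)
    (Submodule.subset_span (by simpa using hX1 1)) (fun x y hx hy => hmul' x hx y hy)
  have htop : Submodule.span k X = ⊤ := by
    have : (⊤ : Subalgebra k A) ≤ W := by
      rw [← hgen, Algebra.adjoin_le_iff]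
      rintro x (hx | ⟨q, rfl⟩)
      · exact Submodule.span_mono (by rintro _ ⟨m, rfl⟩; exact hX1 m) (hS hx)
      · refine Submodule.subset_span ⟨(⟨ψ 1, 1, rfl⟩, fun p => decide (p = q)), ?_⟩
        simp
    exact eq_top_iff.mpr fun x _ => this (Algebra.mem_top (x := x))
  have hXfin : X.Finite := Set.finite_range _
  have := hXfin.to_subtype
  calc Module.finrank k A = Module.finrank k (Submodule.span k X) := by
        rw [htop, finrank_top]
    _ ≤ hXfin.toFinset.card := by
        have h := finrank_span_finset_le_card (R := k) hXfin.toFinset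
        rw [Set.finrank, Set.Finite.coe_toFinset] at h
        exact h
    _ = Nat.card X := (Nat.card_eq_card_finite_toFinset hXfin).symm
    _ ≤ Nat.card (Set.range ψ × (Q → Bool)) :=
        Nat.card_le_card_of_surjective (Set.rangeFactorization _) Set.rangeFactorization_surjective
    _ = _ := by simp [Nat.card_prod, Nat.card_eq_fintype_card]

end counting

end Fermat.Agent.Dihedral
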