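import Mathlib

/-!
# The key lemma of the genus-theory R = T in characteristic two

Pure algebra.  `A` is a local ring with nilpotent maximal ideal, `ρ : G →* M₂(A)` has determinant
one, `H ≤ G` has index two and the residual representation is dihedral with respect to `H`, written
in an eigenframe of an element `γ ∈ H`.  If the only residual `χ²`-cocycle on `H` killing `γ` and
`ker ρ` is zero, then `ρ` is induced from the character `h ↦ ρ h 0 0` of `H`.

Main results: `DihedralFrame.upperIn_bot` (the upper right entries vanish on `H`) and, derived from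
it, `DihedralFrame.lower_eq_zero`, `DihedralFrame.trace_eq_zero`.
-/

namespace Fermat.Agent.Dihedral

open Matrix IsLocalRing

variable {A : Type*} [CommRing A] {G : Type*} [Group G]

/-- All upper right entries of `ρ` on `H` lie in `I`. -/
def UpperIn (ρ : G →* Matrix (Fin 2) (Fin 2) A) (H : Subgroup G) (I : Ideal A) : Prop :=
  ∀ h ∈ H, ρ h 0 1 ∈ I

/-- A lift of a dihedral residual representation, in an eigenframe of `γ`. -/
structure DihedralFrame [IsLocalRing A] (ρ : G →* Matrix (Fin 2) (Fin 2) A) (H : Subgroup G)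
    (γ w : G) : Prop where
  det_eq : ∀ g, (ρ g).det = 1
  mem : γ ∈ H
  upper : ρ γ 0 1 = 0
  lower : ρ γ 1 0 = 0
  distinct : IsUnit (ρ γ 0 0 - ρ γ 1 1)
  residual : UpperIn ρ H (maximalIdeal A)
  conj_mem : ∀ h ∈ H, w * h * w⁻¹ ∈ H
  index_two : ∀ g, g ∉ H → g * w⁻¹ ∈ H
  swap : IsUnit (ρ w 0 1)

/-- Every residual `χ²`-cocycle on `H` which kills `γ` and the kernel of `ρ` is zero. -/
def SelmerVanish [IsLocalRing A] (ρ : G →* Matrix (Fin 2) (Fin 2) A) (H : Subgroup G) (γ : G) :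
    Prop :=
  ∀ f : H → A ⧸ maximalIdeal A,
    (∀ g h : H, f (g * h) = f g + Ideal.Quotient.mk _ (ρ g 0 0 ^ 2) * f h) →
    (∀ x : H, (x : G) = γ → f x = 0) → (∀ x : H, ρ x = 1 → f x = 0) → f = 0

section basic

theorem mul_apply_two (M N : Matrix (Fin 2) (Fin 2) A) (i j : Fin 2) :
    (M * N) i j = M i 0 * N 0 j + M i 1 * N 1 j := by
  simp [Matrix.mul_apply, Fin.sum_univ_two]

variable [IsLocalRing A] {ρ : G →* Matrix (Fin 2) (Fin 2) A} {H : Subgroup G} {γ w : G}

theorem DihedralFrame.entry_relation (_hρ : DihedralFrame ρ H γ w) (h : G) (i j : Fin 2) :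
    ρ w i 0 * ρ h 0 j + ρ w i 1 * ρ h 1 j =
      ρ (w * h * w⁻¹) i 0 * ρ w 0 j + ρ (w * h * w⁻¹) i 1 * ρ w 1 j := by
  rw [← mul_apply_two, ← mul_apply_two, ← map_mul, ← map_mul]
  simp

theorem DihedralFrame.diag_sub_conj_mem (hρ : DihedralFrame ρ H γ w) {I : Ideal A}
    (hI : UpperIn ρ H I) : ρ γ 1 1 - ρ (w * γ * w⁻¹) 0 0 ∈ I := by
  have h01 := hρ.entry_relation γ 0 1
  rw [hρ.upper] at h01
  obtain ⟨x, hx⟩ := hρ.swap
  have : ρ γ 1 1 - ρ (w * γ * w⁻¹) 0 0 =
      (↑x⁻¹ : A) * (ρ (w * γ * w⁻¹) 0 1 * ρ w 1 1) := by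
    have e : (↑x⁻¹ : A) * ↑x = 1 := x.inv_mul
    linear_combination (↑x⁻¹ : A) * h01 - (ρ γ 1 1 - ρ (w * γ * w⁻¹) 0 0) * e +
      (↑x⁻¹ : A) * (ρ γ 1 1 - ρ (w * γ * w⁻¹) 0 0) * hx
  rw [this]
  exact I.mul_mem_left _ (I.mul_mem_right _ (hI _ (hρ.conj_mem _ hρ.mem)))

theorem DihedralFrame.swap_diag_mem (hρ : DihedralFrame ρ H γ w) {I : Ideal A}
    (hI : UpperIn ρ H I) (hle : I ≤ maximalIdeal A) : ρ w 0 0 ∈ I := by
  have h00 := hρ.entry_relation γ 0 0
  rw [hρ.lower] at h00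
  have hu : IsUnit (ρ γ 0 0 - ρ (w * γ * w⁻¹) 0 0) := by
    have : ρ γ 0 0 - ρ (w * γ * w⁻¹) 0 0 =
        (ρ γ 0 0 - ρ γ 1 1) + (ρ γ 1 1 - ρ (w * γ * w⁻¹) 0 0) := by ring
    rw [this]
    by_contra hn
    have := (maximalIdeal A).sub_mem ((mem_maximalIdeal _).mpr hn)
      (hle (hρ.diag_sub_conj_mem hI))
    exact (mem_maximalIdeal _).mp (by simpa using this) hρ.distinct
  have : (ρ γ 0 0 - ρ (w * γ * w⁻¹) 0 0) * ρ w 0 0 = ρ (w * γ * w⁻¹) 0 1 * ρ w 1 0 := by
    linear_combination h00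
  exact (Ideal.unit_mul_mem_iff_mem I hu).mp
    (this ▸ I.mul_mem_right _ (hI _ (hρ.conj_mem _ hρ.mem)))

theorem DihedralFrame.lower_mem (hρ : DihedralFrame ρ H γ w) {I : Ideal A}
    (hI : UpperIn ρ H I) (hle : I ≤ maximalIdeal A) {h : G} (hh : h ∈ H) : ρ h 1 0 ∈ I := by
  have h00 := hρ.entry_relation h 0 0
  have ha := hρ.swap_diag_mem hI hle
  refine (Ideal.unit_mul_mem_iff_mem I hρ.swap).mp ?_
  have : ρ w 0 1 * ρ h 1 0 = ρ (w * h * w⁻¹) 0 0 * ρ w 0 0 + ρ (w * h * w⁻¹) 0 1 * ρ w 1 0 -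
      ρ w 0 0 * ρ h 0 0 := by
    linear_combination h00
  rw [this]
  exact I.sub_mem (I.add_mem (I.mul_mem_left _ ha)
    (I.mul_mem_right _ (hI _ (hρ.conj_mem _ hh)))) (I.mul_mem_right _ ha)

theorem DihedralFrame.diag_mul_sub_one_mem (hρ : DihedralFrame ρ H γ w) {h : G} (hh : h ∈ H) :
    ρ h 0 0 * ρ h 1 1 - 1 ∈ maximalIdeal A := by
  have hd := hρ.det_eq h
  rw [Matrix.det_fin_two] at hd
  rw [show ρ h 0 0 * ρ h 1 1 - 1 = ρ h 0 1 * ρ h 1 0 by linear_combination hd]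
  exact Ideal.mul_mem_right _ _ (hρ.residual h hh)

end basic

section induction

variable [IsLocalRing A] {ρ : G →* Matrix (Fin 2) (Fin 2) A} {H : Subgroup G} {γ w : G}

/-- The inductive step: if the upper right entries on `H` lie in `I`, their classes in `I ⧸ 𝔪 I`
form a residual cocycle, hence they lie in `𝔪 I`. -/
theorem DihedralFrame.upperIn_mul (hρ : DihedralFrame ρ H γ w) (hsel : SelmerVanish ρ H γ)
    {I : Ideal A} (hI : UpperIn ρ H I) : UpperIn ρ H (maximalIdeal A * I) := by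
  let V := I ⧸ (maximalIdeal A • ⊤ : Submodule A I)
  let _ : Field (A ⧸ maximalIdeal A) := Ideal.Quotient.field _
  let b : H → V := fun h => Submodule.Quotient.mk ⟨ρ (h : G) 0 1, hI h h.2⟩
  have hmk : ∀ (a : A) (v : V), (Ideal.Quotient.mk (maximalIdeal A) a) • v = a • v := by
    intro a v
    induction v using Submodule.Quotient.induction_on with
    | H x => rfl
  have hzero : ∀ v : V, ∀ a ∈ maximalIdeal A, a • v = 0 := by
    intro v a ha
    induction v using Submodule.Quotient.induction_on with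
    | H x =>
      rw [← Submodule.Quotient.mk_smul, Submodule.Quotient.mk_eq_zero]
      exact Submodule.smul_mem_smul ha Submodule.mem_top
  have hb : ∀ g h : H, b (g * h) = ρ g 0 0 • b h + ρ h 1 1 • b g := by
    intro g h
    simp only [b]
    rw [← Submodule.Quotient.mk_smul, ← Submodule.Quotient.mk_smul, ← Submodule.Quotient.mk_add]
    congr 1
    ext
    simp [mul_apply_two, mul_comm]
  have hall : ∀ h : H, b h = 0 := by
    intro h
    by_contra hne
    obtain ⟨φ, hφ⟩ : ∃ φ : Module.Dual (A ⧸ maximalIdeal A) V, φ (b h) ≠ 0 := by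
      by_contra hcon
      push Not at hcon
      exact hne ((Module.forall_dual_apply_eq_zero_iff _ _).mp hcon)
    let f : H → A ⧸ maximalIdeal A := fun x => φ (ρ x 0 0 • b x)
    have hf0 : ∀ x : H, b x = 0 → f x = 0 := fun x hx => by simp [f, hx]
    have hcoc : ∀ x y : H, f (x * y) = f x + Ideal.Quotient.mk _ (ρ x 0 0 ^ 2) * f y := by
      intro x y
      have h00 : ρ (x * y : G) 0 0 = ρ x 0 0 * ρ y 0 0 + ρ x 0 1 * ρ y 1 0 := by
        simp [mul_apply_two]
      have key : ρ ((x * y : H) : G) 0 0 • b (x * y) =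
          ρ x 0 0 • b x + (ρ x 0 0 ^ 2) • (ρ y 0 0 • b y) := by
        rw [hb, Subgroup.coe_mul, h00]
        have e1 : (ρ x 0 1 * ρ y 1 0) • (ρ x 0 0 • b y + ρ y 1 1 • b x) = 0 :=
          hzero _ _ (Ideal.mul_mem_right _ _ (hρ.residual x x.2))
        have e2 : (ρ y 0 0 * ρ y 1 1 - 1) • (ρ x 0 0 • b x) = 0 :=
          hzero _ _ (hρ.diag_mul_sub_one_mem y.2)
        linear_combination (norm := module) e1 + e2
      simp only [f, key, map_add]
      rw [← hmk (ρ x 0 0 ^ 2), φ.map_smul, smul_eq_mul]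
    have hf : f = 0 := by
      refine hsel f hcoc (fun x hx => hf0 x ?_) (fun x hx => hf0 x ?_)
      · simp only [b]
        have : (⟨ρ (x : G) 0 1, hI x x.2⟩ : I) = 0 := by ext; simp [hx, hρ.upper]
        rw [this]; rfl
      · simp only [b]
        have : (⟨ρ (x : G) 0 1, hI x x.2⟩ : I) = 0 := by ext; simp [hx]
        rw [this]; rfl
    have hfh : φ (ρ h 0 0 • b h) = 0 := congrFun hf h
    have hu : IsUnit (ρ (h : G) 0 0) := by
      refine isUnit_of_mul_isUnit_left (y := ρ (h : G) 1 1) ?_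
      by_contra hn
      have := (maximalIdeal A).sub_mem ((mem_maximalIdeal _).mpr hn)
        (hρ.diag_mul_sub_one_mem h.2)
      exact (mem_maximalIdeal _).mp (by simp at this : (1 : A) ∈ maximalIdeal A) isUnit_one
    rw [← hmk, map_smul, smul_eq_mul] at hfh
    exact hφ ((hu.map (Ideal.Quotient.mk (maximalIdeal A))).mul_right_eq_zero.mp hfh)
  intro h hh
  have h1 := (Submodule.Quotient.mk_eq_zero _).mp (hall ⟨h, hh⟩)
  have h2 := Submodule.mem_map_of_mem (f := (Submodule.subtype I)) h1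
  rw [Submodule.map_smul'', Submodule.map_top, Submodule.range_subtype] at h2
  exact h2

/-- **The key lemma.** If the residual cocycles vanish, the upper right entries on `H` are zero. -/
theorem DihedralFrame.upperIn_bot (hρ : DihedralFrame ρ H γ w) (hsel : SelmerVanish ρ H γ)
    (hnil : IsNilpotent (maximalIdeal A)) : UpperIn ρ H ⊥ := by
  obtain ⟨n, hn⟩ := hnil
  have : ∀ j : ℕ, UpperIn ρ H (maximalIdeal A ^ j) := by
    intro j
    induction j with
    | zero => intro h _; simp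
    | succ j ih => rw [pow_succ']; exact hρ.upperIn_mul hsel ih
  simpa [hn] using this n

theorem DihedralFrame.upper_eq_zero (_hρ : DihedralFrame ρ H γ w) (h0 : UpperIn ρ H (⊥ : Ideal A))
    {h : G} (hh : h ∈ H) : ρ h 0 1 = 0 :=
  Ideal.mem_bot.mp (h0 h hh)

variable (hρ : DihedralFrame ρ H γ w) (h0 : UpperIn ρ H (⊥ : Ideal A))
include hρ h0

theorem DihedralFrame.lower_eq_zero {h : G} (hh : h ∈ H) : ρ h 1 0 = 0 :=
  Ideal.mem_bot.mp (hρ.lower_mem h0 bot_le hh)

theorem DihedralFrame.swap_diag_eq_zero : ρ w 0 0 = 0 ∧ ρ w 1 1 = 0 := by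
  have ha : ρ w 0 0 = 0 := Ideal.mem_bot.mp (hρ.swap_diag_mem h0 bot_le)
  refine ⟨ha, ?_⟩
  have hd := hρ.det_eq w
  rw [Matrix.det_fin_two, ha, zero_mul, zero_sub] at hd
  have h01 := hρ.entry_relation γ 0 1
  have h10 := hρ.entry_relation γ 1 0
  have h11 := hρ.entry_relation γ 1 1
  have hm := hρ.conj_mem _ hρ.mem
  rw [ha, hρ.upper, hρ.upper_eq_zero h0 hm] at h01
  rw [ha, hρ.lower, hρ.lower_eq_zero h0 hm] at h10
  rw [hρ.upper, hρ.lower_eq_zero h0 hm] at h11
  have hz : (ρ γ 0 0 - ρ γ 1 1) * ρ w 1 1 = 0 := by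
    have e : ρ (w * γ * w⁻¹) 1 1 = ρ γ 0 0 := by
      linear_combination ρ w 0 1 * h10 - (ρ (w * γ * w⁻¹) 1 1 - ρ γ 0 0) * hd
    rw [← e]
    linear_combination -h11
  exact hρ.distinct.mul_right_eq_zero.mp hz

theorem DihedralFrame.diag_eq_zero {g : G} (hg : g ∉ H) : ρ g 0 0 = 0 ∧ ρ g 1 1 = 0 := by
  obtain ⟨ha, hd⟩ := hρ.swap_diag_eq_zero h0
  have hh := hρ.index_two g hg
  have : ρ g = ρ (g * w⁻¹) * ρ w := by rw [← map_mul]; simp
  constructor <;> rw [this, mul_apply_two] <;>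
    simp [ha, hd, hρ.upper_eq_zero h0 hh, hρ.lower_eq_zero h0 hh]

/-- Once `ρ` is diagonal on `H`, it is induced from `H`: its trace vanishes outside `H`. -/
theorem DihedralFrame.trace_eq_zero {g : G} (hg : g ∉ H) : (ρ g).trace = 0 := by
  obtain ⟨ha, hd⟩ := hρ.diag_eq_zero h0 hg
  simp [Matrix.trace_fin_two, ha, hd]

theorem DihedralFrame.diag_mul {g h : G} (hg : g ∈ H) :
    ρ (g * h) 0 0 = ρ g 0 0 * ρ h 0 0 := by
  simp [mul_apply_two, hρ.upper_eq_zero h0 hg]

theorem DihedralFrame.diag_mul_diag {h : G} (hh : h ∈ H) : ρ h 0 0 * ρ h 1 1 = 1 := by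
  have hd := hρ.det_eq h
  rw [Matrix.det_fin_two, hρ.upper_eq_zero h0 hh] at hd
  simpa using hd

end induction

end Fermat.Agent.Dihedral
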