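import Fermat.Agent.Dihedral.Key

/-!
# The local condition of the genus-theory R = T and the induced character

At a bad place, an auxiliary place and at `2` the same local condition is used: on a decomposition
group `D` there is an unramified quadratic character `s` with
`(ρ g - s g) (ρ h - s h) = 0`.  In characteristic two this forces `ρ|D` to be commutative of
exponent two, so every transfer from `D` lies in the kernel of `ρ`.

Main results: `LocalType.map_eq_one` and `exists_twoPowerChar`.
-/

namespace Fermat.Agent.Dihedral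

open Matrix IsLocalRing

variable {A : Type*} [CommRing A] {G : Type*} [Group G]

/-- The local condition. -/
structure LocalType (ρ : G →* Matrix (Fin 2) (Fin 2) A) (D : Subgroup G) (s : D →* A) : Prop where
  sq_eq : ∀ g, s g * s g = 1
  rel : ∀ g h : D, (ρ g - s g • 1) * (ρ h - s h • 1) = 0

namespace LocalType

variable {ρ : G →* Matrix (Fin 2) (Fin 2) A} {D : Subgroup G} {s : D →* A}

theorem mul_eq (hD : LocalType ρ D s) (g h : D) :
    ρ g * ρ h = s g • ρ h + s h • ρ g - (s g * s h) • 1 := by
  have e := hD.rel g h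
  simp only [sub_mul, mul_sub, smul_mul_assoc, mul_smul_comm, mul_one, one_mul, smul_sub,
    smul_smul] at e
  linear_combination (norm := module) e

theorem commute (hD : LocalType ρ D s) (g h : D) : Commute (ρ g) (ρ h) := by
  rw [commute_iff_eq, hD.mul_eq g h, hD.mul_eq h g, mul_comm (s g), add_comm]

theorem map_sq (hD : LocalType ρ D s) (h2 : (2 : A) = 0) (g : D) : ρ ((g : G) * g) = 1 := by
  rw [map_mul, hD.mul_eq g g, hD.sq_eq]
  have e : (2 : A) • (s g • ρ g - (1 : Matrix (Fin 2) (Fin 2) A)) = 0 := by rw [h2, zero_smul]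
  linear_combination (norm := module) e

theorem map_conj (hD : LocalType ρ D s) (g h : D) : ρ ((g : G) * h * (g : G)⁻¹) = ρ h := by
  rw [map_mul, map_mul, (hD.commute g h).eq, mul_assoc, ← map_mul]
  simp

theorem map_mul_conj (hD : LocalType ρ D s) (h2 : (2 : A) = 0) (g h : D) :
    ρ ((h : G) * ((g : G) * h * (g : G)⁻¹)) = 1 := by
  rw [map_mul, hD.map_conj g h, ← map_mul, hD.map_sq h2 h]

theorem map_eq_smul [IsLocalRing A] {H : Subgroup G} {γ w : G} (hρ : DihedralFrame ρ H γ w)
    (h0 : UpperIn ρ H ⊥) (hD : LocalType ρ D s) {τ : D} (hτ : (τ : G) ∉ H) {g : D}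
    (hg : (g : G) ∈ H) : ρ g = s g • 1 := by
  obtain ⟨a, d⟩ := hρ.diag_eq_zero h0 hτ
  have b := hρ.upper_eq_zero h0 hg
  have c := hρ.lower_eq_zero h0 hg
  have e00 := congrArg (fun M => M 0 0) (hD.rel g τ)
  have e11 := congrArg (fun M => M 1 1) (hD.rel g τ)
  simp [mul_apply_two, a, b] at e00
  simp [mul_apply_two, d, c] at e11
  have p : ρ (g : G) 0 0 = s g := by
    linear_combination s τ * e00 - (ρ (g : G) 0 0 - s g) * hD.sq_eq τ
  have q : ρ (g : G) 1 1 = s g := by
    linear_combination s τ * e11 - (ρ (g : G) 1 1 - s g) * hD.sq_eq τ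
  ext i j
  fin_cases i <;> fin_cases j <;> simp [b, c, p, q]

/-- If `D` is not contained in `H`, the part of `D ∩ H` with `s = 1` lies in the kernel of `ρ`. -/
theorem map_eq_one [IsLocalRing A] {H : Subgroup G} {γ w : G} (hρ : DihedralFrame ρ H γ w)
    (h0 : UpperIn ρ H ⊥) (hD : LocalType ρ D s) {τ : D} (hτ : (τ : G) ∉ H) {g : D}
    (hg : (g : G) ∈ H) (hs : s g = 1) : ρ g = 1 := by
  rw [hD.map_eq_smul hρ h0 hτ hg, hs, one_smul]

end LocalType

section character

variable [IsLocalRing A] {ρ : G →* Matrix (Fin 2) (Fin 2) A} {H : Subgroup G} {γ w : G}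

/-- The character of `H` inducing `ρ`. -/
def inducedChar (hρ : DihedralFrame ρ H γ w) (h0 : UpperIn ρ H ⊥) : H →* A where
  toFun h := ρ h 0 0
  map_one' := by simp
  map_mul' g h := by simpa using hρ.diag_mul h0 g.2

theorem inducedChar_apply (hρ : DihedralFrame ρ H γ w) (h0 : UpperIn ρ H ⊥) (h : H) :
    inducedChar hρ h0 h = ρ h 0 0 := rfl

theorem trace_eq_inducedChar (hρ : DihedralFrame ρ H γ w) (h0 : UpperIn ρ H ⊥) (h : H) :
    (ρ h).trace = inducedChar hρ h0 h + inducedChar hρ h0 h⁻¹ := by
  have e : inducedChar hρ h0 h * inducedChar hρ h0 h⁻¹ = 1 := by rw [← map_mul]; simp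
  have e' := hρ.diag_mul_diag h0 h.2
  rw [Matrix.trace_fin_two]
  rw [inducedChar_apply] at e ⊢
  linear_combination -ρ (h : G) 1 1 * e + inducedChar hρ h0 h⁻¹ * e'

variable {k : Type*} [Field k] [Algebra k A]

/-- Up to constants from the coefficient field the inducing character has values of two-power
order, and the traces of `ρ` lie in the span of these values. -/
theorem exists_twoPowerChar (hρ : DihedralFrame ρ H γ w) (h0 : UpperIn ρ H ⊥) (h2 : (2 : A) = 0)
    (hk : ∀ a : A, ∃ c : k, a - algebraMap k A c ∈ maximalIdeal A)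
    {N : ℕ} (hN : maximalIdeal A ^ N = ⊥) :
    ∃ ψ : H →* A, (∀ x : H, ρ x = 1 → ψ x = 1) ∧ (∀ x, ψ x ^ (2 ^ N) = 1) ∧
      ∀ g : G, (ρ g).trace ∈ Submodule.span k (Set.range ψ) := by
  classical
  have huniq : ∀ c d : k, algebraMap k A c - algebraMap k A d ∈ maximalIdeal A → c = d := by
    intro c d hcd
    by_contra hne
    rw [← map_sub, mem_maximalIdeal] at hcd
    exact hcd ((sub_ne_zero.mpr hne).isUnit.map (algebraMap k A))
  choose c hc using fun h : H => hk (inducedChar hρ h0 h)
  have hc1 : c 1 = 1 := huniq _ _ (by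
    have := (maximalIdeal A).neg_mem (hc 1)
    simpa using this)
  have hcm : ∀ x y, c (x * y) = c x * c y := by
    intro x y
    refine huniq _ _ ?_
    have e : algebraMap k A (c (x * y)) - algebraMap k A (c x * c y) =
        inducedChar hρ h0 y * (inducedChar hρ h0 x - algebraMap k A (c x)) +
          algebraMap k A (c x) * (inducedChar hρ h0 y - algebraMap k A (c y)) -
          (inducedChar hρ h0 (x * y) - algebraMap k A (c (x * y))) := by
      rw [map_mul, map_mul]; ring
    rw [e]
    exact (maximalIdeal A).sub_mem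
      ((maximalIdeal A).add_mem (Ideal.mul_mem_left _ _ (hc x)) (Ideal.mul_mem_left _ _ (hc y)))
      (hc _)
  have hcinv : ∀ x, c x * c x⁻¹ = 1 := fun x => by rw [← hcm, mul_inv_cancel, hc1]
  let ψ : H →* A :=
    { toFun := fun x => algebraMap k A (c x⁻¹) * inducedChar hρ h0 x
      map_one' := by simp [hc1]
      map_mul' := fun x y => by rw [_root_.mul_inv_rev, hcm, map_mul, map_mul]; ring }
  refine ⟨ψ, ?_, ?_, ?_⟩
  · intro x hx
    have h1 : inducedChar hρ h0 x⁻¹ = 1 := by
      have e : inducedChar hρ h0 x * inducedChar hρ h0 x⁻¹ = 1 := by rw [← map_mul]; simp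
      rw [inducedChar_apply, hx] at e
      simpa using e
    have hcx : c x⁻¹ = 1 := huniq _ _ (by
      have := (maximalIdeal A).neg_mem (hc x⁻¹)
      simpa [h1] using this)
    simp [ψ, hcx, inducedChar_apply, hx]
  · intro x
    have hmem : ψ x - 1 ∈ maximalIdeal A := by
      have : ψ x - 1 = algebraMap k A (c x⁻¹) * (inducedChar hρ h0 x - algebraMap k A (c x)) := by
        simp only [ψ, MonoidHom.coe_mk, OneHom.coe_mk, mul_sub, ← map_mul, mul_comm (c x⁻¹),
          hcinv, map_one]
      rw [this]; exact Ideal.mul_mem_left _ _ (hc x)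
    have : CharP A 2 := CharTwo.of_one_ne_zero_of_two_eq_zero one_ne_zero h2
    have h := Ideal.pow_mem_pow hmem (2 ^ N)
    have hle := Ideal.pow_le_pow_right (I := maximalIdeal A) (N.lt_two_pow_self).le h
    rw [hN, Ideal.mem_bot, sub_pow_char_pow, one_pow, sub_eq_zero] at hle
    exact hle
  · intro g
    by_cases hg : g ∈ H
    · have hval : ∀ x : H, inducedChar hρ h0 x = c x • ψ x := by
        intro x
        simp only [ψ, MonoidHom.coe_mk, OneHom.coe_mk, Algebra.smul_def]
        rw [← mul_assoc, ← map_mul, hcinv, map_one, one_mul]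
      rw [show g = ((⟨g, hg⟩ : H) : G) from rfl, trace_eq_inducedChar hρ h0, hval, hval]
      exact Submodule.add_mem _ (Submodule.smul_mem _ _ (Submodule.subset_span ⟨_, rfl⟩))
        (Submodule.smul_mem _ _ (Submodule.subset_span ⟨_, rfl⟩))
    · rw [hρ.trace_eq_zero h0 hg]; exact Submodule.zero_mem _

end character

end Fermat.Agent.Dihedral
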