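import Fermat.Agent.Dihedral.Local

/-!
# Normalisations for the key lemma

An element with distinct residual diagonal entries can be diagonalised
(`exists_conj_diag`).
-/

namespace Fermat.Agent.Dihedral

open Matrix IsLocalRing

variable {A : Type*} [CommRing A]

/-- The equation `x = b + a x²` with `b` in a nilpotent maximal ideal has a solution there. -/
theorem exists_root_quadratic [IsLocalRing A] {N : ℕ} (hN : maximalIdeal A ^ N = ⊥) (a b : A)
    (hb : b ∈ maximalIdeal A) : ∃ x ∈ maximalIdeal A, x = b + a * x ^ 2 := by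
  let F : A → A := fun x => b + a * x ^ 2
  have hmem : ∀ i, F^[i] 0 ∈ maximalIdeal A := by
    intro i
    induction i with
    | zero => simp
    | succ i ih =>
      rw [Function.iterate_succ_apply']
      exact Ideal.add_mem _ hb (Ideal.mul_mem_left _ _ (Ideal.pow_mem_of_mem _ ih 2 two_pos))
  have hdiff : ∀ i, F^[i + 1] 0 - F^[i] 0 ∈ maximalIdeal A ^ (i + 1) := by
    intro i
    induction i with
    | zero => simpa [F] using hb
    | succ i ih =>
      rw [Function.iterate_succ_apply' F (i + 1), Function.iterate_succ_apply' F i]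
      rw [Function.iterate_succ_apply' F i] at ih
      have : F (F (F^[i] 0)) - F (F^[i] 0) =
          a * ((F (F^[i] 0) + F^[i] 0) * (F (F^[i] 0) - F^[i] 0)) := by
        simp only [F]; ring
      rw [this, pow_succ' (maximalIdeal A) (i + 1)]
      refine Ideal.mul_mem_left _ _ (Ideal.mul_mem_mul (Ideal.add_mem _ ?_ (hmem i)) ih)
      simpa [Function.iterate_succ_apply'] using hmem (i + 1)
  refine ⟨F^[N] 0, hmem N, ?_⟩
  have h := Ideal.pow_le_pow_right (I := maximalIdeal A) (Nat.le_succ N) (hdiff N)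
  rw [hN, Ideal.mem_bot, sub_eq_zero, Function.iterate_succ_apply'] at h
  exact h.symm

/-- An element whose residual matrix is diagonal with distinct entries is diagonalisable. -/
theorem exists_conj_diag [IsLocalRing A] {N : ℕ} (hN : maximalIdeal A ^ N = ⊥)
    (M : Matrix (Fin 2) (Fin 2) A) (h01 : M 0 1 ∈ maximalIdeal A) (h10 : M 1 0 ∈ maximalIdeal A)
    (hu : IsUnit (M 0 0 - M 1 1)) :
    ∃ P : (Matrix (Fin 2) (Fin 2) A)ˣ, ∃ D : Matrix (Fin 2) (Fin 2) A,
      D 0 1 = 0 ∧ D 1 0 = 0 ∧ M * (P : Matrix (Fin 2) (Fin 2) A) = (P : Matrix _ _ A) * D ∧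
      (∀ i j, (P : Matrix (Fin 2) (Fin 2) A) i j - (1 : Matrix (Fin 2) (Fin 2) A) i j ∈
        maximalIdeal A) ∧ D 0 0 - M 0 0 ∈ maximalIdeal A ∧ D 1 1 - M 1 1 ∈ maximalIdeal A := by
  obtain ⟨v, hv⟩ := hu
  have hw : (↑v⁻¹ : A) * (M 0 0 - M 1 1) = 1 := by rw [← hv, v.inv_mul]
  obtain ⟨x, hx, ex⟩ := exists_root_quadratic hN (↑v⁻¹ * M 1 0) (-(↑v⁻¹) * M 0 1)
    (Ideal.mul_mem_left _ _ h01)
  obtain ⟨y, hy, ey⟩ := exists_root_quadratic hN (-(↑v⁻¹) * M 0 1) (↑v⁻¹ * M 1 0)
    (Ideal.mul_mem_left _ _ h10)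
  let P : Matrix (Fin 2) (Fin 2) A := !![1, x; y, 1]
  have hdet : IsUnit P.det := by
    rw [Matrix.det_fin_two_of, one_mul]
    by_contra hn
    have := (maximalIdeal A).add_mem ((mem_maximalIdeal _).mpr hn)
      (Ideal.mul_mem_left _ x hy)
    exact (mem_maximalIdeal _).mp (by simp at this : (1 : A) ∈ maximalIdeal A) isUnit_one
  refine ⟨((Matrix.isUnit_iff_isUnit_det P).mpr hdet).unit,
    !![M 0 0 + M 0 1 * y, 0; 0, M 1 1 + M 1 0 * x], by simp, by simp, ?_, ?_, ?_, ?_⟩
  · rw [IsUnit.unit_spec]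
    ext i j
    fin_cases i <;> fin_cases j <;> simp [P, mul_apply_two]
    · linear_combination (M 0 0 - M 1 1) * ex +
        (M 1 0 * x ^ 2 - M 0 1) * hw
    · linear_combination -(M 0 0 - M 1 1) * ey +
        (M 0 1 * y ^ 2 - M 1 0) * hw
    · ring
  · intro i j
    rw [IsUnit.unit_spec]
    fin_cases i <;> fin_cases j <;> simp [P, hx, hy]
  · simpa using Ideal.mul_mem_right _ _ h01
  · simpa using Ideal.mul_mem_right _ _ h10

end Fermat.Agent.Dihedral
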