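import Fermat.Agent.Hecke.Duality
import Fermat.Prelude.Def_CuspForm_HeckeLocal

/-!
# Hecke characters from integral expansions

A combination, with coefficients in a commutative ring `A`, of integral cusp forms of weight two
whose expansion satisfies the Hecke recursion (`IsHeckeSeq`) gives a ring homomorphism from the
Hecke algebra to `A` with the expansion as its values.

Main result: `exists_heckeChar`.
-/

set_option autoImplicit false

noncomputable section

open CongruenceSubgroup ModularFormClass CuspForm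
open Fermat.Agent.Hecke

namespace Fermat.Agent.Dihedral.Theta

variable {N : ℕ} [NeZero N] {ι : Type*} [Fintype ι] {A : Type*} [CommRing A]

omit [NeZero N] in
theorem exists_intCoeff (g : ↥(intLattice N 2)) (n : ℕ) :
    ∃ z : ℤ, qCoeff (⇑(g : CuspForm (Gamma0 N) 2)) n = (z : ℂ) :=
  (Fermat.Agent.Hecke.mem_intLattice_iff _).mp g.2 n

/-- The integral coefficient. -/
def intCoeff (g : ↥(intLattice N 2)) (n : ℕ) : ℤ := (exists_intCoeff g n).choose

omit [NeZero N] in
theorem intCoeff_spec (g : ↥(intLattice N 2)) (n : ℕ) :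
    qCoeff (⇑(g : CuspForm (Gamma0 N) 2)) n = (intCoeff g n : ℂ) :=
  (exists_intCoeff g n).choose_spec

omit [NeZero N] in
theorem intCoeff_eq_of {g : ↥(intLattice N 2)} {n : ℕ} {z : ℤ}
    (h : qCoeff (⇑(g : CuspForm (Gamma0 N) 2)) n = (z : ℂ)) : intCoeff g n = z :=
  Int.cast_injective (α := ℂ) ((intCoeff_spec g n).symm.trans h)

/-- The `A`-valued expansion of a combination of integral forms. -/
def combCoeff (lam : ι → A) (H : ι → ↥(intLattice N 2)) (n : ℕ) : A :=
  ∑ i, lam i * (intCoeff (H i) n : A)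

/-- The action of a Hecke operator on the lattice. -/
def latAct (t : ↥(heckeAlgebra N 2 ∅)) (g : ↥(intLattice N 2)) : ↥(intLattice N 2) :=
  latticeActionHom N ∅ t g

/-- The Hecke recursion for an `A`-valued sequence in weight two. -/
structure IsHeckeSeq (N : ℕ) (a : ℕ → A) : Prop where
  one : a 1 = 1
  good : ∀ l : ℕ, l.Prime → ¬ l ∣ N → ∀ n, 1 ≤ n →
    a (n * l) + (if l ∣ n then (l : A) * a (n / l) else 0) = a l * a n
  bad : ∀ l : ℕ, l.Prime → l ∣ N → ∀ n, 1 ≤ n → a (n * l) = a l * a n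

theorem coe_latAct (t : ↥(heckeAlgebra N 2 ∅)) (g : ↥(intLattice N 2)) :
    ((latAct t g : ↥(intLattice N 2)) : CuspForm (Gamma0 N) 2) =
      (t : Module.End ℂ (CuspForm (Gamma0 N) 2)) (g : CuspForm (Gamma0 N) 2) := rfl

theorem intCoeff_latAct_T {l : ℕ} (hl : l.Prime) (hlN : ¬ l ∣ N) (g : ↥(intLattice N 2)) (n : ℕ) :
    intCoeff (latAct (heckeAlgebra.T hl hlN (Set.notMem_empty _)) g) n =
      intCoeff g (n * l) + (if l ∣ n then (l : ℤ) * intCoeff g (n / l) else 0) := by
  refine intCoeff_eq_of ?_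
  rw [coe_latAct, heckeAlgebra.coe_T, qCoeff_heckeTLin_two]
  split_ifs <;> simp [intCoeff_spec]

theorem intCoeff_latAct_U {q : ℕ} (hq : q.Prime) (hqN : q ∣ N) (g : ↥(intLattice N 2)) (n : ℕ) :
    intCoeff (latAct (heckeAlgebra.U hq hqN (Set.notMem_empty _)) g) n = intCoeff g (n * q) := by
  refine intCoeff_eq_of ?_
  rw [coe_latAct, heckeAlgebra.coe_U, qCoeff_heckeULin, intCoeff_spec]

variable (lam : ι → A) {a : ℕ → A}

/-- `t` multiplies every combination with expansion `c₀ a` by `c`. -/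
def ScalesBy (a : ℕ → A) (t : ↥(heckeAlgebra N 2 ∅)) (c : A) : Prop :=
  ∀ (H : ι → ↥(intLattice N 2)) (c₀ : A), (∀ n, 1 ≤ n → combCoeff lam H n = c₀ * a n) →
    ∀ n, 1 ≤ n → combCoeff lam (fun i => latAct t (H i)) n = c * c₀ * a n

theorem scalesBy_T (ha : IsHeckeSeq N a) {l : ℕ} (hl : l.Prime) (hlN : ¬ l ∣ N) :
    ScalesBy lam a (heckeAlgebra.T hl hlN (Set.notMem_empty _)) (a l) := by
  intro H c₀ hH n hn
  have h : combCoeff lam (fun i => latAct (heckeAlgebra.T hl hlN (Set.notMem_empty _)) (H i)) n =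
      combCoeff lam H (n * l) + (if l ∣ n then (l : A) * combCoeff lam H (n / l) else 0) := by
    simp only [combCoeff, intCoeff_latAct_T]
    split_ifs with hd
    · rw [Finset.mul_sum, ← Finset.sum_add_distrib]
      refine Finset.sum_congr rfl fun i _ => ?_
      push_cast
      ring
    · simp
  rw [h, hH _ (Nat.one_le_iff_ne_zero.mpr (mul_ne_zero (by omega) hl.ne_zero))]
  split_ifs with hd
  · rw [hH _ (Nat.div_pos (Nat.le_of_dvd hn hd) hl.pos)]
    have := ha.good l hl hlN n hn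
    rw [if_pos hd] at this
    linear_combination c₀ * this
  · have := ha.good l hl hlN n hn
    rw [if_neg hd, add_zero] at this
    linear_combination c₀ * this

theorem scalesBy_U (ha : IsHeckeSeq N a) {q : ℕ} (hq : q.Prime) (hqN : q ∣ N) :
    ScalesBy lam a (heckeAlgebra.U hq hqN (Set.notMem_empty _)) (a q) := by
  intro H c₀ hH n hn
  have h : combCoeff lam (fun i => latAct (heckeAlgebra.U hq hqN (Set.notMem_empty _)) (H i)) n =
      combCoeff lam H (n * q) := by
    simp only [combCoeff, intCoeff_latAct_U]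
  rw [h, hH _ (Nat.one_le_iff_ne_zero.mpr (mul_ne_zero (by omega) hq.ne_zero)),
    ha.bad q hq hqN n hn]
  ring

theorem exists_scalesBy (ha : IsHeckeSeq N a) (t : ↥(heckeAlgebra N 2 ∅)) :
    ∃ c, ScalesBy lam a t c := by
  obtain ⟨x, hx⟩ := t
  induction hx using Algebra.adjoin_induction with
  | mem x hx =>
    rcases hx with ⟨l, hl, hlN, -, rfl⟩ | ⟨q, hqN, hq, -, rfl⟩
    · exact ⟨_, scalesBy_T lam ha hl hlN⟩
    · exact ⟨_, scalesBy_U lam ha hq hqN⟩
  | algebraMap r =>
    refine ⟨(r : A), fun H c₀ hH n hn => ?_⟩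
    have h : ∀ i, intCoeff (latAct ⟨algebraMap ℤ _ r, Subalgebra.algebraMap_mem _ r⟩ (H i)) n =
        r * intCoeff (H i) n := fun i => by
      refine intCoeff_eq_of ?_
      rw [coe_latAct]
      change qCoeff (⇑((algebraMap ℤ (Module.End ℂ (CuspForm (Gamma0 N) 2)) r)
        (H i : CuspForm (Gamma0 N) 2))) n = _
      rw [Module.algebraMap_end_apply, qCoeff_zsmul, intCoeff_spec]
      push_cast
      rfl
    simp only [combCoeff, h, Int.cast_mul, mul_left_comm (lam _) (r : A)]
    rw [← Finset.mul_sum, mul_assoc]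
    congr 1
    exact hH n hn
  | add x y hx hy ihx ihy =>
    obtain ⟨c, hc⟩ := ihx
    obtain ⟨d, hd⟩ := ihy
    refine ⟨c + d, fun H c₀ hH n hn => ?_⟩
    have h : ∀ i, intCoeff (latAct ⟨x + y, Subalgebra.add_mem _ hx hy⟩ (H i)) n =
        intCoeff (latAct ⟨x, hx⟩ (H i)) n + intCoeff (latAct ⟨y, hy⟩ (H i)) n := fun i => by
      refine intCoeff_eq_of ?_
      rw [coe_latAct, LinearMap.add_apply, qCoeff_add, Int.cast_add, ← intCoeff_spec,
        ← intCoeff_spec]
      rfl
    simp only [combCoeff, h, Int.cast_add, mul_add, Finset.sum_add_distrib, add_mul]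
    exact congrArg₂ (· + ·) (hc H c₀ hH n hn) (hd H c₀ hH n hn)
  | mul x y hx hy ihx ihy =>
    obtain ⟨c, hc⟩ := ihx
    obtain ⟨d, hd⟩ := ihy
    refine ⟨c * d, fun H c₀ hH n hn => ?_⟩
    have h := hc (fun i => latAct ⟨y, hy⟩ (H i)) (d * c₀) (hd H c₀ hH) n hn
    rw [mul_assoc c d, ← h]
    rfl

/-- The character of the Hecke algebra cut out by the `A`-valued expansion. -/
theorem exists_heckeChar (ha : IsHeckeSeq N a) (G : ι → ↥(intLattice N 2))
    (hG : ∀ n, 1 ≤ n → combCoeff lam G n = a n) :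
    ∃ φ : ↥(heckeAlgebra N 2 ∅) →+* A,
      (∀ (l : ℕ) (hl : l.Prime) (hlN : ¬ l ∣ N),
        φ (heckeAlgebra.T hl hlN (Set.notMem_empty _)) = a l) ∧
      (∀ (q : ℕ) (hq : q.Prime) (hqN : q ∣ N),
        φ (heckeAlgebra.U hq hqN (Set.notMem_empty _)) = a q) ∧
      (∀ n, 1 ≤ n → φ (heckeTn N n) = a n) ∧
      (∀ t : ↥(heckeAlgebra N 2 ∅),
        (∀ i, (t : Module.End ℂ (CuspForm (Gamma0 N) 2)) (G i : CuspForm (Gamma0 N) 2) = 0) →
        φ t = 0) := by
  set F : ↥(heckeAlgebra N 2 ∅) → A := fun t => combCoeff lam (fun i => latAct t (G i)) 1 with hF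
  have h1 : ∀ n, 1 ≤ n → combCoeff lam G n = (1 : A) * a n := fun n hn => by rw [hG n hn, one_mul]
  have key : ∀ t c, ScalesBy lam a t c → F t = c := fun t c hc => by
    have := hc G 1 h1 1 le_rfl
    rwa [ha.one, mul_one, mul_one] at this
  have hmul : ∀ s t, F (s * t) = F s * F t := by
    intro s t
    obtain ⟨c, hc⟩ := exists_scalesBy lam ha s
    obtain ⟨d, hd⟩ := exists_scalesBy lam ha t
    have h := hc (fun i => latAct t (G i)) (d * 1) (hd G 1 h1) 1 le_rfl
    rw [mul_one, ha.one, mul_one] at h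
    rw [key s c hc, key t d hd, ← h]
    rfl
  have hadd : ∀ s t, F (s + t) = F s + F t := by
    intro s t
    simp only [hF, combCoeff, ← Finset.sum_add_distrib, ← mul_add, ← Int.cast_add]
    refine Finset.sum_congr rfl fun i _ => congrArg (fun z : ℤ => lam i * (z : A))
      (intCoeff_eq_of ?_)
    rw [coe_latAct, AddMemClass.coe_add, LinearMap.add_apply, qCoeff_add, Int.cast_add,
      ← intCoeff_spec, ← intCoeff_spec]
    rfl
  have hone : F 1 = 1 := by
    have h : ∀ i, latAct 1 (G i) = G i := fun i => by simp [latAct]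
    simp only [hF, h]
    rw [hG 1 le_rfl, ha.one]
  let φ : ↥(heckeAlgebra N 2 ∅) →+* A :=
    RingHom.mk' ⟨⟨F, hone⟩, hmul⟩ hadd
  refine ⟨φ, fun l hl hlN => key _ _ (scalesBy_T lam ha hl hlN),
    fun q hq hqN => key _ _ (scalesBy_U lam ha hq hqN), fun n hn => ?_, fun t ht => ?_⟩
  swap
  · change F t = 0
    simp only [hF, combCoeff]
    refine Finset.sum_eq_zero fun i _ => ?_
    have h0 : intCoeff (latAct t (G i)) 1 = 0 :=
      intCoeff_eq_of (by rw [coe_latAct, ht i]; simp)
    rw [h0, Int.cast_zero, mul_zero]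
  change F (heckeTn N n) = a n
  rw [← hG n hn]
  simp only [hF, combCoeff]
  refine Finset.sum_congr rfl fun i _ => congrArg (fun z : ℤ => lam i * (z : A)) (intCoeff_eq_of ?_)
  rw [coe_latAct, qCoeff_one_heckeTn, intCoeff_spec]

end Fermat.Agent.Dihedral.Theta
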