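import Fermat.Agent.Dihedral.ThetaCount

/-!
# Anisotropy of sums of two scaled binary forms

For two binary forms `Q`, `R` of the same determinant `M` we show that values of `d Q ⊕ d' R`
divisible by `p²` come from vectors divisible by `p`, at an odd prime `p` dividing `M` once
(`dvd_of_sq_dvd`), at an inert prime dividing one of the scales once (`dvd_of_sq_dvd_inert`), and
the analogue at `2` when `M = 8m` (`two_dvd_of_sixteen_dvd`).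

Such anisotropy makes the representation numbers `pairCount` invariant under squares
(`pairCount_sq_mul`).
-/

set_option autoImplicit false

noncomputable section

namespace Fermat.Agent.Dihedral.Theta

namespace BForm

variable (Q R : BForm)

/-- The number of representations of `n` by `Q ⊕ R`. -/
def pairCount (n : ℕ) : ℕ :=
  Nat.card {v : (ℤ × ℤ) × (ℤ × ℤ) // Q.valNat v.1 + R.valNat v.2 = n}

theorem coeff_repSeries_mul (n : ℕ) :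
    (Q.repSeries * R.repSeries).coeff n = (pairCount Q R n : ℂ) := by
  classical
  rw [PowerSeries.coeff_mul]
  simp only [repSeries, PowerSeries.coeff_mk, ← Nat.cast_mul, ← Nat.cast_sum]
  congr 1
  have hQf := fun i => Q.finite_valNat_fibre i
  have hRf := fun i => R.finite_valNat_fibre i
  let e : {v : (ℤ × ℤ) × (ℤ × ℤ) // Q.valNat v.1 + R.valNat v.2 = n} ≃
      (ij : {ij : ℕ × ℕ // ij ∈ Finset.HasAntidiagonal.antidiagonal n}) ×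
        ({v : ℤ × ℤ // Q.valNat v = ij.1.1} × {w : ℤ × ℤ // R.valNat w = ij.1.2}) :=
    { toFun := fun v => ⟨⟨(Q.valNat v.1.1, R.valNat v.1.2),
        Finset.HasAntidiagonal.mem_antidiagonal.mpr v.2⟩,
        ⟨v.1.1, rfl⟩, ⟨v.1.2, rfl⟩⟩
      invFun := fun x => ⟨(x.2.1.1, x.2.2.1), by
        rw [x.2.1.2, x.2.2.2]
        exact Finset.HasAntidiagonal.mem_antidiagonal.mp x.1.2⟩
      left_inv := fun v => rfl
      right_inv := by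
        rintro ⟨⟨⟨i, j⟩, hij⟩, ⟨v, hv⟩, ⟨w, hw⟩⟩
        simp only at hv hw
        subst hv hw
        rfl }
  rw [pairCount, Nat.card_congr e]
  rw [Nat.card_sigma]
  simp only [Nat.card_prod, repCount]
  exact (Finset.sum_coe_sort (Finset.HasAntidiagonal.antidiagonal n)
    (fun ij => Nat.card {v : ℤ × ℤ // Q.valNat v = ij.1} *
      Nat.card {w : ℤ × ℤ // R.valNat w = ij.2})).symm

theorem valNat_smul (k : ℕ) (v : ℤ × ℤ) :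
    Q.valNat ((k : ℤ) * v.1, (k : ℤ) * v.2) = k ^ 2 * Q.valNat v := by
  have h : (Q.valNat ((k : ℤ) * v.1, (k : ℤ) * v.2) : ℤ) = ((k ^ 2 * Q.valNat v : ℕ) : ℤ) := by
    rw [valNat_cast]
    push_cast
    rw [Q.valNat_cast]
    simp only [val, Int.cast_id]
    ring
  exact_mod_cast h

/-- If values divisible by `s` come from vectors divisible by `k`, then `pairCount` is unchanged
from `k² n` to `n` for those indices. -/
theorem pairCount_sq_mul (k s n : ℕ) (hk : 0 < k) (hs : s ∣ k ^ 2 * n)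
    (h : ∀ v w : ℤ × ℤ, (s : ℤ) ∣ Q.val v.1 v.2 + R.val w.1 w.2 →
      ((k : ℤ) ∣ v.1 ∧ (k : ℤ) ∣ v.2) ∧ (k : ℤ) ∣ w.1 ∧ (k : ℤ) ∣ w.2) :
    pairCount Q R (k ^ 2 * n) = pairCount Q R n := by
  symm
  have hk0 : (k : ℤ) ≠ 0 := by exact_mod_cast hk.ne'
  refine Nat.card_eq_of_bijective (fun v => ⟨((((k : ℤ) * v.1.1.1, (k : ℤ) * v.1.1.2)),
    ((k : ℤ) * v.1.2.1, (k : ℤ) * v.1.2.2)), by
      rw [valNat_smul, valNat_smul, ← mul_add, v.2]⟩) ⟨fun v w hvw => ?_, fun v => ?_⟩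
  · have e := congrArg Subtype.val hvw
    simp only [Prod.mk.injEq] at e
    exact Subtype.ext (Prod.ext (Prod.ext (mul_left_cancel₀ hk0 e.1.1) (mul_left_cancel₀ hk0 e.1.2))
      (Prod.ext (mul_left_cancel₀ hk0 e.2.1) (mul_left_cancel₀ hk0 e.2.2)))
  · obtain ⟨⟨⟨a, b⟩, ⟨c, e⟩⟩, hv⟩ := v
    have hdvd : (s : ℤ) ∣ Q.val a b + R.val c e := by
      have h1 : ((Q.valNat (a, b) + R.valNat (c, e) : ℕ) : ℤ) = Q.val a b + R.val c e := by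
        push_cast
        rw [Q.valNat_cast, R.valNat_cast]
      rw [← h1, hv]
      exact_mod_cast hs
    obtain ⟨⟨⟨a', rfl⟩, ⟨b', rfl⟩⟩, ⟨c', rfl⟩, ⟨e', rfl⟩⟩ := h (a, b) (c, e) hdvd
    refine ⟨⟨((a', b'), (c', e')), ?_⟩, rfl⟩
    change Q.valNat ((k : ℤ) * ((a', b') : ℤ × ℤ).1, (k : ℤ) * ((a', b') : ℤ × ℤ).2) +
      R.valNat ((k : ℤ) * ((c', e') : ℤ × ℤ).1, (k : ℤ) * ((c', e') : ℤ × ℤ).2) = _ at hv
    rw [valNat_smul, valNat_smul, ← mul_add] at hv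
    exact Nat.eq_of_mul_eq_mul_left (pow_pos hk 2) hv

theorem eq_zero_of_not_isSquare {F : Type*} [Field F] {a b x y : F}
    (hab : ¬ IsSquare (-(a * b))) (h : a * x ^ 2 + b * y ^ 2 = 0) : x = 0 ∧ y = 0 := by
  have hb : b ≠ 0 := fun hb => hab (by simp [hb])
  have ha : a ≠ 0 := fun ha => hab (by simp [ha])
  have hx : x = 0 := by
    by_contra hx
    refine hab ⟨b * y / x, ?_⟩
    field_simp
    linear_combination -h
  refine ⟨hx, ?_⟩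
  rw [hx, zero_pow two_ne_zero, mul_zero, zero_add, mul_eq_zero] at h
  exact pow_eq_zero_iff two_ne_zero |>.mp (h.resolve_left hb)

/-- The linear map `v ↦ (B(v, v₀), det (v, v₀))` is injective modulo `p ∤ 2 Q(v₀)`. -/
theorem eq_zero_of_pairing {p : ℕ} [Fact p.Prime] (hp : (2 : ZMod p) ≠ 0) (v v₀ : ℤ × ℤ)
    (h₀ : ((Q.val v₀.1 v₀.2 : ℤ) : ZMod p) ≠ 0)
    (hX : ((2 * Q.A * (v.1 * v₀.1) + Q.B * (v.1 * v₀.2 + v.2 * v₀.1) +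
      2 * Q.C * (v.2 * v₀.2) : ℤ) : ZMod p) = 0)
    (hY : ((v.1 * v₀.2 - v.2 * v₀.1 : ℤ) : ZMod p) = 0) :
    (p : ℤ) ∣ v.1 ∧ (p : ℤ) ∣ v.2 := by
  simp only [val, Int.cast_id] at h₀
  push_cast at hX hY h₀
  have hu := mul_ne_zero hp h₀
  rw [← ZMod.intCast_zmod_eq_zero_iff_dvd, ← ZMod.intCast_zmod_eq_zero_iff_dvd]
  constructor
  · refine (mul_eq_zero.mp ?_).resolve_left hu
    linear_combination (v₀.1 : ZMod p) * hX +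
      ((Q.B : ZMod p) * v₀.1 + 2 * Q.C * v₀.2) * hY
  · refine (mul_eq_zero.mp ?_).resolve_left hu
    linear_combination (v₀.2 : ZMod p) * hX -
      (2 * (Q.A : ZMod p) * v₀.1 + Q.B * v₀.2) * hY

/-- Anisotropy at an odd prime dividing the common determinant exactly once. -/
theorem dvd_of_sq_dvd {p : ℕ} [Fact p.Prime] (hp2 : p ≠ 2) (hdet : R.det = Q.det)
    (hpM : (p : ℤ) ∣ Q.det) (hp2M : ¬ (p : ℤ) ^ 2 ∣ Q.det) (d d' : ℤ) (v₀ w₀ : ℤ × ℤ)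
    (hns : ¬ IsSquare (-((d * d' * Q.val v₀.1 v₀.2 * R.val w₀.1 w₀.2 : ℤ) : ZMod p)))
    (v w : ℤ × ℤ) (h : (p : ℤ) ^ 2 ∣ d * Q.val v.1 v.2 + d' * R.val w.1 w.2) :
    ((p : ℤ) ∣ v.1 ∧ (p : ℤ) ∣ v.2) ∧ (p : ℤ) ∣ w.1 ∧ (p : ℤ) ∣ w.2 := by
  have hchar : ringChar (ZMod p) ≠ 2 := by rwa [ZMod.ringChar_zmod_n]
  have h2 : (2 : ZMod p) ≠ 0 := Ring.two_ne_zero hchar
  set q₀ := Q.val v₀.1 v₀.2 with hq₀
  set r₀ := R.val w₀.1 w₀.2 with hr₀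
  set X := 2 * Q.A * (v.1 * v₀.1) + Q.B * (v.1 * v₀.2 + v.2 * v₀.1) + 2 * Q.C * (v.2 * v₀.2)
  set Y := v.1 * v₀.2 - v.2 * v₀.1
  set X' := 2 * R.A * (w.1 * w₀.1) + R.B * (w.1 * w₀.2 + w.2 * w₀.1) + 2 * R.C * (w.2 * w₀.2)
  set Y' := w.1 * w₀.2 - w.2 * w₀.1
  have eQ : 4 * (Q.val v.1 v.2 * q₀) = X ^ 2 + Q.det * Y ^ 2 := Q.four_val_mul_val' v v₀
  have eR : 4 * (R.val w.1 w.2 * r₀) = X' ^ 2 + R.det * Y' ^ 2 := R.four_val_mul_val' w w₀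
  rw [hdet] at eR
  have hsum : (p : ℤ) ^ 2 ∣ d * r₀ * (X ^ 2 + Q.det * Y ^ 2) +
      d' * q₀ * (X' ^ 2 + Q.det * Y' ^ 2) := by
    rw [← eQ, ← eR]
    obtain ⟨k, hk⟩ := h
    exact ⟨4 * q₀ * r₀ * k, by linear_combination (4 * q₀ * r₀) * hk⟩
  have hns' : ¬ IsSquare (-(((d * r₀ : ℤ) : ZMod p) * ((d' * q₀ : ℤ) : ZMod p))) := by
    rw [← Int.cast_mul]
    convert hns using 4
    ring
  have hM0 : (Q.det : ZMod p) = 0 := (ZMod.intCast_zmod_eq_zero_iff_dvd _ p).mpr hpM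
  obtain ⟨hX, hX'⟩ : (X : ZMod p) = 0 ∧ (X' : ZMod p) = 0 := by
    refine eq_zero_of_not_isSquare hns' ?_
    have := (ZMod.intCast_zmod_eq_zero_iff_dvd _ p).mpr
      ((dvd_pow_self (p : ℤ) two_ne_zero).trans hsum)
    push_cast at this ⊢
    rw [hM0] at this
    linear_combination this
  obtain ⟨X₁, hX₁⟩ := (ZMod.intCast_zmod_eq_zero_iff_dvd _ p).mp hX
  obtain ⟨X₁', hX₁'⟩ := (ZMod.intCast_zmod_eq_zero_iff_dvd _ p).mp hX'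
  obtain ⟨M₁, hM₁⟩ := hpM
  have hM₁0 : (M₁ : ZMod p) ≠ 0 := fun hc => by
    obtain ⟨z, hz⟩ := (ZMod.intCast_zmod_eq_zero_iff_dvd _ p).mp hc
    exact hp2M ⟨z, by rw [hM₁, hz]; ring⟩
  obtain ⟨hY, hY'⟩ : (Y : ZMod p) = 0 ∧ (Y' : ZMod p) = 0 := by
    refine eq_zero_of_not_isSquare hns' ?_
    have h1 : (p : ℤ) * p ∣ (p : ℤ) * ((p : ℤ) * (d * r₀ * X₁ ^ 2 + d' * q₀ * X₁' ^ 2) +
        M₁ * (d * r₀ * Y ^ 2 + d' * q₀ * Y' ^ 2)) := by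
      have e : (p : ℤ) * ((p : ℤ) * (d * r₀ * X₁ ^ 2 + d' * q₀ * X₁' ^ 2) +
          M₁ * (d * r₀ * Y ^ 2 + d' * q₀ * Y' ^ 2)) =
          d * r₀ * (X ^ 2 + Q.det * Y ^ 2) + d' * q₀ * (X' ^ 2 + Q.det * Y' ^ 2) := by
        rw [hX₁, hX₁', hM₁]; ring
      rw [e, ← pow_two]
      exact hsum
    have h2' := (ZMod.intCast_zmod_eq_zero_iff_dvd _ p).mpr
      ((mul_dvd_mul_iff_left (by exact_mod_cast (Fact.out : p.Prime).ne_zero)).mp h1)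
    push_cast at h2' ⊢
    rw [ZMod.natCast_self] at h2'
    refine (mul_eq_zero.mp ?_).resolve_left hM₁0
    linear_combination h2'
  have hq : (q₀ : ZMod p) ≠ 0 := fun hc => hns (by simp [hc])
  have hr : (r₀ : ZMod p) ≠ 0 := fun hc => hns (by simp [hc])
  exact ⟨Q.eq_zero_of_pairing h2 v v₀ hq hX hY, R.eq_zero_of_pairing h2 w w₀ hr hX' hY'⟩

/-- An inert prime divides a value only if it divides the vector. -/
theorem dvd_of_dvd_val {q : ℕ} [Fact q.Prime] (hq2 : q ≠ 2)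
    (hns : ¬ IsSquare (-(Q.det : ZMod q))) (v : ℤ × ℤ) (h : (q : ℤ) ∣ Q.val v.1 v.2) :
    (q : ℤ) ∣ v.1 ∧ (q : ℤ) ∣ v.2 := by
  have hchar : ringChar (ZMod q) ≠ 2 := by rwa [ZMod.ringChar_zmod_n]
  have h2 : (2 : ZMod q) ≠ 0 := Ring.two_ne_zero hchar
  have hA : (Q.A : ZMod q) ≠ 0 := fun hA => hns ⟨(Q.B : ZMod q), by
    simp only [det]
    push_cast
    rw [hA]
    ring⟩
  have h0 : (Q.A : ZMod q) * (v.1 : ZMod q) ^ 2 + (Q.B : ZMod q) * ((v.1 : ZMod q) * v.2) +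
      (Q.C : ZMod q) * (v.2 : ZMod q) ^ 2 = 0 := by
    have := (ZMod.intCast_zmod_eq_zero_iff_dvd _ q).mpr h
    simp only [val, Int.cast_id] at this
    push_cast at this
    exact this
  have hv2 : (v.2 : ZMod q) = 0 := by
    by_contra hv
    refine hns ⟨(2 * (Q.A : ZMod q) * v.1 + Q.B * v.2) / v.2, ?_⟩
    simp only [det]
    push_cast
    field_simp
    linear_combination (-4 * (Q.A : ZMod q)) * h0
  have hv1 : (v.1 : ZMod q) = 0 := by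
    rw [hv2] at h0
    have : (Q.A : ZMod q) * (v.1 : ZMod q) ^ 2 = 0 := by linear_combination h0
    exact pow_eq_zero_iff two_ne_zero |>.mp ((mul_eq_zero.mp this).resolve_left hA)
  exact ⟨(ZMod.intCast_zmod_eq_zero_iff_dvd _ q).mp hv1,
    (ZMod.intCast_zmod_eq_zero_iff_dvd _ q).mp hv2⟩

/-- Anisotropy at an inert prime dividing exactly one scale exactly once. -/
theorem dvd_of_sq_dvd_inert {q : ℕ} [Fact q.Prime] (hq2 : q ≠ 2) (hdet : R.det = Q.det)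
    (hns : ¬ IsSquare (-(Q.det : ZMod q))) (d d' : ℤ) (hd : (q : ℤ) ∣ d)
    (hd2 : ¬ (q : ℤ) ^ 2 ∣ d) (hd' : ¬ (q : ℤ) ∣ d')
    (v w : ℤ × ℤ) (h : (q : ℤ) ^ 2 ∣ d * Q.val v.1 v.2 + d' * R.val w.1 w.2) :
    ((q : ℤ) ∣ v.1 ∧ (q : ℤ) ∣ v.2) ∧ (q : ℤ) ∣ w.1 ∧ (q : ℤ) ∣ w.2 := by
  have hq : Prime (q : ℤ) := Nat.prime_iff_prime_int.mp Fact.out
  have hw : (q : ℤ) ∣ w.1 ∧ (q : ℤ) ∣ w.2 := by
    refine R.dvd_of_dvd_val hq2 (by rwa [hdet]) w ?_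
    have := dvd_sub ((dvd_pow_self (q : ℤ) two_ne_zero).trans h) (hd.mul_right (Q.val v.1 v.2))
    rw [add_sub_cancel_left] at this
    exact (hq.dvd_or_dvd this).resolve_left hd'
  refine ⟨Q.dvd_of_dvd_val hq2 hns v ?_, hw⟩
  obtain ⟨⟨a, ha⟩, ⟨b, hb⟩⟩ := hw
  have hR : (q : ℤ) ^ 2 ∣ d' * R.val w.1 w.2 :=
    ⟨d' * R.val a b, by rw [ha, hb]; simp only [val, Int.cast_id]; ring⟩
  have hQ : (q : ℤ) ^ 2 ∣ d * Q.val v.1 v.2 := (dvd_add_left hR).mp h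
  obtain ⟨d₁, rfl⟩ := hd
  rw [pow_two, mul_assoc, mul_dvd_mul_iff_left hq.ne_zero] at hQ
  refine (hq.dvd_or_dvd hQ).resolve_left fun hc => hd2 ?_
  rw [pow_two]
  exact mul_dvd_mul_left _ hc

theorem even_B_of_four_dvd (h : (4 : ℤ) ∣ Q.det) : (2 : ℤ) ∣ Q.B := by
  have h1 : (2 : ℤ) ∣ Q.B ^ 2 := by
    obtain ⟨k, hk⟩ := h
    exact ⟨2 * Q.A * Q.C - 2 * k, by simp only [det] at hk; linarith⟩
  exact Int.prime_two.dvd_of_dvd_pow h1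

theorem not_norm_of_eq_zero {μ a b x y x' y' : ZMod 8} (ha : a * a = 1) (hb : b * b = 1)
    (hj : (x' ^ 2 + 2 * μ * y' ^ 2) * (x' ^ 2 + 2 * μ * y' ^ 2) = 1)
    (h : a * (x ^ 2 + 2 * μ * y ^ 2) + b * (x' ^ 2 + 2 * μ * y' ^ 2) = 0) :
    -(a * b) = (x * x' - 2 * μ * y * y') ^ 2 + 2 * μ * (x * y' + x' * y) ^ 2 := by
  linear_combination (-a * (x' ^ 2 + 2 * μ * y' ^ 2)) * h + (a * b) * hj +
    ((x ^ 2 + 2 * μ * y ^ 2) * (x' ^ 2 + 2 * μ * y' ^ 2)) * ha + 0 * hb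

theorem odd_sq_eight : ∀ z : ZMod 8, (2 * z + 1) * (2 * z + 1) = 1 := by decide

theorem sq_eq_one_of_odd {z : ℤ} (hz : ¬ (2 : ℤ) ∣ z) : (z : ZMod 8) * (z : ZMod 8) = 1 := by
  obtain ⟨k, rfl⟩ : ∃ k, z = 2 * k + 1 := ⟨z / 2, by omega⟩
  push_cast
  exact odd_sq_eight _

/-- Anisotropy at `2` when the determinant is `8m`, `m` odd. -/
theorem two_dvd_of_sixteen_dvd {m : ℤ} (hm : ¬ (2 : ℤ) ∣ m) (hQ : Q.det = 8 * m)
    (hR : R.det = 8 * m) (d d' : ℤ) (hd : ¬ (2 : ℤ) ∣ d) (hd' : ¬ (2 : ℤ) ∣ d')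
    (v₀ w₀ : ℤ × ℤ) (hq₀ : ¬ (2 : ℤ) ∣ Q.val v₀.1 v₀.2) (hr₀ : ¬ (2 : ℤ) ∣ R.val w₀.1 w₀.2)
    (hns : ∀ x y : ZMod 8, x ^ 2 + 2 * (m : ZMod 8) * y ^ 2 ≠
      -((d * d' * Q.val v₀.1 v₀.2 * R.val w₀.1 w₀.2 : ℤ) : ZMod 8))
    (v w : ℤ × ℤ) (h : (16 : ℤ) ∣ d * Q.val v.1 v.2 + d' * R.val w.1 w.2) :
    ((2 : ℤ) ∣ v.1 ∧ (2 : ℤ) ∣ v.2) ∧ (2 : ℤ) ∣ w.1 ∧ (2 : ℤ) ∣ w.2 := by
  obtain ⟨bQ, hbQ⟩ := Q.even_B_of_four_dvd (by rw [hQ]; exact ⟨2 * m, by ring⟩)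
  obtain ⟨bR, hbR⟩ := R.even_B_of_four_dvd (by rw [hR]; exact ⟨2 * m, by ring⟩)
  set q₀ := Q.val v₀.1 v₀.2 with hq₀'
  set r₀ := R.val w₀.1 w₀.2 with hr₀'
  set X := Q.A * (v.1 * v₀.1) + bQ * (v.1 * v₀.2 + v.2 * v₀.1) + Q.C * (v.2 * v₀.2) with hX
  set Y := v.1 * v₀.2 - v.2 * v₀.1 with hY
  set X' := R.A * (w.1 * w₀.1) + bR * (w.1 * w₀.2 + w.2 * w₀.1) + R.C * (w.2 * w₀.2) with hX'
  set Y' := w.1 * w₀.2 - w.2 * w₀.1 with hY'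
  have eQ : Q.val v.1 v.2 * q₀ = X ^ 2 + 2 * m * Y ^ 2 := by
    have := Q.four_val_mul_val' v v₀
    rw [hQ, hbQ, ← hq₀'] at this
    rw [hX, hY]
    linarith
  have eR : R.val w.1 w.2 * r₀ = X' ^ 2 + 2 * m * Y' ^ 2 := by
    have := R.four_val_mul_val' w w₀
    rw [hR, hbR, ← hr₀'] at this
    rw [hX', hY']
    linarith
  set a := d * r₀ with ha
  set b := d' * q₀ with hb
  have ha2 : ¬ (2 : ℤ) ∣ a := fun hc => (Int.prime_two.dvd_or_dvd hc).elim hd hr₀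
  have hb2 : ¬ (2 : ℤ) ∣ b := fun hc => (Int.prime_two.dvd_or_dvd hc).elim hd' hq₀
  have hsum : (16 : ℤ) ∣ a * (X ^ 2 + 2 * m * Y ^ 2) + b * (X' ^ 2 + 2 * m * Y' ^ 2) := by
    rw [← eQ, ← eR]
    obtain ⟨k, hk⟩ := h
    exact ⟨q₀ * r₀ * k, by rw [ha, hb]; linear_combination (q₀ * r₀) * hk⟩
  have hns' : ∀ x y : ZMod 8, x ^ 2 + 2 * (m : ZMod 8) * y ^ 2 ≠
      -((a : ZMod 8) * (b : ZMod 8)) := by
    intro x y hxy
    refine hns x y (hxy.trans ?_)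
    rw [ha, hb]
    push_cast
    ring
  have hmm : (m : ZMod 8) * (m : ZMod 8) = 1 := sq_eq_one_of_odd hm
  -- `X, X'` are even
  have h8 : (a : ZMod 8) * ((X : ZMod 8) ^ 2 + 2 * (m : ZMod 8) * (Y : ZMod 8) ^ 2) +
      (b : ZMod 8) * ((X' : ZMod 8) ^ 2 + 2 * (m : ZMod 8) * (Y' : ZMod 8) ^ 2) = 0 := by
    have := (ZMod.intCast_zmod_eq_zero_iff_dvd _ 8).mpr
      ((show ((8 : ℕ) : ℤ) ∣ 16 by norm_num).trans hsum)
    push_cast at this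
    exact this
  have hXX' : (2 : ℤ) ∣ X ∧ (2 : ℤ) ∣ X' := by
    by_contra hcon
    have hpar : (2 : ℤ) ∣ a * X ^ 2 + b * X' ^ 2 := by
      obtain ⟨k, hk⟩ := hsum
      exact ⟨8 * k - m * (a * Y ^ 2 + b * Y' ^ 2), by linarith⟩
    have hodd : ¬ (2 : ℤ) ∣ X' := fun hc => by
      refine hcon ⟨?_, hc⟩
      have : (2 : ℤ) ∣ a * X ^ 2 := by
        have := dvd_sub hpar ((dvd_pow hc two_ne_zero).mul_left b)
        simpa using this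
      exact Int.prime_two.dvd_of_dvd_pow ((Int.prime_two.dvd_or_dvd this).resolve_left ha2)
    have hj : ¬ (2 : ℤ) ∣ X' ^ 2 + 2 * m * Y' ^ 2 := fun hc => hodd (by
      refine Int.prime_two.dvd_of_dvd_pow ((dvd_add_left ?_).mp hc)
      exact ⟨m * Y' ^ 2, by ring⟩)
    refine hns' _ _ (not_norm_of_eq_zero (sq_eq_one_of_odd ha2) (sq_eq_one_of_odd hb2) ?_ h8).symm
    have := sq_eq_one_of_odd hj
    push_cast at this
    exact this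
  obtain ⟨⟨X₁, hX₁⟩, ⟨X₁', hX₁'⟩⟩ := hXX'
  have h8' : (8 : ℤ) ∣ a * (2 * X₁ ^ 2 + m * Y ^ 2) + b * (2 * X₁' ^ 2 + m * Y' ^ 2) := by
    obtain ⟨k, hk⟩ := hsum
    rw [hX₁, hX₁'] at hk
    exact ⟨k, by linarith⟩
  have hYY' : (2 : ℤ) ∣ Y ∧ (2 : ℤ) ∣ Y' := by
    by_contra hcon
    have hpar : (2 : ℤ) ∣ a * m * Y ^ 2 + b * m * Y' ^ 2 := by
      obtain ⟨k, hk⟩ := h8'
      exact ⟨4 * k - a * X₁ ^ 2 - b * X₁' ^ 2, by linarith⟩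
    have hodd : ¬ (2 : ℤ) ∣ Y' := fun hc => by
      refine hcon ⟨?_, hc⟩
      have : (2 : ℤ) ∣ a * m * Y ^ 2 := by
        have := dvd_sub hpar ((dvd_pow hc two_ne_zero).mul_left (b * m))
        simpa using this
      refine Int.prime_two.dvd_of_dvd_pow ((Int.prime_two.dvd_or_dvd this).resolve_left ?_)
      exact fun hc' => (Int.prime_two.dvd_or_dvd hc').elim ha2 hm
    have hj : ¬ (2 : ℤ) ∣ 2 * X₁' ^ 2 + m * Y' ^ 2 := fun hc => by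
      have : (2 : ℤ) ∣ m * Y' ^ 2 := (dvd_add_right (dvd_mul_right 2 _)).mp hc
      exact (Int.prime_two.dvd_or_dvd this).elim hm
        fun hc' => hodd (Int.prime_two.dvd_of_dvd_pow hc')
    have h0 : (a : ZMod 8) * (2 * (X₁ : ZMod 8) ^ 2 + (m : ZMod 8) * (Y : ZMod 8) ^ 2) +
        (b : ZMod 8) * (2 * (X₁' : ZMod 8) ^ 2 + (m : ZMod 8) * (Y' : ZMod 8) ^ 2) = 0 := by
      have := (ZMod.intCast_zmod_eq_zero_iff_dvd _ 8).mpr h8'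
      push_cast at this
      exact this
    have hj1 := sq_eq_one_of_odd hj
    push_cast at hj1
    have ha1 := sq_eq_one_of_odd ha2
    refine hns' (2 * (X₁ : ZMod 8) * X₁' + (m : ZMod 8) * Y * Y')
      ((X₁ : ZMod 8) * Y' - X₁' * Y) ?_
    linear_combination
      ((a : ZMod 8) * (2 * (X₁' : ZMod 8) ^ 2 + (m : ZMod 8) * (Y' : ZMod 8) ^ 2)) * h0 +
      (-(a : ZMod 8) * b) * hj1 +
      (-(2 * (X₁ : ZMod 8) ^ 2 + (m : ZMod 8) * (Y : ZMod 8) ^ 2) *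
        (2 * (X₁' : ZMod 8) ^ 2 + (m : ZMod 8) * (Y' : ZMod 8) ^ 2)) * ha1 + 0 * hmm
  obtain ⟨hY2, hY2'⟩ := hYY'
  have fin : ∀ (F : BForm) (β : ℤ) (u u₀ : ℤ × ℤ), F.B = 2 * β →
      ¬ (2 : ℤ) ∣ F.val u₀.1 u₀.2 →
      (2 : ℤ) ∣ F.A * (u.1 * u₀.1) + β * (u.1 * u₀.2 + u.2 * u₀.1) + F.C * (u.2 * u₀.2) →
      (2 : ℤ) ∣ u.1 * u₀.2 - u.2 * u₀.1 → (2 : ℤ) ∣ u.1 ∧ (2 : ℤ) ∣ u.2 := by
    intro F β u u₀ hβ hu₀ h1 h2
    constructor <;> refine (Int.prime_two.dvd_or_dvd ?_).resolve_left hu₀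
    · have : F.val u₀.1 u₀.2 * u.1 =
          u₀.1 * (F.A * (u.1 * u₀.1) + β * (u.1 * u₀.2 + u.2 * u₀.1) + F.C * (u.2 * u₀.2)) +
            (β * u₀.1 + F.C * u₀.2) * (u.1 * u₀.2 - u.2 * u₀.1) := by
        simp only [val, Int.cast_id, hβ]; ring
      rw [this]
      exact dvd_add (h1.mul_left _) (h2.mul_left _)
    · have : F.val u₀.1 u₀.2 * u.2 =
          u₀.2 * (F.A * (u.1 * u₀.1) + β * (u.1 * u₀.2 + u.2 * u₀.1) + F.C * (u.2 * u₀.2)) -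
            (F.A * u₀.1 + β * u₀.2) * (u.1 * u₀.2 - u.2 * u₀.1) := by
        simp only [val, Int.cast_id, hβ]; ring
      rw [this]
      exact dvd_sub (h1.mul_left _) (h2.mul_left _)
  exact ⟨fin Q bQ v v₀ hbQ hq₀ ⟨X₁, hX₁⟩ hY2, fin R bR w w₀ hbR hr₀ ⟨X₁', hX₁'⟩ hY2'⟩

end BForm

end Fermat.Agent.Dihedral.Theta
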