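import Fermat.Agent.Eisenstein.Poisson

/-!
# Poisson summation for binary quadratic forms

Positive definite integral binary quadratic forms (`BForm`), their lower bounds, and Poisson
summation in two variables for their shifted Gaussians.

Main result: `BForm.poisson`.
-/

set_option autoImplicit false

noncomputable section

open Complex UpperHalfPlane
open scoped Real
open Fermat.Agent.Eisenstein (ex ex_add norm_ex shifted_gaussian summable_gauss neg_div_im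
  neg_one_div_im_pos summable_norm_of_bound)

namespace Fermat.Agent.Dihedral.Theta

/-- A positive definite integral binary quadratic form `A x² + B x y + C y²`. -/
structure BForm where
  A : ℤ
  B : ℤ
  C : ℤ
  A_pos : 0 < A
  disc_neg : B ^ 2 < 4 * A * C

namespace BForm

variable (Q : BForm)

/-- `4AC - B²`. -/
def det : ℤ := 4 * Q.A * Q.C - Q.B ^ 2

theorem det_pos : 0 < Q.det := by
  have := Q.disc_neg
  simp only [det]
  linarith

theorem C_pos : 0 < Q.C := by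
  by_contra h
  nlinarith [Q.disc_neg, sq_nonneg Q.B, mul_le_mul_of_nonneg_left (not_lt.mp h) Q.A_pos.le]

/-- The value of the form. -/
def val {R : Type*} [CommRing R] (x y : R) : R :=
  (Q.A : R) * x ^ 2 + (Q.B : R) * (x * y) + (Q.C : R) * y ^ 2

/-- The value of the adjugate form. -/
def dval {R : Type*} [CommRing R] (x y : R) : R :=
  (Q.C : R) * x ^ 2 - (Q.B : R) * (x * y) + (Q.A : R) * y ^ 2

/-- The lower bound constant. -/
def low : ℝ := (Q.det : ℝ) / (4 * ((Q.A : ℝ) + Q.C))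

theorem low_pos : 0 < Q.low := by
  have h1 : (0 : ℝ) < Q.A := by exact_mod_cast Q.A_pos
  have h2 : (0 : ℝ) < Q.C := by exact_mod_cast Q.C_pos
  have h3 : (0 : ℝ) < Q.det := by exact_mod_cast Q.det_pos
  rw [low]
  positivity

theorem val_lower (x y : ℝ) : Q.low * (x ^ 2 + y ^ 2) ≤ Q.val x y := by
  have h1 : (0 : ℝ) < Q.A := by exact_mod_cast Q.A_pos
  have h2 : (0 : ℝ) < Q.C := by exact_mod_cast Q.C_pos
  rw [low, div_mul_eq_mul_div, div_le_iff₀ (by positivity)]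
  simp only [det, val]
  push_cast
  nlinarith [sq_nonneg (2 * (Q.A : ℝ) * x + Q.B * y), sq_nonneg ((Q.B : ℝ) * x + 2 * Q.C * y)]

theorem dval_lower (x y : ℝ) : Q.low * (x ^ 2 + y ^ 2) ≤ Q.dval x y := by
  have h := Q.val_lower (-y) x
  have e : Q.val (-y) x = Q.dval x y := by simp only [val, dval]; ring
  rw [e] at h
  linarith

theorem dval_eq_zero_iff (x y : ℤ) : Q.dval x y = 0 ↔ x = 0 ∧ y = 0 := by
  refine ⟨fun h => ?_, fun ⟨hx, hy⟩ => by simp [hx, hy, dval]⟩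
  have h' : Q.dval (x : ℝ) (y : ℝ) = 0 := by
    have := congrArg (Int.cast : ℤ → ℝ) h
    simpa [dval] using this
  have := Q.dval_lower (x : ℝ) (y : ℝ)
  rw [h'] at this
  have hxy : (x : ℝ) ^ 2 + (y : ℝ) ^ 2 ≤ 0 := by
    by_contra hc
    nlinarith [mul_pos Q.low_pos (not_le.mp hc)]
  constructor <;> [skip; skip]
  · have : (x : ℝ) ^ 2 = 0 := le_antisymm (by nlinarith [sq_nonneg (y : ℝ)]) (sq_nonneg _)
    exact_mod_cast pow_eq_zero_iff two_ne_zero |>.mp this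
  · have : (y : ℝ) ^ 2 = 0 := le_antisymm (by nlinarith [sq_nonneg (x : ℝ)]) (sq_nonneg _)
    exact_mod_cast pow_eq_zero_iff two_ne_zero |>.mp this

theorem summable_norm_val (τ : ℍ) (v₀ v₁ : ℝ) :
    Summable fun x : ℤ × ℤ =>
      ‖ex (-(Q.val ((x.1 : ℂ) + v₀) ((x.2 : ℂ) + v₁)) / (τ : ℂ))‖ := by
  have hc : 0 < 2 * π * Q.low * (-1 / (τ : ℂ)).im := by
    have := neg_one_div_im_pos τ
    have := Q.low_pos
    positivity
  refine summable_norm_of_bound hc hc v₀ v₁ fun x => ?_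
  rw [norm_ex, ← Real.exp_add, Real.exp_le_exp,
    show Q.val ((x.1 : ℂ) + v₀) ((x.2 : ℂ) + v₁) =
      ((Q.val ((x.1 : ℝ) + v₀) ((x.2 : ℝ) + v₁) : ℝ) : ℂ) by simp [val], neg_div_im]
  have h := mul_le_mul_of_nonneg_left (Q.val_lower ((x.1 : ℝ) + v₀) ((x.2 : ℝ) + v₁))
    (mul_pos Real.two_pi_pos (neg_one_div_im_pos τ)).le
  nlinarith [h]

theorem summable_norm_dval (τ : ℍ) (v₀ v₁ : ℝ) :
    Summable fun w : ℤ × ℤ =>
      ‖ex ((τ : ℂ) * Q.dval (w.1 : ℂ) (w.2 : ℂ) / (Q.det : ℂ) +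
        ((w.1 : ℂ) * v₀ + (w.2 : ℂ) * v₁))‖ := by
  have hd : (0 : ℝ) < Q.det := by exact_mod_cast Q.det_pos
  have hc : 0 < 2 * π * Q.low * (τ : ℂ).im / Q.det := by
    have := τ.im_pos
    have := Q.low_pos
    positivity
  refine summable_norm_of_bound hc hc 0 0 fun x => ?_
  rw [norm_ex, ← Real.exp_add, Real.exp_le_exp,
    show ((τ : ℂ) * Q.dval (x.1 : ℂ) (x.2 : ℂ) / (Q.det : ℂ) +
        ((x.1 : ℂ) * v₀ + (x.2 : ℂ) * v₁)).im =
      (τ : ℂ).im * Q.dval (x.1 : ℝ) (x.2 : ℝ) / Q.det by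
      rw [show Q.dval (x.1 : ℂ) (x.2 : ℂ) = ((Q.dval (x.1 : ℝ) (x.2 : ℝ) : ℝ) : ℂ) by simp [dval],
        show ((Q.det : ℤ) : ℂ) = ((Q.det : ℝ) : ℂ) by simp]
      simp]
  have h := mul_le_mul_of_nonneg_left (Q.dval_lower (x.1 : ℝ) (x.2 : ℝ))
    (div_pos (mul_pos Real.two_pi_pos (show (0 : ℝ) < (τ : ℂ).im from τ.im_pos)) hd).le
  ring_nf
  ring_nf at h
  linarith

/-- Poisson summation in two variables. -/
theorem poisson (τ : ℍ) (v₀ v₁ : ℝ) :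
    ∑' x : ℤ × ℤ, ex (-(Q.val ((x.1 : ℂ) + v₀) ((x.2 : ℂ) + v₁)) / (τ : ℂ)) =
      (-Complex.I * (τ : ℂ) / (Real.sqrt Q.det : ℝ)) *
        ∑' w : ℤ × ℤ, ex ((τ : ℂ) * Q.dval (w.1 : ℂ) (w.2 : ℂ) / (Q.det : ℂ) +
          ((w.1 : ℂ) * v₀ + (w.2 : ℂ) * v₁)) := by
  set a : ℝ := (Q.A : ℝ) with ha
  set q : ℝ := (Q.det : ℝ) with hq
  have ha0 : 0 < a := by rw [ha]; exact_mod_cast Q.A_pos
  have hq0 : 0 < q := by rw [hq]; exact_mod_cast Q.det_pos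
  have hdet : (Q.det : ℂ) = 4 * (Q.A : ℂ) * Q.C - (Q.B : ℂ) ^ 2 := by simp [det]
  have hane : (Q.A : ℂ) ≠ 0 := by exact_mod_cast Q.A_pos.ne'
  have hdne : (Q.det : ℂ) ≠ 0 := by exact_mod_cast Q.det_pos.ne'
  have hτ : (τ : ℂ) ≠ 0 := τ.ne_zero
  set α : ℝ := q / (4 * a) with hα
  have hα0 : 0 < α := by positivity
  have hαC : (α : ℂ) = (Q.det : ℂ) / (4 * (Q.A : ℂ)) := by
    rw [hα, ha, hq]; push_cast; rfl
  have haC : (a : ℂ) = (Q.A : ℂ) := by rw [ha]; push_cast; rfl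
  have hS := (Q.summable_norm_val τ v₀ v₁).of_norm
  have hR := (Q.summable_norm_dval τ v₀ v₁).of_norm
  set c₁ : ℂ := (-Complex.I * (τ : ℂ) / (2 * (a : ℂ))) ^ (1 / 2 : ℂ) with hc₁
  set c₂ : ℂ := (-Complex.I * (τ : ℂ) / (2 * (α : ℂ))) ^ (1 / 2 : ℂ) with hc₂
  set H : ℤ → ℤ → ℂ := fun b m => ex (-(α : ℂ) * ((b : ℂ) + v₁) ^ 2 / τ) *
    ex ((τ : ℂ) * (m : ℂ) ^ 2 / (4 * (a : ℂ)) +
      (m : ℂ) * (v₀ + (Q.B : ℂ) * ((b : ℂ) + v₁) / (2 * (a : ℂ)))) with hH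
  have hHsum : Summable (Function.uncurry H) := by
    refine Summable.of_norm (summable_norm_of_bound
      (c := 2 * π * α * (-1 / (τ : ℂ)).im) (c' := 2 * π * (τ : ℂ).im / (4 * a))
      (by have := neg_one_div_im_pos τ; positivity)
      (by have := τ.im_pos; positivity) v₁ 0 fun x => le_of_eq ?_)
    simp only [hH, Function.uncurry, norm_mul, norm_ex]
    rw [show -(α : ℂ) * ((x.1 : ℂ) + v₁) ^ 2 / τ =
        -((α * ((x.1 : ℝ) + v₁) ^ 2 : ℝ) : ℂ) / τ by push_cast; ring, neg_div_im,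
      show Complex.im ((τ : ℂ) * (x.2 : ℂ) ^ 2 / (4 * (a : ℂ)) +
          (x.2 : ℂ) * ((v₀ : ℂ) + (Q.B : ℂ) * ((x.1 : ℂ) + (v₁ : ℂ)) / (2 * (a : ℂ)))) =
        (τ : ℂ).im * (x.2 : ℝ) ^ 2 / (4 * a) by
          rw [show (τ : ℂ) * (x.2 : ℂ) ^ 2 / (4 * (a : ℂ)) =
              (((x.2 : ℝ) ^ 2 / (4 * a) : ℝ) : ℂ) * (τ : ℂ) by push_cast; ring,
            show (x.2 : ℂ) * ((v₀ : ℂ) + (Q.B : ℂ) * ((x.1 : ℂ) + (v₁ : ℂ)) / (2 * (a : ℂ))) =
              (((x.2 : ℝ) * (v₀ + (Q.B : ℝ) * ((x.1 : ℝ) + v₁) / (2 * a)) : ℝ) : ℂ) by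
                push_cast; ring,
            Complex.add_im, Complex.im_ofReal_mul, Complex.ofReal_im]
          ring]
    congr 1 <;> congr 1 <;> ring
  rw [← (Equiv.prodComm ℤ ℤ).tsum_eq]
  rw [Summable.tsum_prod (by exact hS.comp_injective (Equiv.prodComm ℤ ℤ).injective)]
  have hinner : ∀ b : ℤ,
      ∑' x : ℤ, ex (-(Q.val ((x : ℂ) + v₀) ((b : ℂ) + v₁)) / (τ : ℂ)) = c₁ * ∑' m : ℤ, H b m := by
    intro b
    have e : ∀ x : ℤ, ex (-(Q.val ((x : ℂ) + v₀) ((b : ℂ) + v₁)) / (τ : ℂ)) =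
        ex (-(α : ℂ) * ((b : ℂ) + v₁) ^ 2 / τ) *
          ex (-(a : ℂ) * ((x : ℂ) + (v₀ + (Q.B : ℂ) * ((b : ℂ) + v₁) / (2 * (a : ℂ)))) ^ 2 / τ +
            0 * ((x : ℂ) + (v₀ + (Q.B : ℂ) * ((b : ℂ) + v₁) / (2 * (a : ℂ))))) := by
      intro x
      rw [← ex_add]
      congr 1
      rw [hαC, haC, hdet, val]
      field_simp
      ring
    rw [tsum_congr e, tsum_mul_left, shifted_gaussian ha0 τ, ← hc₁, ← tsum_mul_left,
      ← tsum_mul_left, ← tsum_mul_left]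
    refine tsum_congr fun m => ?_
    simp only [hH]
    rw [sub_zero]
    ring
  have houter : ∀ m : ℤ, ∑' b : ℤ, H b m = c₂ * ∑' n : ℤ,
      ex ((τ : ℂ) * Q.dval (m : ℂ) (n : ℂ) / (Q.det : ℂ) + ((m : ℂ) * v₀ + (n : ℂ) * v₁)) := by
    intro m
    have e : ∀ b : ℤ, H b m = ex ((τ : ℂ) * (m : ℂ) ^ 2 / (4 * (a : ℂ)) + (m : ℂ) * v₀) *
        ex (-(α : ℂ) * ((b : ℂ) + v₁) ^ 2 / τ +
          (m : ℂ) * (Q.B : ℂ) / (2 * (a : ℂ)) * ((b : ℂ) + v₁)) := by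
      intro b
      simp only [hH, ← ex_add]
      congr 1
      ring
    rw [tsum_congr e, tsum_mul_left, shifted_gaussian hα0 τ, ← hc₂, ← tsum_mul_left,
      ← tsum_mul_left, ← tsum_mul_left]
    refine tsum_congr fun n => ?_
    rw [mul_comm, mul_assoc, ← ex_add]
    congr 2
    rw [hαC, haC, dval]
    field_simp
    rw [hdet]
    ring
  simp only [Equiv.prodComm_apply, Prod.swap_prod_mk]
  rw [tsum_congr hinner, tsum_mul_left, ← hHsum.tsum_comm, tsum_congr houter, tsum_mul_left,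
    ← Summable.tsum_prod (f := fun w : ℤ × ℤ =>
      ex ((τ : ℂ) * Q.dval (w.1 : ℂ) (w.2 : ℂ) / (Q.det : ℂ) +
        ((w.1 : ℂ) * v₀ + (w.2 : ℂ) * v₁))) hR,
    ← mul_assoc]
  congr 1
  have hr : (0 : ℝ) < a / α := by positivity
  have hαne : (α : ℂ) ≠ 0 := by exact_mod_cast hα0.ne'
  have hane' : (a : ℂ) ≠ 0 := by exact_mod_cast ha0.ne'
  set x : ℂ := -Complex.I * (τ : ℂ) / (2 * (a : ℂ)) with hxdef
  have hsq : (-Complex.I * (τ : ℂ) / (2 * (α : ℂ))) = ((a / α : ℝ) : ℂ) * x := by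
    rw [hxdef]
    push_cast
    field_simp
  have hx0 : x ≠ 0 := by
    rw [hxdef]
    exact div_ne_zero (mul_ne_zero (neg_ne_zero.mpr Complex.I_ne_zero) hτ)
      (mul_ne_zero two_ne_zero hane')
  have hmul : c₂ = ((Real.sqrt (a / α) : ℝ) : ℂ) * x ^ (1 / 2 : ℂ) := by
    have hr' : ((a / α : ℝ) : ℂ) ≠ 0 := Complex.ofReal_ne_zero.mpr hr.ne'
    rw [hc₂, hsq, Complex.cpow_def_of_ne_zero (mul_ne_zero hr' hx0),
      Complex.log_ofReal_mul hr hx0, add_mul, Complex.exp_add, ← Complex.cpow_def_of_ne_zero hx0,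
      Complex.ofReal_log hr.le, ← Complex.cpow_def_of_ne_zero hr', Real.sqrt_eq_rpow,
      Complex.ofReal_cpow hr.le]
    push_cast
    rfl
  have hc : x ^ (1 / 2 : ℂ) * x ^ (1 / 2 : ℂ) = x := by
    rw [← Complex.cpow_add _ _ hx0]
    norm_num
  have haα : Real.sqrt (a / α) = 2 * a / Real.sqrt q := by
    rw [hα, show a / (q / (4 * a)) = (2 * a) ^ 2 / q by field_simp; ring,
      Real.sqrt_div (by positivity), Real.sqrt_sq (by positivity)]
  rw [hmul, mul_left_comm, hc, hxdef, haα]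
  push_cast
  field_simp

end BForm

end Fermat.Agent.Dihedral.Theta
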