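import Mathlib

/-!
# Ideals of given norm in a quadratic field

For a class group character `ξ` with values in a commutative ring, the sums
`idealSum ξ n = Σ_{N I = n} ξ(I)` satisfy the Euler product recursions at ramified, split and
inert primes (`idealSum_mul_ramified`, `idealSum_mul_split`, `idealSum_mul_inert`).
-/

set_option autoImplicit false

noncomputable section

open NumberField Module
open scoped nonZeroDivisors

namespace Fermat.Agent.Dihedral.Theta

variable {K : Type*} [Field K] [NumberField K]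

/-- The ideals of norm `n` (none for `n = 0`). -/
def normFibre (K : Type*) [Field K] [NumberField K] (n : ℕ) : Finset (Ideal (𝓞 K)) :=
  if n = 0 then ∅ else (Ideal.finite_setOfPred_absNorm_eq n).toFinset

theorem mem_normFibre {n : ℕ} {I : Ideal (𝓞 K)} :
    I ∈ normFibre K n ↔ n ≠ 0 ∧ Ideal.absNorm I = n := by
  unfold normFibre
  split_ifs with h
  · simp [h]
  · simp [h]

theorem ne_bot_of_absNorm {n : ℕ} (hn : n ≠ 0) {I : Ideal (𝓞 K)} (h : Ideal.absNorm I = n) :
    I ≠ ⊥ := by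
  rintro rfl
  exact hn (h ▸ Ideal.absNorm_bot)

variable {A : Type*} [CommRing A]

/-- The value of a class group character on an integral ideal. -/
def classVal (ξ : ClassGroup (𝓞 K) →* A) (I : Ideal (𝓞 K)) : A :=
  if h : I = ⊥ then 0 else ξ (ClassGroup.mk0 ⟨I, mem_nonZeroDivisors_iff_ne_zero.mpr h⟩)

theorem classVal_mul (ξ : ClassGroup (𝓞 K) →* A) (I J : Ideal (𝓞 K)) :
    classVal ξ (I * J) = classVal ξ I * classVal ξ J := by
  by_cases hI : I = ⊥
  · simp [hI, classVal]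
  by_cases hJ : J = ⊥
  · simp [hJ, classVal]
  rw [classVal, classVal, classVal, dif_neg hI, dif_neg hJ,
    dif_neg (show I * J ≠ ⊥ from mul_ne_zero hI hJ),
    ← map_mul, ← map_mul]
  rfl

theorem classVal_span_singleton (ξ : ClassGroup (𝓞 K) →* A) {x : 𝓞 K} (hx : x ≠ 0) :
    classVal ξ (Ideal.span {x}) = 1 := by
  rw [classVal, dif_neg (by simpa [Ideal.span_singleton_eq_bot] using hx)]
  rw [(ClassGroup.mk0_eq_one_iff _).mpr ⟨x, rfl⟩, map_one]

theorem classVal_top (ξ : ClassGroup (𝓞 K) →* A) : classVal ξ ⊤ = 1 := by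
  rw [← Ideal.span_singleton_one]
  exact classVal_span_singleton ξ one_ne_zero

/-- `a(n) = Σ_{N I = n} ξ(I)`. -/
def idealSum (ξ : ClassGroup (𝓞 K) →* A) (n : ℕ) : A := ∑ I ∈ normFibre K n, classVal ξ I

theorem normFibre_one : normFibre K 1 = {⊤} := by
  ext I
  simp [mem_normFibre, Ideal.absNorm_eq_one_iff]

theorem idealSum_one (ξ : ClassGroup (𝓞 K) →* A) : idealSum ξ 1 = 1 := by
  rw [idealSum, normFibre_one, Finset.sum_singleton, classVal_top]

section Quadratic

variable (hK : finrank ℚ K = 2) {l : ℕ} (hl : l.Prime)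
include hK

theorem absNorm_span_natCast (n : ℕ) : Ideal.absNorm (Ideal.span {(n : 𝓞 K)}) = n ^ 2 := by
  rw [Ideal.absNorm_span_singleton, ← map_natCast (algebraMap ℤ (𝓞 K)) n, Algebra.norm_algebraMap,
    RingOfIntegers.rank, hK, Int.natAbs_pow, Int.natAbs_natCast]

include hl

/-- A prime ideal of norm `l` and its cofactor in `(l)`. -/
theorem exists_cofactor {P : Ideal (𝓞 K)} (hP : Ideal.absNorm P = l) :
    ∃ P' : Ideal (𝓞 K), P * P' = Ideal.span {(l : 𝓞 K)} ∧ Ideal.absNorm P' = l := by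
  have hle : Ideal.span {(l : 𝓞 K)} ≤ P := by
    have := Ideal.span_singleton_absNorm_le P
    rwa [hP] at this
  obtain ⟨P', hP'⟩ := Ideal.dvd_iff_le.mpr hle
  refine ⟨P', hP'.symm, ?_⟩
  have h := congrArg Ideal.absNorm hP'
  rw [absNorm_span_natCast hK, map_mul, hP, pow_two] at h
  exact (Nat.eq_of_mul_eq_mul_left hl.pos h).symm

omit hK in
theorem isPrime_of_absNorm {P : Ideal (𝓞 K)} (hP : Ideal.absNorm P = l) : P.IsPrime :=
  Ideal.isPrime_of_irreducible_absNorm (hP ▸ hl)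

omit hK in
theorem isMaximal_of_absNorm {P : Ideal (𝓞 K)} (hP : Ideal.absNorm P = l) : P.IsMaximal :=
  (isPrime_of_absNorm hl hP).isMaximal (ne_bot_of_absNorm hl.ne_zero hP)

omit hK in
/-- An ideal with norm divisible by `l` has a prime factor containing `l`. -/
theorem exists_factor {I : Ideal (𝓞 K)} (h : l ∣ Ideal.absNorm I) :
    ∃ Q : Ideal (𝓞 K), Q.IsMaximal ∧ (l : 𝓞 K) ∈ Q ∧ Q ∣ I := by
  obtain ⟨Q, hQ, hu, hd⟩ := Ideal.exists_isMaximal_dvd_of_dvd_absNorm' hl I h
  refine ⟨Q, hQ, ?_, hd⟩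
  have : (l : ℤ) ∈ Q.under ℤ := hu ▸ Ideal.mem_span_singleton_self _
  simpa [Ideal.mem_comap] using this

theorem eq_or_eq_of_mem {P P' Q : Ideal (𝓞 K)} (hP : Ideal.absNorm P = l)
    (hPP' : P * P' = Ideal.span {(l : 𝓞 K)}) (hQ : Q.IsMaximal) (hlQ : (l : 𝓞 K) ∈ Q) :
    Q = P ∨ Q = P' := by
  obtain ⟨P'', h1, hP''⟩ := exists_cofactor hK hl hP
  have hP0 : P ≠ 0 := ne_bot_of_absNorm hl.ne_zero hP
  obtain rfl : P'' = P' := mul_left_cancel₀ hP0 (h1.trans hPP'.symm)
  have hle : P * P'' ≤ Q := hPP' ▸ (Ideal.span_singleton_le_iff_mem _).mpr hlQ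
  rcases (hQ.isPrime.mul_le).mp hle with h | h
  · exact Or.inl ((isMaximal_of_absNorm hl hP).eq_of_le hQ.ne_top h).symm
  · exact Or.inr ((isMaximal_of_absNorm hl hP'').eq_of_le hQ.ne_top h).symm

omit hK in
theorem image_mul_subset {P : Ideal (𝓞 K)} (hP : Ideal.absNorm P = l) {n : ℕ}
    {I : Ideal (𝓞 K)} (hI : P ∣ I) (hIn : I ∈ normFibre K (n * l)) :
    ∃ J ∈ normFibre K n, P * J = I := by
  obtain ⟨J, rfl⟩ := hI
  obtain ⟨hnl, hN⟩ := mem_normFibre.mp hIn
  rw [map_mul, hP, mul_comm n] at hN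
  exact ⟨J, mem_normFibre.mpr ⟨left_ne_zero_of_mul hnl, Nat.eq_of_mul_eq_mul_left hl.pos hN⟩, rfl⟩

omit hK in
theorem mul_mem_normFibre {P : Ideal (𝓞 K)} (hP : Ideal.absNorm P = l) {n : ℕ}
    {J : Ideal (𝓞 K)} (hJ : J ∈ normFibre K n) : P * J ∈ normFibre K (n * l) := by
  obtain ⟨hn, hN⟩ := mem_normFibre.mp hJ
  exact mem_normFibre.mpr ⟨mul_ne_zero hn hl.ne_zero, by rw [map_mul, hP, hN, mul_comm]⟩

/-- The recursion at a prime that is not inert and has a single factor. -/
theorem idealSum_mul_ramified (ξ : ClassGroup (𝓞 K) →* A) {P : Ideal (𝓞 K)}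
    (hP : Ideal.absNorm P = l) (hPP : P * P = Ideal.span {(l : 𝓞 K)}) (n : ℕ) :
    idealSum ξ (n * l) = classVal ξ P * idealSum ξ n := by
  classical
  have hset : normFibre K (n * l) = (normFibre K n).image (P * ·) := by
    ext I
    simp only [Finset.mem_image]
    refine ⟨fun hI => ?_, fun ⟨J, hJ, h⟩ => h ▸ mul_mem_normFibre hl hP hJ⟩
    obtain ⟨Q, hQ, hlQ, hQI⟩ := exists_factor hl
      (Dvd.intro_left n (mem_normFibre.mp hI).2.symm : l ∣ Ideal.absNorm I)
    rcases eq_or_eq_of_mem hK hl hP hPP hQ hlQ with h | h <;> subst h <;>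
      exact image_mul_subset hl hP hQI hI
  rw [idealSum, hset, Finset.sum_image (fun a _ b _ h =>
    mul_left_cancel₀ (ne_bot_of_absNorm hl.ne_zero hP) h), idealSum, Finset.mul_sum]
  simp only [classVal_mul]

/-- The recursion at a split prime. -/
theorem idealSum_mul_split (ξ : ClassGroup (𝓞 K) →* A) {P P' : Ideal (𝓞 K)}
    (hP : Ideal.absNorm P = l) (hPP' : P * P' = Ideal.span {(l : 𝓞 K)}) (hne : P ≠ P') (n : ℕ) :
    idealSum ξ (n * l) + (if l ∣ n then idealSum ξ (n / l) else 0) =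
      (classVal ξ P + classVal ξ P') * idealSum ξ n := by
  classical
  obtain ⟨P'', h1, hP'⟩ := exists_cofactor hK hl hP
  have hP0 : P ≠ 0 := ne_bot_of_absNorm hl.ne_zero hP
  obtain rfl : P'' = P' := mul_left_cancel₀ hP0 (h1.trans hPP'.symm)
  clear h1
  have hP'0 : P'' ≠ 0 := ne_bot_of_absNorm hl.ne_zero hP'
  have hcop : P ⊔ P'' = ⊤ :=
    (isMaximal_of_absNorm hl hP).coprime_of_ne (isMaximal_of_absNorm hl hP') hne
  set s := (normFibre K n).image (P * ·)
  set t := (normFibre K n).image (P'' * ·)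
  have hunion : normFibre K (n * l) = s ∪ t := by
    ext I
    simp only [s, t, Finset.mem_union, Finset.mem_image]
    refine ⟨fun hI => ?_, ?_⟩
    · obtain ⟨Q, hQ, hlQ, hQI⟩ := exists_factor hl
        (Dvd.intro_left n (mem_normFibre.mp hI).2.symm : l ∣ Ideal.absNorm I)
      rcases eq_or_eq_of_mem hK hl hP hPP' hQ hlQ with h | h <;> subst h
      · exact Or.inl (image_mul_subset hl hP hQI hI)
      · exact Or.inr (image_mul_subset hl hP' hQI hI)
    · rintro (⟨J, hJ, h⟩ | ⟨J, hJ, h⟩) <;> subst h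
      · exact mul_mem_normFibre hl hP hJ
      · exact mul_mem_normFibre hl hP' hJ
  have hinter : s ∩ t = (if l ∣ n then
      (normFibre K (n / l)).image (Ideal.span {(l : 𝓞 K)} * ·) else ∅) := by
    ext I
    simp only [s, t, Finset.mem_inter, Finset.mem_image]
    constructor
    · rintro ⟨⟨J, hJ, rfl⟩, J', -, h⟩
      obtain ⟨M, hM⟩ : Ideal.span {(l : 𝓞 K)} ∣ P * J := by
        rw [← hPP', Ideal.mul_eq_inf_of_coprime hcop]
        exact Ideal.dvd_iff_le.mpr (le_inf Ideal.mul_le_left (h ▸ Ideal.mul_le_left))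
      obtain ⟨hn, hJn⟩ := mem_normFibre.mp hJ
      have hN := congrArg Ideal.absNorm hM
      rw [map_mul, map_mul, hP, hJn, absNorm_span_natCast hK, pow_two, mul_assoc] at hN
      have hN' := Nat.eq_of_mul_eq_mul_left hl.pos hN
      have hdvd : l ∣ n := ⟨_, hN'⟩
      rw [if_pos hdvd, Finset.mem_image]
      refine ⟨M, mem_normFibre.mpr ⟨?_, ?_⟩, hM.symm⟩
      · exact fun h0 => hn (by rw [← Nat.div_mul_cancel hdvd, h0, zero_mul])
      · rw [hN', Nat.mul_div_cancel_left _ hl.pos]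
    · split_ifs with hdvd
      · simp only [Finset.mem_image]
        rintro ⟨M, hM, rfl⟩
        obtain ⟨m, rfl⟩ := hdvd
        rw [Nat.mul_div_cancel_left _ hl.pos] at hM
        have h1 := mul_mem_normFibre hl hP' hM
        have h2 := mul_mem_normFibre hl hP hM
        rw [mul_comm m] at h1 h2
        exact ⟨⟨P'' * M, h1, by rw [← mul_assoc, hPP']⟩,
          ⟨P * M, h2, by rw [← mul_assoc, mul_comm P'', hPP']⟩⟩
      · simp
  have hsum := Finset.sum_union_inter (s₁ := s) (s₂ := t) (f := classVal ξ)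
  rw [← hunion, hinter, Finset.sum_image (fun a _ b _ h => mul_left_cancel₀ hP0 h),
    Finset.sum_image (fun a _ b _ h => mul_left_cancel₀ hP'0 h)] at hsum
  have hl0 : (l : 𝓞 K) ≠ 0 := Nat.cast_ne_zero.mpr hl.ne_zero
  have hint : (if l ∣ n then idealSum ξ (n / l) else 0) = ∑ I ∈ (if l ∣ n then
      (normFibre K (n / l)).image (Ideal.span {(l : 𝓞 K)} * ·) else ∅), classVal ξ I := by
    split_ifs
    · rw [Finset.sum_image (fun a _ b _ h => mul_left_cancel₀
        (by simpa [Submodule.zero_eq_bot, Ideal.span_singleton_eq_bot] using hl0) h)]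
      simp [idealSum, classVal_mul, classVal_span_singleton ξ hl0]
    · simp
  rw [hint, show idealSum ξ (n * l) = ∑ I ∈ normFibre K (n * l), classVal ξ I from rfl, hsum,
    idealSum, add_mul, Finset.mul_sum, Finset.mul_sum]
  simp only [classVal_mul]

/-- The recursion at an inert prime. -/
theorem idealSum_mul_inert (ξ : ClassGroup (𝓞 K) →* A)
    (hno : ∀ P : Ideal (𝓞 K), Ideal.absNorm P ≠ l) (n : ℕ) :
    idealSum ξ (n * l) = (if l ∣ n then idealSum ξ (n / l) else 0) := by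
  classical
  have hl0 : (l : 𝓞 K) ≠ 0 := Nat.cast_ne_zero.mpr hl.ne_zero
  have hset : normFibre K (n * l) = (if l ∣ n then
      (normFibre K (n / l)).image (Ideal.span {(l : 𝓞 K)} * ·) else ∅) := by
    ext I
    constructor
    · intro hI
      obtain ⟨hnl, hN⟩ := mem_normFibre.mp hI
      obtain ⟨Q, hQ, hlQ, hQI⟩ := exists_factor hl
        (Dvd.intro_left n hN.symm : l ∣ Ideal.absNorm I)
      have hQl : Q ∣ Ideal.span {(l : 𝓞 K)} :=
        Ideal.dvd_iff_le.mpr ((Ideal.span_singleton_le_iff_mem _).mpr hlQ)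
      have hQN : Ideal.absNorm Q ∣ l ^ 2 := absNorm_span_natCast hK l ▸ map_dvd Ideal.absNorm hQl
      obtain ⟨k, hk, hQk⟩ := (Nat.dvd_prime_pow hl).mp hQN
      interval_cases k
      · exact absurd (Ideal.absNorm_eq_one_iff.mp hQk) hQ.ne_top
      · exact absurd (by simpa using hQk) (hno Q)
      · obtain ⟨R, hR⟩ := hQl
        have hR' := congrArg Ideal.absNorm hR
        rw [absNorm_span_natCast hK, map_mul, hQk] at hR'
        have : R = ⊤ := Ideal.absNorm_eq_one_iff.mp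
          (Nat.eq_of_mul_eq_mul_left (pow_pos hl.pos 2) (by rw [mul_one]; exact hR'.symm))
        rw [this, Ideal.mul_top] at hR
        subst hR
        obtain ⟨M, hM⟩ := hQI
        have hN' := congrArg Ideal.absNorm hM
        rw [hN, map_mul, absNorm_span_natCast hK, pow_two, mul_assoc, mul_comm n] at hN'
        have hN'' := Nat.eq_of_mul_eq_mul_left hl.pos hN'
        rw [if_pos ⟨_, hN''⟩, Finset.mem_image]
        exact ⟨M, mem_normFibre.mpr ⟨fun h0 => left_ne_zero_of_mul hnl (by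
          rw [← Nat.div_mul_cancel ⟨_, hN''⟩, h0, zero_mul]),
          by rw [hN'', Nat.mul_div_cancel_left _ hl.pos]⟩, hM.symm⟩
    · split_ifs with hdvd
      · simp only [Finset.mem_image]
        rintro ⟨M, hM, rfl⟩
        obtain ⟨hm, hMn⟩ := mem_normFibre.mp hM
        obtain ⟨m, rfl⟩ := hdvd
        rw [Nat.mul_div_cancel_left _ hl.pos] at hm hMn
        refine mem_normFibre.mpr ⟨mul_ne_zero (mul_ne_zero hl.ne_zero hm) hl.ne_zero, ?_⟩
        rw [map_mul, hMn, absNorm_span_natCast hK]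
        ring
      · simp
  rw [idealSum, hset]
  split_ifs with h
  · rw [Finset.sum_image (fun a _ b _ h => mul_left_cancel₀
      (by simpa [Submodule.zero_eq_bot, Ideal.span_singleton_eq_bot] using hl0) h)]
    simp [idealSum, classVal_mul, classVal_span_singleton ξ hl0]
  · simp

/-- A prime dividing the discriminant is the square of a prime ideal. -/
theorem exists_sq_eq_of_dvd_discr (hd : (l : ℤ) ∣ discr K) :
    ∃ P : Ideal (𝓞 K), Ideal.absNorm P = l ∧ P * P = Ideal.span {(l : 𝓞 K)} := by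
  have hlZ : Prime (l : ℤ) := Nat.prime_iff_prime_int.mp hl
  have hmax : (Ideal.span {(l : ℤ)}).IsMaximal :=
    ((Ideal.span_singleton_prime hlZ.ne_zero).mpr hlZ).isMaximal (by simpa using hl.ne_zero)
  have : Finite (ℤ ⧸ Ideal.span {(l : ℤ)}) :=
    haveI : NeZero l := ⟨hl.ne_zero⟩
    Finite.of_equiv (ZMod l) (Int.quotientSpanNatEquivZMod l).symm.toEquiv
  have hmap : Ideal.map (algebraMap ℤ (𝓞 K)) (Ideal.span {(l : ℤ)}) =
      Ideal.span {(l : 𝓞 K)} := by
    simp [Ideal.map_span]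
  have hd' : l ∣ Ideal.absNorm (differentIdeal ℤ (𝓞 K)) := by
    rw [absNorm_differentIdeal K]
    exact Int.natCast_dvd.mp hd
  obtain ⟨Q, hQ, hlQ, hQd⟩ := exists_factor hl hd'
  obtain ⟨R, hR⟩ := Ideal.dvd_iff_le.mpr ((Ideal.span_singleton_le_iff_mem _).mpr hlQ)
  have hnot : ¬ IsCoprime Q R := fun hc =>
    not_dvd_differentIdeal_of_isCoprime ℤ Q R hc (hR.symm.trans hmap.symm) hQd
  rw [Ideal.isCoprime_iff_sup_eq] at hnot
  have hRQ : R ≤ Q := by
    by_contra h
    exact hnot (hQ.1.2 _ (lt_of_le_of_ne le_sup_left fun he => h (he ▸ le_sup_right)))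
  obtain ⟨M, rfl⟩ := Ideal.dvd_iff_le.mpr hRQ
  have hN := congrArg Ideal.absNorm hR
  rw [absNorm_span_natCast hK, map_mul, map_mul] at hN
  have hQN : Ideal.absNorm Q = l := by
    obtain ⟨k, hk, hQk⟩ := (Nat.dvd_prime_pow hl).mp (Dvd.intro _ hN.symm : _ ∣ l ^ 2)
    interval_cases k
    · exact absurd (Ideal.absNorm_eq_one_iff.mp hQk) hQ.ne_top
    · simpa using hQk
    · exfalso
      rw [hQk] at hN
      have : l ^ 2 * Ideal.absNorm M = 1 :=
        Nat.eq_of_mul_eq_mul_left (pow_pos hl.pos 2) (by rw [mul_one]; exact hN.symm)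
      exact hl.one_lt.ne' (Nat.pow_eq_one.mp (Nat.eq_one_of_mul_eq_one_right this) |>.resolve_right
        two_ne_zero)
  refine ⟨Q, hQN, ?_⟩
  obtain ⟨Q', hQQ', hQ'N⟩ := exists_cofactor hK hl hQN
  rw [hQN] at hN
  have hMt : M = ⊤ := Ideal.absNorm_eq_one_iff.mp
    (Nat.eq_of_mul_eq_mul_left (mul_pos hl.pos hl.pos)
      (by rw [mul_one, mul_assoc]; rw [pow_two] at hN; exact hN.symm))
  rw [hR, hMt, Ideal.mul_top]

end Quadratic

/-- A prime ideal whose square is `(l)` forces `l` to divide the discriminant. -/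
theorem dvd_discr_of_sq_eq (_hK : finrank ℚ K = 2) {l : ℕ} (hl : l.Prime) {P : Ideal (𝓞 K)}
    (hP : Ideal.absNorm P = l)
    (hPP : P * P = Ideal.span {(l : 𝓞 K)}) : (l : ℤ) ∣ discr K := by
  have hlZ : Prime (l : ℤ) := Nat.prime_iff_prime_int.mp hl
  have hmax : (Ideal.span {(l : ℤ)}).IsMaximal :=
    ((Ideal.span_singleton_prime hlZ.ne_zero).mpr hlZ).isMaximal (by simpa using hl.ne_zero)
  have hmap : Ideal.map (algebraMap ℤ (𝓞 K)) (Ideal.span {(l : ℤ)}) =
      Ideal.span {(l : 𝓞 K)} := by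
    simp [Ideal.map_span]
  have h := pow_sub_one_dvd_differentIdeal ℤ P 2 (p := Ideal.span {(l : ℤ)})
    (by simpa using hl.ne_zero) (by rw [hmap, pow_two, hPP])
  rw [show 2 - 1 = 1 from rfl, pow_one] at h
  have h' := map_dvd Ideal.absNorm h
  rw [hP, absNorm_differentIdeal K] at h'
  exact Int.natCast_dvd.mpr h'

end Fermat.Agent.Dihedral.Theta
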