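import Fermat.Agent.Dihedral.ThetaCount
import Fermat.Agent.Dihedral.ThetaIdeal

/-!
# Binary forms of ideals of an imaginary quadratic field

For an imaginary quadratic field of discriminant `-M`, the norm form of an ideal `I` is a
binary form of determinant `M` (`formOf`), related ideals have similar forms (`exists_similar`),
and for `M > 4` its representation numbers count ideals in the inverse class
(`repCount_formOf`).
-/

set_option autoImplicit false

noncomputable section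

open NumberField Module
open scoped nonZeroDivisors

namespace Fermat.Agent.Dihedral.Theta

variable {K : Type*} [Field K] [NumberField K]

/-- An ordered integral basis of a quadratic field. -/
def basisTwo (hK : finrank ℚ K = 2) : Basis (Fin 2) ℤ (𝓞 K) :=
  (RingOfIntegers.basis K).reindex (Fintype.equivFinOfCardEq (by
    rw [← finrank_eq_card_chooseBasisIndex, RingOfIntegers.rank, hK]))

/-- The two embeddings. -/
def embTwo (hK : finrank ℚ K = 2) : Fin 2 ≃ (K →ₐ[ℚ] ℂ) :=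
  (Fintype.equivFinOfCardEq ((AlgHom.card ℚ K ℂ).trans hK)).symm

theorem norm_eq_emb (hK : finrank ℚ K = 2) (x : 𝓞 K) :
    ((Algebra.norm ℤ x : ℤ) : ℂ) = embTwo hK 0 (x : K) * embTwo hK 1 (x : K) := by
  have h1 : ((Algebra.norm ℤ x : ℤ) : ℂ) = algebraMap ℚ ℂ (Algebra.norm ℚ (x : K)) := by
    rw [← Algebra.coe_norm_int, map_intCast]
  rw [h1, Algebra.norm_eq_prod_embeddings, ← (embTwo hK).prod_comp, Fin.prod_univ_two]

theorem sq_det_emb (hK : finrank ℚ K = 2) :
    (embTwo hK 0 (basisTwo hK 0 : K) * embTwo hK 1 (basisTwo hK 1 : K) -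
      embTwo hK 1 (basisTwo hK 0 : K) * embTwo hK 0 (basisTwo hK 1 : K)) ^ 2 = (discr K : ℂ) := by
  have h1 := Algebra.discr_eq_det_embeddingsMatrixReindex_pow_two ℚ ℂ
    ((basisTwo hK).localizationLocalization ℚ (nonZeroDivisors ℤ) K) (embTwo hK)
  have h2 : Algebra.discr ℚ ((basisTwo hK).localizationLocalization ℚ (nonZeroDivisors ℤ) K) =
      (discr K : ℚ) := by
    rw [Algebra.discr_localizationLocalization ℤ (nonZeroDivisors ℤ) K (basisTwo hK),
      ← NumberField.discr_eq_discr K (basisTwo hK)]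
    rfl
  rw [h2, map_intCast] at h1
  rw [h1, Matrix.det_fin_two]
  simp [Algebra.embeddingsMatrixReindex, Algebra.embeddingsMatrix,
    Basis.localizationLocalization_apply]

theorem norm_natCast (hK : finrank ℚ K = 2) (n : ℕ) :
    Algebra.norm ℤ (n : 𝓞 K) = (n : ℤ) ^ 2 := by
  rw [← map_natCast (algebraMap ℤ (𝓞 K)), Algebra.norm_algebraMap, RingOfIntegers.rank, hK]

theorem pos_of_discr {M : ℕ} (_hK : finrank ℚ K = 2) (hD : discr K = -(M : ℤ)) : 0 < M := by
  rcases Nat.eq_zero_or_pos M with h | h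
  · exact absurd (by rw [hD, h]; simp) (NumberField.discr_ne_zero K)
  · exact h

variable {M : ℕ} (hK : finrank ℚ K = 2) (hD : discr K = -(M : ℤ))
include hK hD

/-- The binary form of an ideal. -/
theorem exists_form (I : Ideal (𝓞 K)) (hI : I ≠ ⊥) :
    ∃ (Q : BForm) (β : (ℤ × ℤ) ≃+ I), Q.det = M ∧
      ∀ v : ℤ × ℤ, Algebra.norm ℤ ((β v : I) : 𝓞 K) = (Ideal.absNorm I : ℤ) * Q.val v.1 v.2 := by
  set n : ℤ := (Ideal.absNorm I : ℤ) with hn
  have hn0 : n ≠ 0 := by
    rw [hn]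
    exact_mod_cast mt Ideal.absNorm_eq_zero_iff.mp hI
  have hnC : (n : ℂ) ≠ 0 := by exact_mod_cast hn0
  set bI := Ideal.selfBasis (basisTwo hK) I hI with hbI
  set β : (ℤ × ℤ) ≃+ I :=
    ((LinearEquiv.finTwoArrow ℤ ℤ).symm.trans bI.equivFun.symm).toAddEquiv with hβ
  have hβv : ∀ v : ℤ × ℤ, ((β v : I) : 𝓞 K) =
      (v.1 : 𝓞 K) * (bI 0 : 𝓞 K) + (v.2 : 𝓞 K) * (bI 1 : 𝓞 K) := by
    intro v
    have : β v = bI.equivFun.symm ![v.1, v.2] := rfl
    rw [this, Basis.equivFun_symm_apply, Fin.sum_univ_two]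
    simp [zsmul_eq_mul]
  set φ := embTwo hK with hφ
  set p := φ 0 ((bI 0 : 𝓞 K) : K) with hp
  set p' := φ 1 ((bI 0 : 𝓞 K) : K) with hp'
  set r := φ 0 ((bI 1 : 𝓞 K) : K) with hr
  set r' := φ 1 ((bI 1 : 𝓞 K) : K) with hr'
  obtain ⟨A, hA⟩ : n ∣ Algebra.norm ℤ (bI 0 : 𝓞 K) := Ideal.absNorm_dvd_norm_of_mem (bI 0).2
  obtain ⟨C, hC⟩ : n ∣ Algebra.norm ℤ (bI 1 : 𝓞 K) := Ideal.absNorm_dvd_norm_of_mem (bI 1).2
  obtain ⟨S, hS⟩ : n ∣ Algebra.norm ℤ ((bI 0 : 𝓞 K) + (bI 1 : 𝓞 K)) :=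
    Ideal.absNorm_dvd_norm_of_mem (I.add_mem (bI 0).2 (bI 1).2)
  set B := S - A - C with hB
  have eA : p * p' = (n : ℂ) * A := by
    rw [hp, hp', ← norm_eq_emb hK, hA, Int.cast_mul]
  have eC : r * r' = (n : ℂ) * C := by
    rw [hr, hr', ← norm_eq_emb hK, hC, Int.cast_mul]
  have eB : p * r' + p' * r = (n : ℂ) * B := by
    have h := norm_eq_emb hK ((bI 0 : 𝓞 K) + (bI 1 : 𝓞 K))
    rw [hS, Int.cast_mul] at h
    simp only [map_add, ← hφ, ← hp, ← hp', ← hr, ← hr'] at h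
    rw [hB]
    push_cast
    linear_combination -h - eA - eC
  have hdetsq : (p * r' - p' * r) ^ 2 = -(M : ℂ) * (n : ℂ) ^ 2 := by
    set b := basisTwo hK with hb
    set P := b.toMatrix (fun i => (bI i : 𝓞 K)) with hP
    have hexp : ∀ i, (bI i : 𝓞 K) = (P 0 i : 𝓞 K) * b 0 + (P 1 i : 𝓞 K) * b 1 := by
      intro i
      conv_lhs => rw [← b.sum_repr (bI i : 𝓞 K)]
      simp [Fin.sum_univ_two, hP, Basis.toMatrix_apply, zsmul_eq_mul]
    have hdet : (P.det) ^ 2 = n ^ 2 := by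
      have h := Ideal.natAbs_det_basis_change b I bI
      rw [Basis.det_apply] at h
      rw [hn, ← h, Int.natAbs_sq]
      rfl
    have e := congrArg (fun z : ℤ => (z : ℂ)) hdet
    simp only [Matrix.det_fin_two] at e
    push_cast at e
    have hk := sq_det_emb hK
    rw [hD] at hk
    push_cast at hk
    simp only [hp, hp', hr, hr', hexp, map_add, map_mul, map_intCast]
    linear_combination (((P 0 0 : ℂ) * (P 1 1 : ℂ) - (P 0 1 : ℂ) * (P 1 0 : ℂ)) ^ 2) * hk -
      (M : ℂ) * e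
  have hdetZ : 4 * A * C - B ^ 2 = (M : ℤ) := by
    have h : ((4 * A * C - B ^ 2 : ℤ) : ℂ) * (n : ℂ) ^ 2 = ((M : ℤ) : ℂ) * (n : ℂ) ^ 2 := by
      push_cast
      linear_combination -hdetsq - (4 * r * r') * eA - (4 * (n : ℂ) * A) * eC +
        (p * r' + p' * r + (n : ℂ) * B) * eB
    exact_mod_cast mul_right_cancel₀ (pow_ne_zero 2 hnC) h
  have hval : ∀ x y : ℤ, Algebra.norm ℤ ((x : 𝓞 K) * (bI 0 : 𝓞 K) + (y : 𝓞 K) * (bI 1 : 𝓞 K)) =
      n * (A * x ^ 2 + B * (x * y) + C * y ^ 2) := by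
    intro x y
    apply Int.cast_injective (α := ℂ)
    rw [norm_eq_emb hK]
    simp only [map_add, map_mul, map_intCast, ← hφ, ← hp, ← hp', ← hr, ← hr']
    push_cast
    linear_combination (x : ℂ) ^ 2 * eA + (x : ℂ) * (y : ℂ) * eB + (y : ℂ) ^ 2 * eC
  have hMpos : (0 : ℤ) < M := by exact_mod_cast pos_of_discr hK hD
  have hApos : 0 < A := by
    rcases lt_trichotomy A 0 with h | h | h
    · exfalso
      set v := β.symm ⟨(Ideal.absNorm I : 𝓞 K), Ideal.absNorm_mem I⟩ with hv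
      have h1 : Algebra.norm ℤ ((β v : I) : 𝓞 K) = n ^ 2 := by
        rw [hv, AddEquiv.apply_symm_apply]
        exact norm_natCast hK _
      rw [hβv, hval] at h1
      have h2 : A * v.1 ^ 2 + B * (v.1 * v.2) + C * v.2 ^ 2 = n :=
        mul_left_cancel₀ hn0 (h1.trans (pow_two n))
      have h3 : 0 < n := lt_of_le_of_ne (by rw [hn]; positivity) hn0.symm
      nlinarith [sq_nonneg (2 * A * v.1 + B * v.2), sq_nonneg v.2, mul_neg_of_neg_of_pos h h3]
    · exfalso
      rw [h] at hdetZ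
      nlinarith [sq_nonneg B]
    · exact h
  refine ⟨⟨A, B, C, hApos, by linarith⟩, β, by simp only [BForm.det]; linarith, fun v => ?_⟩
  rw [hβv, hval]
  simp only [BForm.val, Int.cast_id]

/-- The chosen form of an ideal. -/
def formOf (I : Ideal (𝓞 K)) (hI : I ≠ ⊥) : BForm := (exists_form hK hD I hI).choose

/-- The chosen coordinates of an ideal. -/
def coordOf (I : Ideal (𝓞 K)) (hI : I ≠ ⊥) : (ℤ × ℤ) ≃+ I :=
  (exists_form hK hD I hI).choose_spec.choose

theorem det_formOf (I : Ideal (𝓞 K)) (hI : I ≠ ⊥) : (formOf hK hD I hI).det = M :=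
  (exists_form hK hD I hI).choose_spec.choose_spec.1

theorem norm_coordOf (I : Ideal (𝓞 K)) (hI : I ≠ ⊥) (v : ℤ × ℤ) :
    Algebra.norm ℤ ((coordOf hK hD I hI v : I) : 𝓞 K) =
      (Ideal.absNorm I : ℤ) * (formOf hK hD I hI).val v.1 v.2 :=
  (exists_form hK hD I hI).choose_spec.choose_spec.2 v

theorem norm_nonneg' (x : 𝓞 K) : 0 ≤ Algebra.norm ℤ x := by
  obtain ⟨v, hv⟩ := (coordOf hK hD ⊤ top_ne_bot).surjective ⟨x, Submodule.mem_top⟩
  have h := norm_coordOf hK hD ⊤ top_ne_bot v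
  rw [hv, Ideal.absNorm_top, Nat.cast_one, one_mul] at h
  rw [h]
  exact BForm.val_nonneg _ _ _

theorem absNorm_span_eq (x : 𝓞 K) :
    (Ideal.absNorm (Ideal.span {x}) : ℤ) = Algebra.norm ℤ x := by
  rw [Ideal.absNorm_span_singleton, Int.natAbs_of_nonneg (norm_nonneg' hK hD x)]

/-- The value `N I` is represented by the form of `I`. -/
theorem exists_val_eq_absNorm (I : Ideal (𝓞 K)) (hI : I ≠ ⊥) :
    ∃ v : ℤ × ℤ, (formOf hK hD I hI).val v.1 v.2 = Ideal.absNorm I := by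
  obtain ⟨v, hv⟩ := (coordOf hK hD I hI).surjective
    ⟨(Ideal.absNorm I : 𝓞 K), Ideal.absNorm_mem I⟩
  refine ⟨v, ?_⟩
  have h := norm_coordOf hK hD I hI v
  rw [hv] at h
  have h2 : ((Ideal.absNorm I : ℤ)) * (Ideal.absNorm I : ℤ) =
      (Ideal.absNorm I : ℤ) * (formOf hK hD I hI).val v.1 v.2 :=
    ((pow_two _).symm.trans (norm_natCast hK _).symm).trans h
  exact (mul_left_cancel₀ (by exact_mod_cast mt Ideal.absNorm_eq_zero_iff.mp hI) h2).symm

/-- Multiplication by `t` with `(t) I = I' J` gives a similarity of ratio `N J`. -/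
theorem exists_similar (I I' J : Ideal (𝓞 K)) (hI : I ≠ ⊥) (hI' : I' ≠ ⊥) (t : 𝓞 K)
    (h : Ideal.span {t} * I = I' * J) :
    Nonempty (BForm.Similar (formOf hK hD I hI) (formOf hK hD I' hI')
      (Ideal.absNorm J : ℤ)) := by
  set β := coordOf hK hD I hI
  set β' := coordOf hK hD I' hI'
  have hmem : ∀ x : I, t * (x : 𝓞 K) ∈ I' := fun x => by
    have : t * (x : 𝓞 K) ∈ I' * J :=
      h ▸ Ideal.mul_mem_mul (Ideal.mem_span_singleton_self t) x.2
    exact Ideal.mul_le_left this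
  set f : ℤ × ℤ → ℤ × ℤ := fun v => β'.symm ⟨t * (β v : 𝓞 K), hmem (β v)⟩ with hf
  have hfadd : ∀ v w, f (v + w) = f v + f w := fun v w => by
    simp only [hf]
    rw [← map_add]
    congr 1
    apply Subtype.ext
    push_cast
    rw [map_add, Submodule.coe_add, mul_add]
  let F : ℤ × ℤ →+ ℤ × ℤ := AddMonoidHom.mk' f hfadd
  have hF : ∀ x y : ℤ, f (x, y) =
      ((f (1, 0)).1 * x + (f (0, 1)).1 * y, (f (1, 0)).2 * x + (f (0, 1)).2 * y) := by
    intro x y
    have e : ((x, y) : ℤ × ℤ) = x • (1, 0) + y • (0, 1) := by simp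
    calc f (x, y) = F (x • (1, 0) + y • (0, 1)) := by rw [← e]; rfl
      _ = x • f (1, 0) + y • f (0, 1) := by rw [map_add, map_zsmul, map_zsmul]; rfl
      _ = _ := by ext <;> simp [mul_comm]
  refine ⟨⟨(f (1, 0)).1, (f (0, 1)).1, (f (1, 0)).2, (f (0, 1)).2, fun x y => ?_⟩⟩
  have h1 : ((β' (f (x, y)) : I') : 𝓞 K) = t * (β (x, y) : 𝓞 K) := by
    simp only [hf, AddEquiv.apply_symm_apply]
  have h2 := norm_coordOf hK hD I' hI' (f (x, y))
  rw [h1, map_mul, norm_coordOf hK hD I hI, ← absNorm_span_eq hK hD t] at h2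
  have h3 : (Ideal.absNorm (Ideal.span {t}) : ℤ) * Ideal.absNorm I =
      (Ideal.absNorm I' : ℤ) * Ideal.absNorm J := by
    exact_mod_cast (map_mul Ideal.absNorm _ _).symm.trans
      ((congrArg Ideal.absNorm h).trans (map_mul Ideal.absNorm _ _))
  rw [← mul_assoc, h3, mul_assoc] at h2
  have h4 := mul_left_cancel₀ (by exact_mod_cast mt Ideal.absNorm_eq_zero_iff.mp hI') h2
  rw [hF] at h4
  exact h4.symm

/-- Units of an imaginary quadratic field of discriminant `< -4` are `±1`. -/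
theorem eq_one_or_neg_one_of_norm (hM : 4 < M) (u : 𝓞 K) (hu : Algebra.norm ℤ u = 1) :
    u = 1 ∨ u = -1 := by
  set β := coordOf hK hD ⊤ top_ne_bot
  set Q := formOf hK hD ⊤ top_ne_bot
  obtain ⟨v, hv⟩ := β.surjective ⟨u, Submodule.mem_top⟩
  obtain ⟨w, hw⟩ := β.surjective ⟨1, Submodule.mem_top⟩
  have hqv : Q.val v.1 v.2 = 1 := by
    have h := norm_coordOf hK hD ⊤ top_ne_bot v
    rw [hv, Ideal.absNorm_top, Nat.cast_one, one_mul, hu] at h
    exact h.symm
  have hqw : Q.val w.1 w.2 = 1 := by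
    have h := norm_coordOf hK hD ⊤ top_ne_bot w
    rw [hw, Ideal.absNorm_top, Nat.cast_one, one_mul, map_one] at h
    exact h.symm
  have h4 := Q.four_val_mul_val' v w
  rw [hqv, hqw, det_formOf hK hD] at h4
  have hY : v.1 * w.2 - v.2 * w.1 = 0 := by
    by_contra hY
    have hY1 : 1 ≤ (v.1 * w.2 - v.2 * w.1) ^ 2 := by
      have := abs_pos.mpr hY
      nlinarith [sq_abs (v.1 * w.2 - v.2 * w.1)]
    have hM' : (5 : ℤ) ≤ M := by exact_mod_cast hM
    nlinarith [sq_nonneg (2 * Q.A * (v.1 * w.1) + Q.B * (v.1 * w.2 + v.2 * w.1) +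
      2 * Q.C * (v.2 * w.2))]
  have hprop : w.1 • v = v.1 • w ∧ w.2 • v = v.2 • w := by
    constructor <;> ext <;> simp <;> linarith
  have hkey : ∀ a b : ℤ, b • v = a • w → (b : 𝓞 K) * u = a ∧ b ^ 2 = a ^ 2 := by
    intro a b e
    constructor
    · have h := congrArg β e
      rw [map_zsmul, map_zsmul, hv, hw] at h
      have h' := congrArg Subtype.val h
      push_cast [zsmul_eq_mul] at h'
      simpa [zsmul_eq_mul] using h'
    · have := congrArg (fun z : ℤ × ℤ => Q.val z.1 z.2) e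
      simp only [Prod.smul_fst, Prod.smul_snd, smul_eq_mul] at this
      have e1 : ∀ (k : ℤ) (z : ℤ × ℤ), Q.val (k * z.1) (k * z.2) = k ^ 2 * Q.val z.1 z.2 := by
        intro k z
        simp only [BForm.val, Int.cast_id]
        ring
      rwa [e1, e1, hqv, hqw, mul_one, mul_one] at this
  have hfin : ∀ a b : ℤ, b ≠ 0 → b • v = a • w → u = 1 ∨ u = -1 := by
    intro a b hb e
    obtain ⟨e1, e2⟩ := hkey a b e
    have hb' : (b : 𝓞 K) ≠ 0 := Int.cast_ne_zero.mpr hb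
    rcases sq_eq_sq_iff_eq_or_eq_neg.mp e2 with h | h
    · left
      rw [← h] at e1
      exact mul_left_cancel₀ hb' (by rw [e1, mul_one])
    · right
      have : a = -b := by omega
      rw [this, Int.cast_neg] at e1
      exact mul_left_cancel₀ hb' (by rw [e1]; ring)
  rcases eq_or_ne w.1 0 with h1 | h1
  · refine hfin _ _ (fun h2 => ?_) hprop.2
    rw [h1, h2] at hqw
    simp [BForm.val] at hqw
  · exact hfin _ _ h1 hprop.1

/-- Representation numbers of the form of `I` count ideals in the inverse class. -/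
theorem repCount_formOf [DecidableEq (ClassGroup (𝓞 K))] (hM : 4 < M) (I : (Ideal (𝓞 K))⁰)
    (n : ℕ) (hn : 0 < n) :
    (formOf hK hD I.1 (nonZeroDivisors.coe_ne_zero I)).repCount n =
      2 * ((normFibre K n).filter fun J => ∃ h : J ≠ ⊥,
        ClassGroup.mk0 ⟨J, mem_nonZeroDivisors_iff_ne_zero.mpr h⟩ =
          (ClassGroup.mk0 I)⁻¹).card := by
  classical
  set hI := nonZeroDivisors.coe_ne_zero I
  set Q := formOf hK hD I.1 hI
  set β := coordOf hK hD I.1 hI
  have := Q.finite_valNat_fibre n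
  have := Fintype.ofFinite {v : ℤ × ℤ // Q.valNat v = n}
  have hN0 : (Ideal.absNorm I.1 : ℤ) ≠ 0 := by
    exact_mod_cast mt Ideal.absNorm_eq_zero_iff.mp hI
  have hnorm : ∀ v, Q.valNat v = n →
      Algebra.norm ℤ ((β v : I.1) : 𝓞 K) = (Ideal.absNorm I.1 : ℤ) * n := fun v hv => by
    rw [norm_coordOf hK hD I.1 hI v, (Q.valNat_eq_iff v n).mp hv]
  have hne : ∀ v, Q.valNat v = n → ((β v : I.1) : 𝓞 K) ≠ 0 := fun v hv h0 => by
    have := hnorm v hv
    rw [h0, Algebra.norm_zero, eq_comm, mul_eq_zero] at this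
    exact this.elim hN0 (by exact_mod_cast hn.ne')
  have hdvd : ∀ v, I.1 ∣ Ideal.span {((β v : I.1) : 𝓞 K)} := fun v =>
    Ideal.dvd_iff_le.mpr ((Ideal.span_singleton_le_iff_mem _).mpr (β v).2)
  let J : {v : ℤ × ℤ // Q.valNat v = n} → Ideal (𝓞 K) := fun v => (hdvd v.1).choose
  have hJ : ∀ v, Ideal.span {((β v.1 : I.1) : 𝓞 K)} = I.1 * J v := fun v => (hdvd v.1).choose_spec
  set T := (normFibre K n).filter fun J => ∃ h : J ≠ ⊥,
    ClassGroup.mk0 ⟨J, mem_nonZeroDivisors_iff_ne_zero.mpr h⟩ = (ClassGroup.mk0 I)⁻¹ with hT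
  have hmaps : ∀ v, J v ∈ T := by
    intro v
    have hN : Ideal.absNorm (J v) = n := by
      have h := congrArg Ideal.absNorm (hJ v)
      rw [map_mul] at h
      have h' : (Ideal.absNorm (Ideal.span {((β v.1 : I.1) : 𝓞 K)}) : ℤ) =
          (Ideal.absNorm I.1 : ℤ) * Ideal.absNorm (J v) := by exact_mod_cast h
      rw [absNorm_span_eq hK hD, hnorm v.1 v.2] at h'
      exact_mod_cast (mul_left_cancel₀ hN0 h').symm
    have hJ0 : J v ≠ ⊥ := ne_bot_of_absNorm hn.ne' hN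
    refine Finset.mem_filter.mpr ⟨mem_normFibre.mpr ⟨hn.ne', hN⟩, hJ0, ?_⟩
    rw [eq_inv_iff_mul_eq_one, ← map_mul, ClassGroup.mk0_eq_one_iff]
    exact ⟨((β v.1 : I.1) : 𝓞 K), by rw [mul_comm]; exact (hJ v).symm⟩
  rw [BForm.repCount, Nat.card_eq_fintype_card, ← Finset.card_univ,
    Finset.card_eq_sum_card_fiberwise (f := J) (t := T) fun v _ => hmaps v,
    Finset.sum_const_nat (m := 2) ?_, mul_comm]
  intro J₀ hJ₀
  obtain ⟨hJn, hJ0, hcls⟩ := Finset.mem_filter.mp hJ₀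
  rw [eq_inv_iff_mul_eq_one, ← map_mul, ClassGroup.mk0_eq_one_iff] at hcls
  obtain ⟨x, hx⟩ := hcls
  have hx' : J₀ * I.1 = Ideal.span {x} := hx
  have hxI : x ∈ I.1 := (Ideal.span_singleton_le_iff_mem _).mp (hx' ▸ Ideal.mul_le_right)
  have hxN : Algebra.norm ℤ x = (Ideal.absNorm I.1 : ℤ) * n := by
    rw [← absNorm_span_eq hK hD, ← hx', map_mul, (mem_normFibre.mp hJn).2]
    push_cast
    ring
  obtain ⟨v₀, hv₀⟩ := β.surjective ⟨x, hxI⟩
  have hv₀n : Q.valNat v₀ = n := by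
    rw [Q.valNat_eq_iff]
    have h := norm_coordOf hK hD I.1 hI v₀
    rw [hv₀, hxN] at h
    exact (mul_left_cancel₀ hN0 h).symm
  have hnegn : Q.valNat (-v₀) = n := by
    rw [← hv₀n]
    simp [BForm.valNat, BForm.val]
  have hne' : v₀ ≠ -v₀ := fun h => by
    have : v₀ = 0 := by
      ext
      · have := congrArg Prod.fst h; simp at this ⊢; omega
      · have := congrArg Prod.snd h; simp at this ⊢; omega
    refine hne v₀ hv₀n ?_
    rw [this, map_zero]
    rfl
  have hfib : Finset.univ.filter (fun v => J v = J₀) =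
      ({⟨v₀, hv₀n⟩, ⟨-v₀, hnegn⟩} : Finset {v : ℤ × ℤ // Q.valNat v = n}) := by
    ext v
    simp only [Finset.mem_filter, Finset.mem_univ, true_and, Finset.mem_insert,
      Finset.mem_singleton]
    constructor
    · intro hv
      have h1 := hJ v
      rw [hv, mul_comm, hx', Ideal.span_singleton_eq_span_singleton] at h1
      obtain ⟨u, hu⟩ := h1.symm
      have hu1 : Algebra.norm ℤ (u : 𝓞 K) = 1 := by
        have h2 : Algebra.norm ℤ (x * (u : 𝓞 K)) = Algebra.norm ℤ ((β v.1 : I.1) : 𝓞 K) :=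
          congrArg _ hu
        rw [map_mul, hxN, hnorm v.1 v.2] at h2
        exact (mul_eq_left₀ (mul_ne_zero hN0 (by exact_mod_cast hn.ne'))).mp h2
      rcases eq_one_or_neg_one_of_norm hK hD hM (u : 𝓞 K) hu1 with h | h <;> rw [h] at hu
      · left
        apply Subtype.ext
        apply β.injective
        rw [hv₀]
        exact Subtype.ext (by rw [← hu, mul_one])
      · right
        apply Subtype.ext
        apply β.injective
        rw [map_neg, hv₀]
        exact Subtype.ext (by rw [← hu]; simp)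
    · have key : ∀ (w : {v : ℤ × ℤ // Q.valNat v = n}),
          Ideal.span {((β w.1 : I.1) : 𝓞 K)} = Ideal.span {x} → J w = J₀ := fun w hw => by
        rw [hJ w, ← hx', mul_comm J₀] at hw
        exact mul_left_cancel₀ hI hw
      rintro (rfl | rfl) <;> refine key _ ?_
      · simp [hv₀]
      · simp [hv₀, Ideal.span_singleton_neg]
  rw [hfib, Finset.card_pair (fun h => hne' (congrArg Subtype.val h))]

omit hD in
omit hK in
/-- Every class contains an ideal of norm prime to a given `N`. -/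
theorem exists_class_coprime (c : ClassGroup (𝓞 K)) (N : ℕ) (hN : N ≠ 0) :
    ∃ I : (Ideal (𝓞 K))⁰, ClassGroup.mk0 I = c ∧ (Ideal.absNorm I.1).Coprime N := by
  rcases eq_or_ne N 1 with rfl | hN1
  · obtain ⟨I, hI⟩ := ClassGroup.mk0_surjective c
    exact ⟨I, hI, Nat.coprime_one_right _⟩
  obtain ⟨I₀, hI₀⟩ := ClassGroup.mk0_surjective c⁻¹
  have hI0 := nonZeroDivisors.coe_ne_zero I₀
  have hNK : Ideal.span {(N : 𝓞 K)} ≠ 0 := by
    simpa [Ideal.span_singleton_eq_bot] using hN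
  obtain ⟨a, ha⟩ := IsDedekindDomain.exists_sup_span_eq
    (I := Ideal.span {(N : 𝓞 K)} * (I₀ : Ideal (𝓞 K))) (J := I₀.1) Ideal.mul_le_right
    (mul_ne_zero hNK hI0)
  obtain ⟨J, hJ⟩ := Ideal.dvd_iff_le.mpr (ha ▸ le_sup_right : Ideal.span {a} ≤ I₀.1)
  have hcop : Ideal.span {(N : 𝓞 K)} ⊔ J = ⊤ := by
    have h : I₀.1 * (Ideal.span {(N : 𝓞 K)} ⊔ J) = I₀.1 * ⊤ := by
      rw [Ideal.mul_sup, mul_comm I₀.1, ← hJ, ha, Ideal.mul_top]
    exact mul_left_cancel₀ hI0 h
  by_cases hJ0 : J = ⊥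
  · refine absurd hcop ?_
    rw [hJ0, sup_bot_eq]
    intro htop
    apply hN1
    have := congrArg Ideal.absNorm htop
    rw [Ideal.absNorm_top, Ideal.absNorm_span_singleton, ← map_natCast (algebraMap ℤ (𝓞 K)),
      Algebra.norm_algebraMap, Int.natAbs_pow, Int.natAbs_natCast] at this
    exact (Nat.pow_eq_one.mp this).resolve_right (by
      rw [RingOfIntegers.rank]; exact Module.finrank_pos.ne')
  have ha0 : a ≠ 0 := fun h0 => by
    rw [h0, Ideal.span_singleton_eq_bot.mpr rfl, eq_comm] at hJ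
    exact (Ideal.mul_eq_bot.mp hJ).elim hI0 hJ0
  refine ⟨⟨J, mem_nonZeroDivisors_iff_ne_zero.mpr hJ0⟩, ?_, ?_⟩
  · rw [← inv_inv c, ← hI₀, eq_inv_iff_mul_eq_one, ← map_mul, ClassGroup.mk0_eq_one_iff]
    exact ⟨a, by rw [Submonoid.coe_mul, mul_comm]; exact hJ.symm⟩
  · rw [Nat.coprime_iff_gcd_eq_one]
    by_contra hg
    obtain ⟨p, hp, hpd⟩ := Nat.exists_prime_and_dvd hg
    have hpJ : p ∣ Ideal.absNorm J := hpd.trans (Nat.gcd_dvd_left _ _)
    have hpN : p ∣ N := hpd.trans (Nat.gcd_dvd_right _ _)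
    obtain ⟨P, hP, hpP, hPJ⟩ := exists_factor hp hpJ
    refine hP.ne_top (top_le_iff.mp (hcop ▸ sup_le ?_ (Ideal.dvd_iff_le.mp hPJ)))
    rw [Ideal.span_singleton_le_iff_mem]
    obtain ⟨k, rfl⟩ := hpN
    push_cast
    exact P.mul_mem_right _ hpP

end Fermat.Agent.Dihedral.Theta
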