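import Fermat.Agent.Hecke.QCoeff

/-!
# Lowering the level by `U_p`

For `p ∣ N` the operator `U_p` maps cusp forms of level `N p` to level `N` (`lowerU`).
-/

set_option autoImplicit false

noncomputable section

open CongruenceSubgroup ModularFormClass ModularForm UpperHalfPlane
open scoped MatrixGroups

namespace Fermat.Agent.Dihedral.Theta

open P2MW.S_ModularForm_heckeU_slash_eq_self_of_mem_Gamma0.ModularForm.HeckeSlashInvariance

variable {N p : ℕ} {k : ℤ}

theorem heckeU_slash_lower [NeZero p] (hpN : p ∣ N) (f : CuspForm (Gamma0 (N * p)) k)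
    (g : SL(2, ℤ)) (hg : g ∈ Gamma0 N) :
    heckeU k p ⇑f ∣[k] (Matrix.SpecialLinearGroup.mapGL ℝ g) = heckeU k p ⇑f := by
  have hcN : (N : ℤ) ∣ g 1 0 :=
    (ZMod.intCast_zmod_eq_zero_iff_dvd _ _).mp (Gamma0_mem.mp hg)
  have hc : (p : ℤ) ∣ g 1 0 := (Int.natCast_dvd_natCast.mpr hpN).trans hcN
  rw [heckeU_eq_sum_zmod k ⇑f, SlashAction.sum_slash]
  calc ∑ x : ZMod p, (⇑f ∣[k] heckeMatrix p x.val) ∣[k] Matrix.SpecialLinearGroup.mapGL ℝ g
      = ∑ x : ZMod p, ⇑f ∣[k] heckeMatrix p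
          (affinePerm g ((ZMod.intCast_zmod_eq_zero_iff_dvd _ _).mpr hc) x).val := by
        refine Finset.sum_congr rfl fun x _ ↦ ?_
        obtain ⟨g', hg', hmul⟩ := heckeMatrix_mul_of_dvd g hc x
        have hg'N : g' ∈ Gamma0 (N * p) := by
          rw [Gamma0_mem, ZMod.intCast_zmod_eq_zero_iff_dvd, hg']
          push_cast
          rw [mul_comm]
          exact mul_dvd_mul dvd_rfl hcN
        rw [← SlashAction.slash_mul, hmul, SlashAction.slash_mul,
          SlashInvariantFormClass.slash_action_eq f _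
            (Subgroup.mem_map_of_mem (Matrix.SpecialLinearGroup.mapGL ℝ) hg'N)]
    _ = ∑ x : ZMod p, ⇑f ∣[k] heckeMatrix p x.val :=
        Equiv.sum_comp (affinePerm g _) (fun x ↦ ⇑f ∣[k] heckeMatrix p x.val)

/-- `U_p` from level `N p` to level `N`, for `p ∣ N`. -/
def lowerU [NeZero N] [NeZero p] (hpN : p ∣ N) (f : CuspForm (Gamma0 (N * p)) k) :
    CuspForm (Gamma0 N) k where
  toFun := heckeU k p ⇑f
  slash_action_eq' := by
    rintro _ ⟨g, hg, rfl⟩
    exact heckeU_slash_lower hpN f g hg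
  holo' := mdifferentiable_heckeU (CuspFormClass.holo f) k p
  zero_at_cusps' {c} hc := by
    refine CuspFormClass.isZeroAt_heckeU f p ?_
    rw [Subgroup.IsArithmetic.isCusp_iff_isCusp_SL2Z] at hc ⊢
    exact hc

theorem qCoeff_lowerU [NeZero N] [NeZero p] (hpN : p ∣ N) (f : CuspForm (Gamma0 (N * p)) k)
    (n : ℕ) : qCoeff ⇑(lowerU hpN f) n = qCoeff ⇑f (n * p) :=
  ModularFormClass.qCoeff_heckeU f (one_mem_strictPeriods_Gamma0 _) (NeZero.ne p) n

end Fermat.Agent.Dihedral.Theta
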