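import Fermat.Agent.Dihedral.ThetaForms
import Fermat.Agent.Dihedral.ThetaLattice
import Fermat.Agent.Dihedral.ThetaLower

/-!
# Twisted theta products

For an imaginary quadratic field of discriminant `-8m`, a finite set `Q` of inert primes and
a twisting ideal (`Datum`), the differences of twisted theta products are integral cusp forms of
level `2m ∏ Q` (`Datum.thetaForm`) fixed by `U_p²` for every `p ≠ p₀` dividing the level
(`Datum.thetaForm_fixed`).
-/

set_option autoImplicit false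

noncomputable section

open NumberField Module CongruenceSubgroup ModularFormClass CuspForm
open scoped nonZeroDivisors

namespace Fermat.Agent.Dihedral.Theta

namespace BForm

theorem pairCount_eq_sum (Q R : BForm) (n : ℕ) :
    pairCount Q R n = ∑ k ∈ Finset.range (n + 1), Q.repCount k * R.repCount (n - k) := by
  have h := coeff_repSeries_mul Q R n
  rw [PowerSeries.coeff_mul, Finset.Nat.sum_antidiagonal_eq_sum_range_succ_mk] at h
  simp only [repSeries, PowerSeries.coeff_mk] at h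
  exact_mod_cast h.symm

theorem exists_pairCount_eq (Q R : BForm) (hQ : ∀ i, 0 < i → 2 ∣ Q.repCount i)
    (hR : ∀ i, 0 < i → 2 ∣ R.repCount i) (n : ℕ) (hn : 0 < n) :
    ∃ z, pairCount Q R n = Q.repCount n + R.repCount n + 4 * z := by
  obtain ⟨j, rfl⟩ : ∃ j, n = j + 1 := ⟨n - 1, by omega⟩
  rw [pairCount_eq_sum, Finset.sum_range_succ, Finset.sum_range_succ', Nat.sub_zero,
    Nat.sub_self, repCount_zero, repCount_zero, one_mul, mul_one]
  obtain ⟨z, hz⟩ : 4 ∣ ∑ k ∈ Finset.range j, Q.repCount (k + 1) * R.repCount (j + 1 - (k + 1)) :=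
    Finset.dvd_sum fun k hk => by
      have := Finset.mem_range.mp hk
      exact Nat.mul_dvd_mul (hQ _ (by omega)) (hR _ (by omega))
  exact ⟨z, by rw [hz]; ring⟩

end BForm

variable {K : Type*} [Field K] [NumberField K]

open scoped Classical in
/-- The number of ideals of norm `n` in a class. -/
def classCount (C : ClassGroup (𝓞 K)) (n : ℕ) : ℕ :=
  ((normFibre K n).filter fun J => ∃ h : J ≠ ⊥,
    ClassGroup.mk0 ⟨J, mem_nonZeroDivisors_iff_ne_zero.mpr h⟩ = C).card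

theorem idealSum_eq_sum {A : Type*} [CommRing A] (ξ : ClassGroup (𝓞 K) →* A) (n : ℕ) :
    idealSum ξ n = ∑ C, (classCount C n : A) * ξ C := by
  classical
  let cls : Ideal (𝓞 K) → ClassGroup (𝓞 K) := fun J =>
    if h : J = ⊥ then 1 else ClassGroup.mk0 ⟨J, mem_nonZeroDivisors_iff_ne_zero.mpr h⟩
  rw [idealSum, ← Finset.sum_fiberwise (normFibre K n) cls]
  refine Finset.sum_congr rfl fun C _ => ?_
  have hne : ∀ J ∈ normFibre K n, J ≠ ⊥ := fun J hJ =>
    ne_bot_of_absNorm (mem_normFibre.mp hJ).1 (mem_normFibre.mp hJ).2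
  have hset : (normFibre K n).filter (fun J => cls J = C) = (normFibre K n).filter fun J =>
      ∃ h : J ≠ ⊥, ClassGroup.mk0 ⟨J, mem_nonZeroDivisors_iff_ne_zero.mpr h⟩ = C := by
    refine Finset.filter_congr fun J hJ => ?_
    simp only [cls, dif_neg (hne J hJ)]
    exact ⟨fun h => ⟨hne J hJ, h⟩, fun ⟨_, h⟩ => h⟩
  rw [classCount, ← hset]
  rw [Finset.sum_congr rfl (g := fun _ => ξ C) fun J hJ => ?_, Finset.sum_const, nsmul_eq_mul]
  obtain ⟨hJ, hC⟩ := Finset.mem_filter.mp hJ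
  simp only [cls, dif_neg (hne J hJ)] at hC
  rw [classVal, dif_neg (hne J hJ), hC]

variable (K) in
/-- The data of the twisted theta products. -/
structure Datum where
  m : ℕ
  m_odd : Odd m
  m_sqf : Squarefree m
  finrank_eq : finrank ℚ K = 2
  discr_eq : discr K = -((8 * m : ℕ) : ℤ)
  Q : Finset ℕ
  prime : ∀ q ∈ Q, q.Prime
  ne_two : ∀ q ∈ Q, q ≠ 2
  inert : ∀ q ∈ Q, ¬ IsSquare (-((8 * m : ℕ) : ZMod q))
  p₀ : ℕ
  twist : (Ideal (𝓞 K))⁰
  twist_coprime : (Ideal.absNorm twist.1).Coprime (2 * m * ∏ q ∈ Q, q)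
  odd_cond : ∀ p : ℕ, p.Prime → p ∣ m → p ≠ p₀ →
    ¬ IsSquare (-(((∏ q ∈ Q, q) * Ideal.absNorm twist.1 : ℕ) : ZMod p))
  two_cond : ∀ x y : ZMod 8,
    x ^ 2 + 2 * (m : ZMod 8) * y ^ 2 ≠ -(((∏ q ∈ Q, q) * Ideal.absNorm twist.1 : ℕ) : ZMod 8)

namespace Datum

variable (D : Datum K)

/-- The level. -/
def level : ℕ := 2 * D.m * ∏ q ∈ D.Q, q

theorem level_pos : 0 < D.level :=
  Nat.mul_pos (Nat.mul_pos two_pos D.m_odd.pos) (Finset.prod_pos fun q hq => (D.prime q hq).pos)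

instance : NeZero D.level := ⟨D.level_pos.ne'⟩

instance : NeZero (D.level * 2 * 2) :=
  ⟨(Nat.mul_pos (Nat.mul_pos D.level_pos two_pos) two_pos).ne'⟩

instance : NeZero (D.level * 2) := ⟨(Nat.mul_pos D.level_pos two_pos).ne'⟩

theorem two_dvd_level : 2 ∣ D.level :=
  Dvd.dvd.mul_right (Dvd.intro D.m rfl) _

theorem four_lt : 4 < 8 * D.m := by
  have := D.m_odd.pos
  omega

theorem not_dvd_m {q : ℕ} (hq : q ∈ D.Q) : ¬ q ∣ D.m := fun h => D.inert q hq ⟨0, by
  rw [(ZMod.natCast_eq_zero_iff _ _).mpr (h.mul_left 8)]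
  simp⟩

/-- The product of a subset of `Q`. -/
def sub (d : Finset ℕ) : ℕ := ∏ q ∈ d, q

theorem sub_pos {d : Finset ℕ} (hd : d ⊆ D.Q) : 0 < sub d :=
  Finset.prod_pos fun q hq => (D.prime q (hd hq)).pos

theorem sdiff_subset (d : Finset ℕ) : D.Q \ d ⊆ D.Q := Finset.sdiff_subset

theorem sub_mul_sub {d : Finset ℕ} (hd : d ⊆ D.Q) : sub d * sub (D.Q \ d) = ∏ q ∈ D.Q, q := by
  rw [sub, sub, mul_comm]
  exact Finset.prod_sdiff hd

theorem not_dvd_sub {d : Finset ℕ} (hd : d ⊆ D.Q) {p : ℕ} (hp : p.Prime) (h : p ∉ d) :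
    ¬ p ∣ sub d := fun hdvd => by
  obtain ⟨q, hq, hpq⟩ := (Prime.dvd_finsetProd_iff hp.prime _).mp hdvd
  exact h ((Nat.prime_dvd_prime_iff_eq hp (D.prime q (hd hq))).mp hpq ▸ hq)

theorem coprime_level_cases {p : ℕ} (hp : p.Prime) (h : p ∣ D.level) :
    p = 2 ∨ (p ∣ D.m ∧ p ≠ 2) ∨ p ∈ D.Q := by
  rcases eq_or_ne p 2 with rfl | hp2
  · exact Or.inl rfl
  rcases hp.dvd_mul.mp h with h | h
  · exact Or.inr (Or.inl ⟨(hp.dvd_mul.mp h).resolve_left
      (fun h' => hp2 ((Nat.prime_dvd_prime_iff_eq hp Nat.prime_two).mp h')), hp2⟩)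
  · refine Or.inr (Or.inr ?_)
    by_contra hQ
    exact D.not_dvd_sub subset_rfl hp hQ h

/-- A representative ideal of the inverse class, prime to the level. -/
def rep (C : ClassGroup (𝓞 K)) : (Ideal (𝓞 K))⁰ :=
  (exists_class_coprime C⁻¹ D.level D.level_pos.ne').choose

theorem mk0_rep (C : ClassGroup (𝓞 K)) : ClassGroup.mk0 (D.rep C) = C⁻¹ :=
  (exists_class_coprime C⁻¹ D.level D.level_pos.ne').choose_spec.1

theorem coprime_rep (C : ClassGroup (𝓞 K)) : (Ideal.absNorm (D.rep C).1).Coprime D.level :=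
  (exists_class_coprime C⁻¹ D.level D.level_pos.ne').choose_spec.2

/-- The form of the representative ideal. -/
def qForm (C : ClassGroup (𝓞 K)) : BForm :=
  formOf D.finrank_eq D.discr_eq (D.rep C).1 (nonZeroDivisors.coe_ne_zero _)

/-- The form of the twisted representative ideal. -/
def rForm (C : ClassGroup (𝓞 K)) : BForm :=
  formOf D.finrank_eq D.discr_eq (D.twist * D.rep C).1 (nonZeroDivisors.coe_ne_zero _)

theorem det_qForm (C : ClassGroup (𝓞 K)) : (D.qForm C).det = ((8 * D.m : ℕ) : ℤ) :=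
  det_formOf D.finrank_eq D.discr_eq _ _

theorem det_rForm (C : ClassGroup (𝓞 K)) : (D.rForm C).det = ((8 * D.m : ℕ) : ℤ) :=
  det_formOf D.finrank_eq D.discr_eq _ _

theorem repCount_qForm (C : ClassGroup (𝓞 K)) (n : ℕ) (hn : 0 < n) :
    (D.qForm C).repCount n = 2 * classCount C n := by
  classical
  rw [qForm, repCount_formOf D.finrank_eq D.discr_eq D.four_lt _ n hn, D.mk0_rep, inv_inv,
    classCount]

theorem repCount_rForm (C : ClassGroup (𝓞 K)) (n : ℕ) (hn : 0 < n) :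
    (D.rForm C).repCount n = 2 * classCount (C * (ClassGroup.mk0 D.twist)⁻¹) n := by
  classical
  rw [rForm, repCount_formOf D.finrank_eq D.discr_eq D.four_lt _ n hn, map_mul, D.mk0_rep,
    mul_inv_rev, inv_inv, classCount]

theorem gauss_formOf_eq {I I' : (Ideal (𝓞 K))⁰} (s : ClassGroup (𝓞 K))
    (h : ClassGroup.mk0 I = ClassGroup.mk0 I' * s ^ 2) (d : ℕ) (hd : 0 < d) (α : ℤ) (δ : ℕ)
    [NeZero δ] :
    ((formOf D.finrank_eq D.discr_eq I.1 (nonZeroDivisors.coe_ne_zero _)).scale d hd).gauss α δ 0 =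
      ((formOf D.finrank_eq D.discr_eq I'.1 (nonZeroDivisors.coe_ne_zero _)).scale d hd).gauss
        α δ 0 := by
  obtain ⟨S, hS, hcop⟩ := exists_class_coprime s δ (NeZero.ne δ)
  have hmk : ClassGroup.mk0 I = ClassGroup.mk0 (I' * S ^ 2) := by
    rw [map_mul, map_pow, hS, h]
  obtain ⟨x, y, hx, hy, hxy⟩ := ClassGroup.mk0_eq_mk0_iff.mp hmk
  have hI₁ : Ideal.span {y} * I'.1 ≠ ⊥ :=
    mul_ne_zero (by simpa [Ideal.span_singleton_eq_bot] using hy) (nonZeroDivisors.coe_ne_zero I')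
  have h₁ : Ideal.span {x} * I.1 = (Ideal.span {y} * I'.1) * S.1 ^ 2 := by
    rw [hxy, mul_assoc]
    rfl
  have h₂ : Ideal.span {y} * I'.1 = (Ideal.span {y} * I'.1) * ⊤ := (Ideal.mul_top _).symm
  obtain ⟨σ⟩ := exists_similar D.finrank_eq D.discr_eq _ _ _ (nonZeroDivisors.coe_ne_zero I) hI₁
    x h₁
  obtain ⟨τ⟩ := exists_similar D.finrank_eq D.discr_eq _ _ _ (nonZeroDivisors.coe_ne_zero I') hI₁
    y h₂
  rw [map_pow, Nat.cast_pow] at σ
  rw [Ideal.absNorm_top, Nat.cast_one, ← one_pow 2] at τ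
  rw [← (σ.scale d hd).gauss_eq (by simp [BForm.scale_det, det_formOf]) δ
      (Int.isCoprime_iff_nat_coprime.mpr (by simpa using hcop)) α,
    ← (τ.scale d hd).gauss_eq (by simp [BForm.scale_det, det_formOf]) δ isCoprime_one_left α]

theorem gauss_qForm_eq (C s : ClassGroup (𝓞 K)) (d : ℕ) (hd : 0 < d) (α : ℤ) (δ : ℕ) [NeZero δ] :
    ((D.qForm (C * s ^ 2)).scale d hd).gauss α δ 0 = ((D.qForm C).scale d hd).gauss α δ 0 :=
  D.gauss_formOf_eq s⁻¹ (by rw [D.mk0_rep, D.mk0_rep, mul_inv, inv_pow]) d hd α δ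

theorem gauss_rForm_eq (C s : ClassGroup (𝓞 K)) (d : ℕ) (hd : 0 < d) (α : ℤ) (δ : ℕ) [NeZero δ] :
    ((D.rForm (C * s ^ 2)).scale d hd).gauss α δ 0 = ((D.rForm C).scale d hd).gauss α δ 0 :=
  D.gauss_formOf_eq s⁻¹
    (by rw [map_mul, map_mul, D.mk0_rep, D.mk0_rep, mul_inv, inv_pow, mul_assoc]) d hd α δ

variable {d : Finset ℕ} (hd : d ⊆ D.Q)

/-- The first scaled form. -/
def qScaled (C : ClassGroup (𝓞 K)) : BForm := (D.qForm C).scale (sub d) (D.sub_pos hd)

/-- The second scaled form. -/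
def rScaled (_hd : d ⊆ D.Q) (C : ClassGroup (𝓞 K)) : BForm :=
  (D.rForm C).scale (sub (D.Q \ d)) (D.sub_pos (D.sdiff_subset d))

open scoped Classical in
/-- The difference of the products of theta series for `C` and `C s²`. -/
def pairDatum (C s : ClassGroup (𝓞 K)) :
    BForm.PairDatum (D.level * 2 * 2) (ClassGroup (𝓞 K)) where
  Q := D.qScaled hd
  R := D.rScaled hd
  c C' := (1 / 2 : ℂ) * ((if C' = C then 1 else 0) - if C' = C * s ^ 2 then 1 else 0)
  levelQ C' := by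
    have h := (D.qForm C').scale_levelDvd (sub d) (sub (D.Q \ d)) (D.sub_pos hd)
    rw [D.det_qForm, Int.natAbs_natCast, D.sub_mul_sub hd] at h
    rwa [show D.level * 2 * 2 = (∏ q ∈ D.Q, q) * (8 * D.m) by rw [level]; ring]
  levelR C' := by
    have h := (D.rForm C').scale_levelDvd (sub (D.Q \ d)) (sub d)
      (D.sub_pos (D.sdiff_subset d))
    rw [D.det_rForm, Int.natAbs_natCast, mul_comm (sub (D.Q \ d)), D.sub_mul_sub hd] at h
    rwa [show D.level * 2 * 2 = (∏ q ∈ D.Q, q) * (8 * D.m) by rw [level]; ring]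
  square C' := by
    rw [qScaled, rScaled, BForm.scale_det, BForm.scale_det, D.det_qForm, D.det_rForm]
    exact ⟨(sub d : ℤ) * (sub (D.Q \ d) : ℤ) * ((8 * D.m : ℕ) : ℤ), by ring⟩
  sum_eq_zero := by simp [Finset.sum_sub_distrib, ← Finset.mul_sum]
  gauss_eq_zero α δ _ _ := by
    simp only [mul_assoc, ← Finset.mul_sum, sub_mul, Finset.sum_sub_distrib, ite_mul, one_mul,
      zero_mul, Finset.sum_ite_eq', Finset.mem_univ, if_true]
    simp only [BForm.sqrtDet, qScaled, rScaled, BForm.scale_det, D.det_qForm, D.det_rForm,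
      D.gauss_qForm_eq, D.gauss_rForm_eq, sub_self, mul_zero]

/-- Half the number of representations. -/
def halfCount (C : ClassGroup (𝓞 K)) (n : ℕ) : ℕ :=
  BForm.pairCount (D.qScaled hd C) (D.rScaled hd C) n / 2

theorem repCount_qScaled (C : ClassGroup (𝓞 K)) (n : ℕ) (hn : 0 < n) :
    (D.qScaled hd C).repCount n =
      2 * if sub d ∣ n then classCount C (n / sub d) else 0 := by
  rw [qScaled, BForm.repCount_scale]
  split_ifs with h
  · exact D.repCount_qForm C _ (Nat.div_pos (Nat.le_of_dvd hn h) (D.sub_pos hd))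
  · rfl

theorem repCount_rScaled (C : ClassGroup (𝓞 K)) (n : ℕ) (hn : 0 < n) :
    (D.rScaled hd C).repCount n = 2 * if sub (D.Q \ d) ∣ n then
      classCount (C * (ClassGroup.mk0 D.twist)⁻¹) (n / sub (D.Q \ d)) else 0 := by
  rw [rScaled, BForm.repCount_scale]
  split_ifs with h
  · exact D.repCount_rForm C _
      (Nat.div_pos (Nat.le_of_dvd hn h) (D.sub_pos (D.sdiff_subset d)))
  · rfl

theorem exists_pairCount_scaled (C : ClassGroup (𝓞 K)) (n : ℕ) (hn : 0 < n) :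
    ∃ z, BForm.pairCount (D.qScaled hd C) (D.rScaled hd C) n =
      2 * ((if sub d ∣ n then classCount C (n / sub d) else 0) + (if sub (D.Q \ d) ∣ n then
        classCount (C * (ClassGroup.mk0 D.twist)⁻¹) (n / sub (D.Q \ d)) else 0) + 2 * z) := by
  obtain ⟨z, hz⟩ := BForm.exists_pairCount_eq (D.qScaled hd C) (D.rScaled hd C)
    (fun i hi => Dvd.intro _ (D.repCount_qScaled hd C i hi).symm)
    (fun i hi => Dvd.intro _ (D.repCount_rScaled hd C i hi).symm) n hn
  exact ⟨z, by rw [hz, D.repCount_qScaled hd C n hn, D.repCount_rScaled hd C n hn]; ring⟩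

theorem two_mul_halfCount (C : ClassGroup (𝓞 K)) (n : ℕ) (hn : 0 < n) :
    2 * D.halfCount hd C n = BForm.pairCount (D.qScaled hd C) (D.rScaled hd C) n := by
  obtain ⟨z, hz⟩ := D.exists_pairCount_scaled hd C n hn
  rw [halfCount, hz, Nat.mul_div_cancel_left _ two_pos]

theorem qCoeff_pairDatum (C s : ClassGroup (𝓞 K)) (n : ℕ) :
    qCoeff ⇑(D.pairDatum hd C s).toForm n =
      (((D.halfCount hd C n : ℤ) - D.halfCount hd (C * s ^ 2) n : ℤ) : ℂ) := by
  classical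
  rw [BForm.PairDatum.qCoeff_toForm]
  simp only [pairDatum, mul_assoc, ← Finset.mul_sum, sub_mul, Finset.sum_sub_distrib, ite_mul,
    one_mul, zero_mul, Finset.sum_ite_eq', Finset.mem_univ, if_true]
  rcases Nat.eq_zero_or_pos n with rfl | hn
  · simp [halfCount, BForm.pairCount_zero]
  · rw [← D.two_mul_halfCount hd C n hn, ← D.two_mul_halfCount hd (C * s ^ 2) n hn]
    push_cast
    ring

/-- The form of level `2m ∏ Q`. -/
def thetaForm (C s : ClassGroup (𝓞 K)) : CuspForm (Gamma0 D.level) 2 :=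
  lowerU D.two_dvd_level (lowerU (D.two_dvd_level.mul_right 2) (D.pairDatum hd C s).toForm)

theorem qCoeff_thetaForm (C s : ClassGroup (𝓞 K)) (n : ℕ) :
    qCoeff ⇑(D.thetaForm hd C s) n =
      (((D.halfCount hd C (n * 2 * 2) : ℤ) - D.halfCount hd (C * s ^ 2) (n * 2 * 2) : ℤ) : ℂ) := by
  rw [thetaForm, qCoeff_lowerU, qCoeff_lowerU, D.qCoeff_pairDatum]

theorem thetaForm_mem (C s : ClassGroup (𝓞 K)) : D.thetaForm hd C s ∈ intLattice D.level 2 :=
  (Fermat.Agent.Hecke.mem_intLattice_iff _).mpr fun n => ⟨_, D.qCoeff_thetaForm hd C s n⟩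

omit hd in
theorem exists_val_qForm (C : ClassGroup (𝓞 K)) :
    ∃ v : ℤ × ℤ, (D.qForm C).val v.1 v.2 = Ideal.absNorm (D.rep C).1 :=
  exists_val_eq_absNorm D.finrank_eq D.discr_eq _ _

omit hd in
theorem exists_val_rForm (C : ClassGroup (𝓞 K)) :
    ∃ v : ℤ × ℤ, (D.rForm C).val v.1 v.2 =
      ((Ideal.absNorm D.twist.1 : ℤ) * Ideal.absNorm (D.rep C).1) := by
  obtain ⟨v, hv⟩ := exists_val_eq_absNorm D.finrank_eq D.discr_eq (D.twist * D.rep C).1
    (nonZeroDivisors.coe_ne_zero _)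
  exact ⟨v, hv.trans (by rw [Submonoid.coe_mul, map_mul, Nat.cast_mul])⟩

/-- The representation numbers are unchanged by `p²`. -/
theorem pairCount_stable (C : ClassGroup (𝓞 K)) {p : ℕ} (hp : p.Prime) (hpN : p ∣ D.level)
    (hp0 : p ≠ D.p₀) (n : ℕ) :
    BForm.pairCount (D.qScaled hd C) (D.rScaled hd C) (n * p * p * 2 * 2) =
      BForm.pairCount (D.qScaled hd C) (D.rScaled hd C) (n * 2 * 2) := by
  have : Fact p.Prime := ⟨hp⟩
  rw [show n * p * p * 2 * 2 = p ^ 2 * (n * 2 * 2) by ring]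
  obtain ⟨v₀, hv₀⟩ := D.exists_val_qForm C
  obtain ⟨w₀, hw₀⟩ := D.exists_val_rForm C
  have hprod : (sub d : ℤ) * (sub (D.Q \ d) : ℤ) = ((∏ q ∈ D.Q, q : ℕ) : ℤ) := by
    rw [← Nat.cast_mul, D.sub_mul_sub hd]
  have hcopC := D.coprime_rep C
  have hdet : (D.rForm C).det = (D.qForm C).det := (D.det_rForm C).trans (D.det_qForm C).symm
  rcases D.coprime_level_cases hp hpN with rfl | ⟨hpm, hp2⟩ | hpQ
  · refine BForm.pairCount_sq_mul _ _ 2 16 _ two_pos ⟨n, by ring⟩ fun v w h => ?_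
    simp only [qScaled, rScaled, BForm.scale_val, Nat.cast_ofNat] at h
    have hodd : ∀ {e : Finset ℕ}, e ⊆ D.Q → ¬ (2 : ℤ) ∣ (sub e : ℤ) := fun {e} he hc =>
      D.not_dvd_sub he Nat.prime_two (fun h2 => D.ne_two 2 (he h2) rfl) (by exact_mod_cast hc)
    have hI : ¬ (2 : ℤ) ∣ (Ideal.absNorm (D.rep C).1 : ℤ) := fun hc =>
      Nat.not_coprime_of_dvd_of_dvd one_lt_two (by exact_mod_cast hc) D.two_dvd_level hcopC
    have hT : ¬ (2 : ℤ) ∣ (Ideal.absNorm D.twist.1 : ℤ) := fun hc =>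
      Nat.not_coprime_of_dvd_of_dvd one_lt_two (by exact_mod_cast hc) D.two_dvd_level
        D.twist_coprime
    refine BForm.two_dvd_of_sixteen_dvd (D.qForm C) (D.rForm C) (m := (D.m : ℤ)) ?_ ?_ ?_ _ _
      (hodd hd) (hodd (D.sdiff_subset d)) v₀ w₀ ?_ ?_ ?_ v w h
    · exact_mod_cast D.m_odd.not_two_dvd_nat
    · rw [D.det_qForm]; push_cast; rfl
    · rw [D.det_rForm]; push_cast; rfl
    · rwa [hv₀]
    · rw [hw₀]
      exact fun hc => (Int.prime_two.dvd_or_dvd hc).elim hT hI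
    · intro x y hxy
      refine D.two_cond x y (?_ : _ = _)
      rw [Int.cast_natCast] at hxy
      rw [hxy, hv₀, hw₀, hprod]
      have h1 := BForm.sq_eq_one_of_odd hI
      push_cast at h1 ⊢
      linear_combination (-(∏ q ∈ D.Q, (q : ZMod 8)) * (Ideal.absNorm D.twist.1 : ZMod 8)) * h1
  · refine BForm.pairCount_sq_mul _ _ p (p ^ 2) _ hp.pos (Dvd.intro _ rfl) fun v w h => ?_
    simp only [qScaled, rScaled, BForm.scale_val, Nat.cast_pow] at h
    refine BForm.dvd_of_sq_dvd (D.qForm C) (D.rForm C) hp2 hdet ?_ ?_ _ _ v₀ w₀ ?_ v w h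
    · rw [D.det_qForm]
      exact_mod_cast hpm.mul_left 8
    · rw [D.det_qForm]
      intro hc
      have hc' : p ^ 2 ∣ 8 * D.m := by exact_mod_cast hc
      have hcop : (p ^ 2).Coprime 8 := by
        rw [show (8 : ℕ) = 2 ^ 3 by norm_num]
        exact Nat.Coprime.pow 2 3 ((Nat.coprime_primes hp Nat.prime_two).mpr hp2)
      exact hp.ne_one (Nat.isUnit_iff.mp (D.m_sqf p (pow_two p ▸ hcop.dvd_of_dvd_mul_left hc')))
    · rw [hv₀, hw₀, hprod]
      intro hsq
      refine D.odd_cond p hp hpm hp0 ?_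
      have hI : (Ideal.absNorm (D.rep C).1 : ZMod p) ≠ 0 := fun hc =>
        Nat.not_coprime_of_dvd_of_dvd hp.one_lt ((ZMod.natCast_eq_zero_iff _ _).mp hc) hpN hcopC
      obtain ⟨r, hr⟩ := hsq
      refine ⟨r / (Ideal.absNorm (D.rep C).1 : ZMod p), ?_⟩
      push_cast at hr ⊢
      field_simp
      linear_combination hr
  · refine BForm.pairCount_sq_mul _ _ p (p ^ 2) _ hp.pos (Dvd.intro _ rfl) fun v w h => ?_
    simp only [qScaled, rScaled, BForm.scale_val, Nat.cast_pow] at h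
    have hns : ¬ IsSquare (-((D.qForm C).det : ZMod p)) := by
      rw [D.det_qForm, Int.cast_natCast]
      exact D.inert p hpQ
    have key : ∀ {e : Finset ℕ}, e ⊆ D.Q → p ∈ e →
        (p : ℤ) ∣ (sub e : ℤ) ∧ ¬ (p : ℤ) ^ 2 ∣ (sub e : ℤ) := fun {e} he hpe => by
      have h0 : sub e = p * sub (e.erase p) := (Finset.mul_prod_erase e _ hpe).symm
      refine ⟨⟨(sub (e.erase p) : ℤ), by exact_mod_cast h0⟩, fun hc => ?_⟩
      have hc' : p ^ 2 ∣ p * sub (e.erase p) := h0 ▸ (by exact_mod_cast hc)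
      rw [pow_two] at hc'
      exact D.not_dvd_sub ((Finset.erase_subset p e).trans he) hp (Finset.notMem_erase p e)
        (Nat.dvd_of_mul_dvd_mul_left hp.pos hc')
    by_cases hpd : p ∈ d
    · refine BForm.dvd_of_sq_dvd_inert (D.qForm C) (D.rForm C) (D.ne_two p hpQ) hdet hns _ _
        (key hd hpd).1 (key hd hpd).2 ?_ v w h
      exact fun hc => D.not_dvd_sub (D.sdiff_subset d) hp
        (fun h' => (Finset.mem_sdiff.mp h').2 hpd) (by exact_mod_cast hc)
    · have hpd' : p ∈ D.Q \ d := Finset.mem_sdiff.mpr ⟨hpQ, hpd⟩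
      refine (BForm.dvd_of_sq_dvd_inert (D.rForm C) (D.qForm C) (D.ne_two p hpQ) hdet.symm
        (by rwa [hdet]) _ _ (key (D.sdiff_subset d) hpd').1 (key (D.sdiff_subset d) hpd').2 ?_ w v
        (by rwa [add_comm])).symm
      exact fun hc => D.not_dvd_sub hd hp hpd (by exact_mod_cast hc)

omit hd in
/-- The subspace where `U_p²` is the identity for `p ∣ level`, `p ≠ p₀`. -/
def fixedSpace : Submodule ℂ (CuspForm (Gamma0 D.level) 2) :=
  ⨅ (p : ℕ) (hp : p.Prime ∧ p ≠ D.p₀ ∧ p ∣ D.level),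
    LinearMap.eqLocus (heckeULin 2 hp.2.2 * heckeULin 2 hp.2.2) LinearMap.id

omit hd in
theorem mem_fixedSpace {f : CuspForm (Gamma0 D.level) 2} :
    f ∈ D.fixedSpace ↔ ∀ (p : ℕ) (_ : p.Prime) (hpN : p ∣ D.level), p ≠ D.p₀ →
      heckeULin 2 hpN (heckeULin 2 hpN f) = f := by
  simp only [fixedSpace, Submodule.mem_iInf, LinearMap.mem_eqLocus, Module.End.mul_apply,
    LinearMap.id_apply]
  exact ⟨fun h p hp hpN hp0 => h p ⟨hp, hp0, hpN⟩, fun h p ⟨hp, hp0, hpN⟩ => h p hp hpN hp0⟩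

theorem thetaForm_fixed (C s : ClassGroup (𝓞 K)) : D.thetaForm hd C s ∈ D.fixedSpace := by
  rw [D.mem_fixedSpace]
  intro p hp hpN hp0
  refine Fermat.Agent.Hecke.ext_qCoeff fun n => ?_
  rw [Fermat.Agent.Hecke.qCoeff_heckeULin, Fermat.Agent.Hecke.qCoeff_heckeULin,
    D.qCoeff_thetaForm, D.qCoeff_thetaForm]
  simp only [halfCount, D.pairCount_stable hd _ hp hpN hp0 n]

end Datum

end Fermat.Agent.Dihedral.Theta
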