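import Fermat.Agent.Dihedral.ThetaAlg
import Fermat.Agent.Dihedral.ThetaMain

/-!
# The characteristic two character of the twisted theta products

For a datum `D`, a class group character `ξ` and weights `v` at the primes of `D.Q`, with values
in a ring `A` with `2 = 0`, the sequence `D.target ξ v` satisfies the Hecke recursion and is the
expansion of a combination of the twisted theta products.

Main result: `exists_thetaChar`.
-/

set_option autoImplicit false

noncomputable section

open NumberField Module CongruenceSubgroup ModularFormClass CuspForm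
open scoped nonZeroDivisors

namespace Fermat.Agent.Dihedral.Theta.Datum

variable {K : Type*} [Field K] [NumberField K] (D : Datum K)

theorem not_absNorm_eq_of_mem {q : ℕ} (hq : q ∈ D.Q) (P : Ideal (𝓞 K)) :
    Ideal.absNorm P ≠ q := by
  intro hP
  have : Fact q.Prime := ⟨D.prime q hq⟩
  have hP0 : P ≠ ⊥ := ne_bot_of_absNorm (D.prime q hq).ne_zero hP
  obtain ⟨v, hv⟩ := exists_val_eq_absNorm D.finrank_eq D.discr_eq P hP0
  rw [hP] at hv
  set F := formOf D.finrank_eq D.discr_eq P hP0
  have hns : ¬ IsSquare (-(F.det : ZMod q)) := by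
    rw [det_formOf, Int.cast_natCast]
    exact D.inert q hq
  obtain ⟨⟨a, ha⟩, ⟨b, hb⟩⟩ := F.dvd_of_dvd_val (D.ne_two q hq) hns v (by rw [hv])
  have h : (q : ℤ) = (q : ℤ) * q * F.val a b := by
    calc (q : ℤ) = F.val v.1 v.2 := hv.symm
      _ = _ := by rw [ha, hb]; simp only [BForm.val, Int.cast_id]; ring
  have h2 : (q : ℤ) ∣ 1 := ⟨F.val a b, mul_left_cancel₀
    (show (q : ℤ) ≠ 0 by exact_mod_cast (D.prime q hq).ne_zero) (by rw [mul_one, ← mul_assoc, ← h])⟩
  exact (D.prime q hq).ne_one (Nat.dvd_one.mp (by exact_mod_cast h2))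

theorem dvd_discr_iff {l : ℕ} (hl : l.Prime) :
    (l : ℤ) ∣ discr K ↔ l ∣ 2 * D.m := by
  rw [D.discr_eq, dvd_neg, Int.natCast_dvd_natCast]
  refine ⟨fun h => ?_, fun h => h.trans ⟨4, by ring⟩⟩
  rcases hl.dvd_mul.mp h with h | h
  · exact ((show 8 = 2 ^ 3 by norm_num) ▸ h |> hl.dvd_of_dvd_pow).mul_right _
  · exact h.mul_left _

theorem split_or_inert {l : ℕ} (hl : l.Prime) (hlN : ¬ l ∣ D.level) :
    (∀ P : Ideal (𝓞 K), Ideal.absNorm P ≠ l) ∨
      ∃ P P' : Ideal (𝓞 K), Ideal.absNorm P = l ∧ P * P' = Ideal.span {(l : 𝓞 K)} ∧ P ≠ P' := by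
  by_cases h : ∀ P : Ideal (𝓞 K), Ideal.absNorm P ≠ l
  · exact Or.inl h
  push Not at h
  obtain ⟨P, hP⟩ := h
  obtain ⟨P', hPP', -⟩ := exists_cofactor D.finrank_eq hl hP
  refine Or.inr ⟨P, P', hP, hPP', ?_⟩
  rintro rfl
  exact hlN ((((D.dvd_discr_iff hl).mp (dvd_discr_of_sq_eq D.finrank_eq hl hP hPP'))).mul_right _)

variable {A : Type*} [CommRing A] (ξ : ClassGroup (𝓞 K) →* A) (v : ℕ → A)

/-- The weight of a subset of `Q`. -/
def weight (d : Finset ℕ) : A := ∏ q ∈ d, v q

/-- The sequence `Σ_d u_d a(n / d)`. -/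
def target (n : ℕ) : A :=
  ∑ d ∈ D.Q.powerset, weight v d * if sub d ∣ n then idealSum ξ (n / sub d) else 0

theorem target_one : D.target ξ v 1 = 1 := by
  rw [target, Finset.sum_eq_single_of_mem ∅ (Finset.empty_mem_powerset _) fun d hd hne => ?_]
  · simp [weight, sub, idealSum_one]
  · rw [if_neg, mul_zero]
    intro h
    obtain ⟨q, hq⟩ := Finset.nonempty_iff_ne_empty.mpr hne
    exact (D.prime q (Finset.mem_powerset.mp hd hq)).ne_one
      (Nat.dvd_one.mp ((Finset.dvd_prod_of_mem _ hq).trans h))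

theorem target_mul_prime {l : ℕ} (hl : l.Prime) (hlQ : l ∉ D.Q) (n : ℕ) :
    D.target ξ v (n * l) = ∑ d ∈ D.Q.powerset,
      weight v d * if sub d ∣ n then idealSum ξ (n / sub d * l) else 0 := by
  refine Finset.sum_congr rfl fun d hd => ?_
  have hd' := Finset.mem_powerset.mp hd
  have hcop : (sub d).Coprime l :=
    ((hl.coprime_iff_not_dvd).mpr (D.not_dvd_sub hd' hl fun h => hlQ (hd' h))).symm
  congr 1
  by_cases h : sub d ∣ n
  · rw [if_pos h, if_pos (h.mul_right l), Nat.mul_div_right_comm h]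
  · rw [if_neg h, if_neg fun h' => h (hcop.dvd_of_dvd_mul_right h')]

theorem natCast_eq_one {l : ℕ} (hA : (2 : A) = 0) (hl : ¬ 2 ∣ l) : (l : A) = 1 := by
  obtain ⟨k, rfl⟩ : ∃ k, l = 2 * k + 1 := ⟨l / 2, by omega⟩
  push_cast
  rw [hA, zero_mul, zero_add]

theorem target_good_split (hA : (2 : A) = 0) {l : ℕ} (hl : l.Prime) (hlN : ¬ l ∣ D.level)
    {P P' : Ideal (𝓞 K)} (hP : Ideal.absNorm P = l) (hPP' : P * P' = Ideal.span {(l : 𝓞 K)})
    (hne : P ≠ P') (n : ℕ) :
    D.target ξ v (n * l) + (if l ∣ n then (l : A) * D.target ξ v (n / l) else 0) =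
      (classVal ξ P + classVal ξ P') * D.target ξ v n := by
  have hlQ : l ∉ D.Q := fun h => hlN (Dvd.dvd.mul_left (Finset.dvd_prod_of_mem _ h) _)
  have hl1 : (l : A) = 1 :=
    natCast_eq_one hA fun h => hlN
      ((Nat.prime_dvd_prime_iff_eq Nat.prime_two hl).mp h ▸ D.two_dvd_level)
  rw [D.target_mul_prime ξ v hl hlQ, hl1, one_mul]
  have h2 : (if l ∣ n then D.target ξ v (n / l) else 0) = ∑ d ∈ D.Q.powerset,
      weight v d * if sub d ∣ n then (if l ∣ n / sub d then idealSum ξ (n / sub d / l) else 0)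
        else 0 := by
    by_cases hln : l ∣ n
    · rw [if_pos hln, target]
      refine Finset.sum_congr rfl fun d hd => ?_
      have hd' := Finset.mem_powerset.mp hd
      have hcop : (sub d).Coprime l :=
        ((hl.coprime_iff_not_dvd).mpr (D.not_dvd_sub hd' hl fun h => hlQ (hd' h))).symm
      congr 1
      by_cases h : sub d ∣ n
      · have h' : sub d * l ∣ n := hcop.mul_dvd_of_dvd_of_dvd h hln
        rw [if_pos h, if_pos ((Nat.dvd_div_iff_mul_dvd h).mpr h'),
          if_pos ((Nat.dvd_div_iff_mul_dvd hln).mpr (mul_comm l (sub d) ▸ h')),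
          Nat.div_div_eq_div_mul, Nat.div_div_eq_div_mul, mul_comm]
      · rw [if_neg h, if_neg fun h' => h (h'.trans (Nat.div_dvd_of_dvd hln))]
    · rw [if_neg hln]
      refine (Finset.sum_eq_zero fun d _ => ?_).symm
      split_ifs with h1 h2
      · exact absurd (h2.trans (Nat.div_dvd_of_dvd h1)) hln
      all_goals rw [mul_zero]
  rw [h2, ← Finset.sum_add_distrib, target, Finset.mul_sum]
  refine Finset.sum_congr rfl fun d _ => ?_
  rw [← mul_add, mul_left_comm]
  congr 1
  split_ifs with h1 h3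
  · have h4 := idealSum_mul_split D.finrank_eq hl ξ hP hPP' hne (n / sub d)
    rw [if_pos h3] at h4
    exact h4
  · have h4 := idealSum_mul_split D.finrank_eq hl ξ hP hPP' hne (n / sub d)
    rw [if_neg h3] at h4
    exact h4
  · simp

theorem target_good_inert (hA : (2 : A) = 0) {l : ℕ} (hl : l.Prime) (hlN : ¬ l ∣ D.level)
    (hno : ∀ P : Ideal (𝓞 K), Ideal.absNorm P ≠ l) (n : ℕ) :
    D.target ξ v (n * l) + (if l ∣ n then (l : A) * D.target ξ v (n / l) else 0) = 0 := by
  have hlQ : l ∉ D.Q := fun h => hlN (Dvd.dvd.mul_left (Finset.dvd_prod_of_mem _ h) _)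
  have hl1 : (l : A) = 1 :=
    natCast_eq_one hA fun h => hlN
      ((Nat.prime_dvd_prime_iff_eq Nat.prime_two hl).mp h ▸ D.two_dvd_level)
  rw [D.target_mul_prime ξ v hl hlQ, hl1, one_mul]
  simp only [idealSum_mul_inert D.finrank_eq hl ξ hno]
  by_cases hln : l ∣ n
  · rw [if_pos hln, target, ← Finset.sum_add_distrib]
    refine Finset.sum_eq_zero fun d hd => ?_
    have hd' := Finset.mem_powerset.mp hd
    have hcop : (sub d).Coprime l :=
      ((hl.coprime_iff_not_dvd).mpr (D.not_dvd_sub hd' hl fun h => hlQ (hd' h))).symm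
    by_cases h : sub d ∣ n
    · have h' : sub d * l ∣ n := hcop.mul_dvd_of_dvd_of_dvd h hln
      rw [if_pos h, if_pos ((Nat.dvd_div_iff_mul_dvd h).mpr h'),
        if_pos ((Nat.dvd_div_iff_mul_dvd hln).mpr (mul_comm l (sub d) ▸ h')),
        Nat.div_div_eq_div_mul, Nat.div_div_eq_div_mul, mul_comm l, ← two_mul, hA, zero_mul]
    · rw [if_neg h, if_neg fun h' => h (h'.trans (Nat.div_dvd_of_dvd hln))]
      simp
  · rw [if_neg hln, add_zero]
    refine Finset.sum_eq_zero fun d _ => ?_
    split_ifs with h1 h2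
    · exact absurd (h2.trans (Nat.div_dvd_of_dvd h1)) hln
    all_goals rw [mul_zero]

theorem target_ramified {p : ℕ} (hp : p.Prime) (hpm : p ∣ 2 * D.m) {P : Ideal (𝓞 K)}
    (hP : Ideal.absNorm P = p) (hPP : P * P = Ideal.span {(p : 𝓞 K)}) (n : ℕ) :
    D.target ξ v (n * p) = classVal ξ P * D.target ξ v n := by
  have hpQ : p ∉ D.Q := fun h => by
    rcases hp.dvd_mul.mp hpm with h2 | h2
    · exact D.ne_two p h ((Nat.prime_dvd_prime_iff_eq hp Nat.prime_two).mp h2)
    · exact D.not_dvd_m h h2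
  rw [D.target_mul_prime ξ v hp hpQ, target, Finset.mul_sum]
  refine Finset.sum_congr rfl fun d _ => ?_
  rw [mul_left_comm]
  congr 1
  split_ifs
  · exact idealSum_mul_ramified D.finrank_eq hp ξ hP hPP _
  · rw [mul_zero]

theorem target_inert (hv : ∀ q ∈ D.Q, v q * v q = 1) {q : ℕ} (hq : q ∈ D.Q) (n : ℕ) :
    D.target ξ v (n * q) = v q * D.target ξ v n := by
  have hqp := D.prime q hq
  have hQ : D.Q = insert q (D.Q.erase q) := (Finset.insert_erase hq).symm
  simp only [target]
  conv_lhs => rw [hQ, Finset.sum_powerset_insert (Finset.notMem_erase q _)]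
  conv_rhs => rw [hQ, Finset.sum_powerset_insert (Finset.notMem_erase q _), mul_add,
    Finset.mul_sum, Finset.mul_sum, add_comm]
  rw [← Finset.sum_add_distrib, ← Finset.sum_add_distrib]
  refine Finset.sum_congr rfl fun e he => ?_
  have he' := Finset.mem_powerset.mp he
  have hqe : q ∉ e := fun h => Finset.notMem_erase q _ (he' h)
  have hcop : (sub e).Coprime q := ((hqp.coprime_iff_not_dvd).mpr
    (D.not_dvd_sub (he'.trans (Finset.erase_subset _ _)) hqp hqe)).symm
  rw [show sub (insert q e) = q * sub e from Finset.prod_insert hqe,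
    show weight v (insert q e) = v q * weight v e from Finset.prod_insert hqe]
  have hdiv : (n * q) / (q * sub e) = n / sub e := by
    rw [mul_comm n, Nat.mul_div_mul_left _ _ hqp.pos]
  have hiff : q * sub e ∣ n * q ↔ sub e ∣ n := by
    rw [mul_comm n]; exact Nat.mul_dvd_mul_iff_left hqp.pos
  simp only [hdiv, hiff]
  by_cases h : sub e ∣ n
  · rw [if_pos h, if_pos (h.mul_right q), Nat.mul_div_right_comm h,
      idealSum_mul_inert D.finrank_eq hqp ξ (D.not_absNorm_eq_of_mem hq)]
    have hiff' : q * sub e ∣ n ↔ q ∣ n / sub e := by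
      rw [Nat.dvd_div_iff_mul_dvd h, mul_comm]
    simp only [hiff', Nat.div_div_eq_div_mul, mul_comm (sub e) q]
    linear_combination (-(weight v e) *
      if q ∣ n / sub e then idealSum ξ (n / (q * sub e)) else 0) * hv q hq
  · rw [if_neg h, if_neg fun h' => h (hcop.dvd_of_dvd_mul_right h'),
      if_neg fun h' => h ((dvd_mul_left _ _).trans h')]
    ring

theorem classVal_mul_self {p : ℕ} (hp : p.Prime) {P : Ideal (𝓞 K)}
    (hPP : P * P = Ideal.span {(p : 𝓞 K)}) : classVal ξ P * classVal ξ P = 1 := by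
  rw [← classVal_mul, hPP, classVal_span_singleton ξ (Nat.cast_ne_zero.mpr hp.ne_zero)]

theorem isHeckeSeq_target (hA : (2 : A) = 0) (hv : ∀ q ∈ D.Q, v q * v q = 1) :
    IsHeckeSeq D.level (D.target ξ v) where
  one := D.target_one ξ v
  good l hl hlN n _ := by
    rcases D.split_or_inert hl hlN with hno | ⟨P, P', hP, hPP', hne⟩
    · have h1 := D.target_good_inert ξ v hA hl hlN hno 1
      rw [if_neg (fun h => hl.ne_one (Nat.dvd_one.mp h)), add_zero, one_mul] at h1
      rw [h1, zero_mul]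
      exact D.target_good_inert ξ v hA hl hlN hno n
    · have h1 := D.target_good_split ξ v hA hl hlN hP hPP' hne 1
      rw [if_neg (fun h => hl.ne_one (Nat.dvd_one.mp h)), add_zero, one_mul, D.target_one,
        mul_one] at h1
      rw [h1]
      exact D.target_good_split ξ v hA hl hlN hP hPP' hne n
  bad p hp hpN n _ := by
    rcases hp.dvd_mul.mp hpN with h | h
    · obtain ⟨P, hP, hPP⟩ := exists_sq_eq_of_dvd_discr D.finrank_eq hp ((D.dvd_discr_iff hp).mpr h)
      have h1 := D.target_ramified ξ v hp h hP hPP 1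
      rw [one_mul, D.target_one, mul_one] at h1
      rw [h1, D.target_ramified ξ v hp h hP hPP n]
    · have hq : p ∈ D.Q := by
        by_contra hq
        exact D.not_dvd_sub subset_rfl hp hq h
      have h1 := D.target_inert ξ v hv hq 1
      rw [one_mul, D.target_one, mul_one] at h1
      rw [h1, D.target_inert ξ v hv hq n]

theorem target_mul_four (n : ℕ) : D.target ξ v (n * 2 * 2) = D.target ξ v n := by
  obtain ⟨P, hP, hPP⟩ := exists_sq_eq_of_dvd_discr D.finrank_eq Nat.prime_two
    ((D.dvd_discr_iff Nat.prime_two).mpr (dvd_mul_right _ _))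
  rw [D.target_ramified ξ v Nat.prime_two (dvd_mul_right _ _) hP hPP,
    D.target_ramified ξ v Nat.prime_two (dvd_mul_right _ _) hP hPP, ← mul_assoc,
    classVal_mul_self ξ Nat.prime_two hPP, one_mul]

variable {d : Finset ℕ} (hd : d ⊆ D.Q)

theorem halfCount_cast (hA : (2 : A) = 0) (C : ClassGroup (𝓞 K)) (n : ℕ) (hn : 0 < n) :
    (D.halfCount hd C n : A) = (if sub d ∣ n then (classCount C (n / sub d) : A) else 0) +
      if sub (D.Q \ d) ∣ n then
        (classCount (C * (ClassGroup.mk0 D.twist)⁻¹) (n / sub (D.Q \ d)) : A) else 0 := by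
  obtain ⟨z, hz⟩ := D.exists_pairCount_scaled hd C n hn
  rw [halfCount, hz, Nat.mul_div_cancel_left _ two_pos]
  push_cast
  rw [hA, zero_mul, add_zero]

theorem sum_halfCount (hA : (2 : A) = 0) (n : ℕ) (hn : 0 < n) :
    ∑ C, ξ C * (D.halfCount hd C n : A) =
      (if sub d ∣ n then idealSum ξ (n / sub d) else 0) + ξ (ClassGroup.mk0 D.twist) *
        if sub (D.Q \ d) ∣ n then idealSum ξ (n / sub (D.Q \ d)) else 0 := by
  simp only [D.halfCount_cast hd hA _ n hn, mul_add, Finset.sum_add_distrib]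
  refine congrArg₂ (· + ·) ?_ ?_
  · split_ifs
    · rw [idealSum_eq_sum]
      exact Finset.sum_congr rfl fun C _ => mul_comm _ _
    · simp
  · split_ifs
    · rw [idealSum_eq_sum, Finset.mul_sum,
        ← Equiv.sum_comp (Equiv.mulRight (ClassGroup.mk0 D.twist))]
      refine Finset.sum_congr rfl fun C _ => ?_
      rw [Equiv.coe_mulRight, mul_inv_cancel_right, map_mul]
      ring
    · simp

omit hd in
/-- A character of the Hecke algebra with values `D.target ξ v l` at `T_l` and `U_l`, vanishing on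
the operators that kill `D.fixedSpace`. -/
theorem exists_thetaChar (hA : (2 : A) = 0) (hv : ∀ q ∈ D.Q, v q * v q = 1)
    (s : ClassGroup (𝓞 K)) (μ : A) (hμ : μ * (1 - ξ ((s ^ 2)⁻¹)) = 1) (w : A)
    (hw : w * (1 + ξ (ClassGroup.mk0 D.twist) * weight v D.Q) = 1) :
    ∃ φ : ↥(heckeAlgebra D.level 2 ∅) →+* A,
      (∀ (l : ℕ) (hl : l.Prime) (hlN : ¬ l ∣ D.level),
        φ (heckeAlgebra.T hl hlN (Set.notMem_empty _)) = D.target ξ v l) ∧
      (∀ (q : ℕ) (hq : q.Prime) (hqN : q ∣ D.level),
        φ (heckeAlgebra.U hq hqN (Set.notMem_empty _)) = D.target ξ v q) ∧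
      (∀ t : ↥(heckeAlgebra D.level 2 ∅),
        (∀ f ∈ D.fixedSpace, (t : Module.End ℂ (CuspForm (Gamma0 D.level) 2)) f = 0) →
          φ t = 0) := by
  classical
  let G : ClassGroup (𝓞 K) × ↥D.Q.powerset → ↥(intLattice D.level 2) := fun i =>
    ⟨D.thetaForm (Finset.mem_powerset.mp i.2.2) i.1 s,
      D.thetaForm_mem (Finset.mem_powerset.mp i.2.2) i.1 s⟩
  let lam : ClassGroup (𝓞 K) × ↥D.Q.powerset → A := fun i => w * weight v i.2.1 * μ * ξ i.1
  have hG : ∀ n, 1 ≤ n → combCoeff lam G n = D.target ξ v n := by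
    intro n hn
    have hN : 0 < n * 2 * 2 := by omega
    have hcoef : ∀ i : ClassGroup (𝓞 K) × ↥D.Q.powerset, intCoeff (G i) n =
        (D.halfCount (Finset.mem_powerset.mp i.2.2) i.1 (n * 2 * 2) : ℤ) -
          D.halfCount (Finset.mem_powerset.mp i.2.2) (i.1 * s ^ 2) (n * 2 * 2) := fun i =>
      intCoeff_eq_of (D.qCoeff_thetaForm _ _ _ _)
    simp only [combCoeff, hcoef, lam, Int.cast_sub, Int.cast_natCast]
    rw [Fintype.sum_prod_type_right]
    have key : ∀ e : ↥D.Q.powerset,
        ∑ C, w * weight v e.1 * μ * ξ C *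
            ((D.halfCount (Finset.mem_powerset.mp e.2) C (n * 2 * 2) : A) -
              D.halfCount (Finset.mem_powerset.mp e.2) (C * s ^ 2) (n * 2 * 2)) =
          w * weight v e.1 * ((if sub e.1 ∣ n * 2 * 2 then
              idealSum ξ (n * 2 * 2 / sub e.1) else 0) +
            ξ (ClassGroup.mk0 D.twist) * if sub (D.Q \ e.1) ∣ n * 2 * 2 then
              idealSum ξ (n * 2 * 2 / sub (D.Q \ e.1)) else 0) := by
      intro e
      rw [← D.sum_halfCount ξ (Finset.mem_powerset.mp e.2) hA _ hN]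
      set h : ClassGroup (𝓞 K) → A := fun C =>
        (D.halfCount (Finset.mem_powerset.mp e.2) C (n * 2 * 2) : A) with hh
      have hshift : ∑ C, ξ C * h (C * s ^ 2) = ξ ((s ^ 2)⁻¹) * ∑ C, ξ C * h C := by
        conv_rhs => rw [Finset.mul_sum, ← Equiv.sum_comp (Equiv.mulRight (s ^ 2))]
        refine Finset.sum_congr rfl fun C _ => ?_
        rw [Equiv.coe_mulRight, ← mul_assoc, ← map_mul, mul_comm ((s ^ 2)⁻¹), mul_inv_cancel_right]
      calc ∑ C, w * weight v e.1 * μ * ξ C * (h C - h (C * s ^ 2))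
          = w * weight v e.1 * μ * (∑ C, ξ C * h C - ∑ C, ξ C * h (C * s ^ 2)) := by
            rw [← Finset.sum_sub_distrib, Finset.mul_sum]
            exact Finset.sum_congr rfl fun C _ => by ring
        _ = w * weight v e.1 * ∑ C, ξ C * h C := by
            rw [hshift]
            linear_combination (w * weight v e.1 * ∑ C, ξ C * h C) * hμ
    rw [Finset.sum_congr rfl fun e _ => key e]
    simp only [mul_add, Finset.sum_add_distrib]
    have hflip : ∑ e : ↥D.Q.powerset, w * weight v e.1 * (ξ (ClassGroup.mk0 D.twist) *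
        if sub (D.Q \ e.1) ∣ n * 2 * 2 then idealSum ξ (n * 2 * 2 / sub (D.Q \ e.1)) else 0) =
        w * (ξ (ClassGroup.mk0 D.twist) * weight v D.Q) * D.target ξ v (n * 2 * 2) := by
      rw [Finset.sum_coe_sort D.Q.powerset (fun e => w * weight v e *
        (ξ (ClassGroup.mk0 D.twist) * if sub (D.Q \ e) ∣ n * 2 * 2 then
          idealSum ξ (n * 2 * 2 / sub (D.Q \ e)) else 0)), target, Finset.mul_sum]
      refine Finset.sum_nbij' (fun e => D.Q \ e) (fun e => D.Q \ e)
        (fun e _ => Finset.mem_powerset.mpr Finset.sdiff_subset)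
        (fun e _ => Finset.mem_powerset.mpr Finset.sdiff_subset)
        (fun e he => sdiff_sdiff_eq_self (Finset.mem_powerset.mp he))
        (fun e he => sdiff_sdiff_eq_self (Finset.mem_powerset.mp he)) fun e he => ?_
      have he' := Finset.mem_powerset.mp he
      have h1 : weight v (D.Q \ e) * weight v (D.Q \ e) = 1 := by
        rw [weight, ← Finset.prod_mul_distrib]
        exact Finset.prod_eq_one fun q hq => hv q (Finset.sdiff_subset hq)
      have h2 : weight v D.Q = weight v (D.Q \ e) * weight v e :=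
        (Finset.prod_sdiff he').symm
      rw [h2]
      linear_combination (-(w * weight v e * (ξ (ClassGroup.mk0 D.twist) *
        if sub (D.Q \ e) ∣ n * 2 * 2 then idealSum ξ (n * 2 * 2 / sub (D.Q \ e)) else 0))) * h1
    have hfirst : ∑ e : ↥D.Q.powerset, w * weight v e.1 *
        (if sub e.1 ∣ n * 2 * 2 then idealSum ξ (n * 2 * 2 / sub e.1) else 0) =
        w * D.target ξ v (n * 2 * 2) := by
      rw [Finset.sum_coe_sort D.Q.powerset (fun e => w * weight v e *
        if sub e ∣ n * 2 * 2 then idealSum ξ (n * 2 * 2 / sub e) else 0), target, Finset.mul_sum]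
      exact Finset.sum_congr rfl fun e _ => by ring
    rw [hfirst, hflip, D.target_mul_four]
    linear_combination (D.target ξ v n) * hw
  obtain ⟨φ, hT, hU, -, hkill⟩ := exists_heckeChar lam (D.isHeckeSeq_target ξ v hA hv) G hG
  exact ⟨φ, hT, hU, fun t ht => hkill t fun i => ht _ (D.thetaForm_fixed _ _ _)⟩

end Fermat.Agent.Dihedral.Theta.Datum
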