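import Fermat.Agent.Dihedral.ThetaProduct
import Fermat.Agent.Eisenstein.ThetaSeries

/-!
# Representation numbers of binary forms

Representation numbers `repCount`, the expansions of theta series and of their products
(`hasExp_theta`, `hasExp_pairTheta`), scaling of forms, and the invariance of Gauss sums under a
similarity whose ratio is a square prime to the modulus (`Similar.gauss_eq`).
-/

set_option autoImplicit false

noncomputable section

open Complex UpperHalfPlane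
open scoped Real MatrixGroups ModularForm Manifold
open Fermat.Agent.Eisenstein (ex ex_add norm_ex HasExp)

namespace Fermat.Agent.Dihedral.Theta

local notation "𝕢" => Function.Periodic.qParam

namespace BForm

variable (Q : BForm)

/-- The form `d Q`. -/
def scale (d : ℕ) (hd : 0 < d) : BForm where
  A := d * Q.A
  B := d * Q.B
  C := d * Q.C
  A_pos := mul_pos (by exact_mod_cast hd) Q.A_pos
  disc_neg := by
    have h1 := Q.disc_neg
    have h2 : (0 : ℤ) < (d : ℤ) ^ 2 := pow_pos (by exact_mod_cast hd) 2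
    nlinarith [mul_lt_mul_of_pos_left h1 h2]

@[simp] theorem scale_val (d : ℕ) (hd : 0 < d) {R : Type*} [CommRing R] (x y : R) :
    (Q.scale d hd).val x y = (d : R) * Q.val x y := by
  simp only [scale, val]
  push_cast
  ring

theorem scale_det (d : ℕ) (hd : 0 < d) : (Q.scale d hd).det = (d : ℤ) ^ 2 * Q.det := by
  simp only [scale, det]
  ring

theorem scale_levelDvd (d e : ℕ) (hd : 0 < d) :
    (Q.scale d hd).LevelDvd (d * e * Q.det.natAbs) := by
  have hM : (Q.det.natAbs : ℤ) = Q.det := Int.natAbs_of_nonneg Q.det_pos.le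
  refine ⟨?_, ?_, ?_⟩ <;> rw [scale_det] <;> simp only [scale] <;> push_cast
  · exact ⟨(e : ℤ) * Q.A, by rw [abs_of_pos Q.det_pos]; ring⟩
  · exact ⟨(e : ℤ) * Q.B, by rw [abs_of_pos Q.det_pos]; ring⟩
  · exact ⟨(e : ℤ) * Q.C, by rw [abs_of_pos Q.det_pos]; ring⟩

theorem val_nonneg (x y : ℤ) : 0 ≤ Q.val x y := by
  have h := Q.val_lower (x : ℝ) (y : ℝ)
  have h2 : ((Q.val x y : ℤ) : ℝ) = Q.val (x : ℝ) (y : ℝ) := by simp [val]
  have h3 : (0 : ℝ) ≤ ((Q.val x y : ℤ) : ℝ) := by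
    rw [h2]
    refine le_trans ?_ h
    have := Q.low_pos
    positivity
  exact_mod_cast h3

theorem val_eq_zero_iff (x y : ℤ) : Q.val x y = 0 ↔ x = 0 ∧ y = 0 := by
  refine ⟨fun h => ?_, fun ⟨hx, hy⟩ => by simp [hx, hy, val]⟩
  have h' : Q.dval y (-x) = 0 := by
    rw [← h]
    simp only [val, dval, Int.cast_id]
    ring
  obtain ⟨hy, hx⟩ := (Q.dval_eq_zero_iff _ _).mp h'
  exact ⟨neg_eq_zero.mp hx, hy⟩

/-- The value as a natural number. -/
def valNat (v : ℤ × ℤ) : ℕ := (Q.val v.1 v.2).toNat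

theorem valNat_cast (v : ℤ × ℤ) : (Q.valNat v : ℤ) = Q.val v.1 v.2 :=
  Int.toNat_of_nonneg (Q.val_nonneg _ _)

theorem valNat_eq_iff (v : ℤ × ℤ) (n : ℕ) : Q.valNat v = n ↔ Q.val v.1 v.2 = n := by
  rw [← Q.valNat_cast]
  exact Int.natCast_inj.symm

theorem finite_valNat_fibre (n : ℕ) : Finite {v : ℤ × ℤ // Q.valNat v = n} := by
  obtain ⟨B, hB⟩ : ∃ B : ℕ, (n : ℝ) / Q.low ≤ B := ⟨_, Nat.le_ceil _⟩
  have hsub : ∀ v : {v : ℤ × ℤ // Q.valNat v = n},
      v.1 ∈ Set.Icc (-(B : ℤ)) B ×ˢ Set.Icc (-(B : ℤ)) B := by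
    rintro ⟨v, hv⟩
    have h1 := Q.val_lower (v.1 : ℝ) (v.2 : ℝ)
    have h2 : Q.val (v.1 : ℝ) (v.2 : ℝ) = (n : ℝ) := by
      have := congrArg (Int.cast : ℤ → ℝ) ((Q.valNat_eq_iff v n).mp hv)
      simpa [val] using this
    rw [h2, mul_comm, ← le_div_iff₀ Q.low_pos] at h1
    have habs : ∀ a : ℤ, (a : ℝ) ^ 2 ≤ B → a ∈ Set.Icc (-(B : ℤ)) B := fun a ha => by
      have ha' : a ^ 2 ≤ (B : ℤ) := by exact_mod_cast ha
      refine abs_le.mp ?_
      nlinarith [Int.le_self_sq |a|, sq_abs a]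
    exact ⟨habs _ (by nlinarith [sq_nonneg (v.2 : ℝ)]), habs _ (by nlinarith [sq_nonneg (v.1 : ℝ)])⟩
  have := ((Set.finite_Icc (-(B : ℤ)) B).prod (Set.finite_Icc (-(B : ℤ)) B)).to_subtype
  exact Finite.of_injective
    (fun v : {v : ℤ × ℤ // Q.valNat v = n} =>
      (⟨v.1, hsub v⟩ : ↥(Set.Icc (-(B : ℤ)) B ×ˢ Set.Icc (-(B : ℤ)) B)))
    fun v w h => Subtype.ext (congrArg (fun z : ↥(Set.Icc (-(B : ℤ)) B ×ˢ
      Set.Icc (-(B : ℤ)) B) => (z : ℤ × ℤ)) h)

/-- The number of representations of `n`. -/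
def repCount (n : ℕ) : ℕ := Nat.card {v : ℤ × ℤ // Q.valNat v = n}

theorem repCount_zero : Q.repCount 0 = 1 := by
  rw [repCount, Nat.card_eq_one_iff_unique]
  refine ⟨⟨fun v w => ?_⟩, ⟨(0, 0), by simp [valNat, val]⟩⟩
  have key : ∀ u : {v : ℤ × ℤ // Q.valNat v = 0}, u.1 = (0, 0) := fun u => by
    have h := (Q.valNat_eq_iff u.1 0).mp u.2
    rw [Nat.cast_zero] at h
    exact Prod.ext ((Q.val_eq_zero_iff _ _).mp h).1 ((Q.val_eq_zero_iff _ _).mp h).2
  exact Subtype.ext ((key v).trans (key w).symm)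

/-- The expansion of the theta series. -/
def repSeries : PowerSeries ℂ := PowerSeries.mk fun n => (Q.repCount n : ℂ)

theorem hasExp_theta : HasExp 1 (fun τ : ℍ => Q.theta (τ : ℂ)) Q.repSeries := by
  intro τ
  have h := (Q.summable_theta τ).of_norm.hasSum
  rw [← (Equiv.sigmaFiberEquiv Q.valNat).hasSum_iff] at h
  refine h.sigma fun n => ?_
  have := Q.finite_valNat_fibre n
  have := Fintype.ofFinite {v : ℤ × ℤ // Q.valNat v = n}
  have hterm : ∀ v : {v : ℤ × ℤ // Q.valNat v = n},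
      ex ((τ : ℂ) * Q.val (v.1.1 : ℂ) (v.1.2 : ℂ)) = 𝕢 ((1 : ℕ) : ℝ) (τ : ℂ) ^ n := by
    intro v
    have hv : Q.val (v.1.1 : ℂ) (v.1.2 : ℂ) = (n : ℂ) := by
      have := congrArg (Int.cast : ℤ → ℂ) ((Q.valNat_eq_iff v.1 n).mp v.2)
      simpa [val] using this
    rw [hv, ex, Function.Periodic.qParam, ← Complex.exp_nat_mul]
    congr 1
    push_cast
    ring
  have hval : Q.repSeries.coeff n * 𝕢 ((1 : ℕ) : ℝ) (τ : ℂ) ^ n =
      ∑ v : {v : ℤ × ℤ // Q.valNat v = n}, ex ((τ : ℂ) * Q.val (v.1.1 : ℂ) (v.1.2 : ℂ)) := by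
    simp only [hterm, Finset.sum_const, Finset.card_univ, nsmul_eq_mul]
    rw [repSeries, PowerSeries.coeff_mk, repCount, Nat.card_eq_fintype_card]
  rw [hval]
  exact hasSum_fintype fun v : {v : ℤ × ℤ // Q.valNat v = n} =>
    ex ((τ : ℂ) * Q.val (v.1.1 : ℂ) (v.1.2 : ℂ))

theorem repCount_scale (d : ℕ) (hd : 0 < d) (n : ℕ) :
    (Q.scale d hd).repCount n = if d ∣ n then Q.repCount (n / d) else 0 := by
  have hv : ∀ v, (Q.scale d hd).valNat v = d * Q.valNat v := fun v => by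
    have h : ((Q.scale d hd).valNat v : ℤ) = ((d * Q.valNat v : ℕ) : ℤ) := by
      rw [valNat_cast, scale_val]
      push_cast
      rw [Q.valNat_cast]
    exact_mod_cast h
  split_ifs with h
  · obtain ⟨m, rfl⟩ := h
    rw [Nat.mul_div_cancel_left _ hd, repCount, repCount]
    refine Nat.card_congr (Equiv.subtypeEquivRight fun v => ?_)
    rw [hv]
    exact ⟨fun e => Nat.eq_of_mul_eq_mul_left hd e, fun e => by rw [e]⟩
  · rw [repCount]
    have : IsEmpty {v : ℤ × ℤ // (Q.scale d hd).valNat v = n} :=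
      ⟨fun v => h ⟨Q.valNat v.1, (v.2.symm.trans (hv v.1))⟩⟩
    exact Nat.card_of_isEmpty

theorem hasExp_pairTheta (R : BForm) : HasExp 1 (pairTheta Q R) (Q.repSeries * R.repSeries) :=
  Q.hasExp_theta.mul R.hasExp_theta

theorem four_val_mul_val' (v w : ℤ × ℤ) :
    4 * (Q.val v.1 v.2 * Q.val w.1 w.2) =
      (2 * Q.A * (v.1 * w.1) + Q.B * (v.1 * w.2 + v.2 * w.1) + 2 * Q.C * (v.2 * w.2)) ^ 2 +
        Q.det * (v.1 * w.2 - v.2 * w.1) ^ 2 := by
  simp only [val, det, Int.cast_id]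
  ring

/-- A similarity of ratio `r` from `Q` to `Q'`. -/
structure Similar (Q Q' : BForm) (r : ℤ) where
  a : ℤ
  b : ℤ
  c : ℤ
  e : ℤ
  val_map : ∀ x y : ℤ, Q'.val (a * x + b * y) (c * x + e * y) = r * Q.val x y

theorem Similar.coeffs {Q Q' : BForm} {r : ℤ} (h : Similar Q Q' r) :
    Q'.val h.a h.c = r * Q.A ∧ Q'.val h.b h.e = r * Q.C ∧
      2 * Q'.A * h.a * h.b + Q'.B * (h.a * h.e + h.b * h.c) + 2 * Q'.C * h.c * h.e = r * Q.B := by
  have h1 := h.val_map 1 0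
  have h2 := h.val_map 0 1
  have h3 := h.val_map 1 1
  simp only [mul_one, mul_zero, add_zero, zero_add, val, Int.cast_id, one_pow, ne_eq,
    OfNat.ofNat_ne_zero, not_false_eq_true, zero_pow] at h1 h2 h3
  refine ⟨by simpa [val] using h1, by simpa [val] using h2, ?_⟩
  linear_combination h3 - h1 - h2

theorem Similar.det_sq {Q Q' : BForm} {r : ℤ} (h : Similar Q Q' r) :
    Q'.det * (h.a * h.e - h.b * h.c) ^ 2 = r ^ 2 * Q.det := by
  obtain ⟨h1, h2, h3⟩ := h.coeffs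
  simp only [val, Int.cast_id] at h1 h2
  simp only [det]
  linear_combination 4 * (Q'.A * h.b ^ 2 + Q'.B * (h.b * h.e) + Q'.C * h.e ^ 2) * h1 +
    4 * r * Q.A * h2 -
    (2 * Q'.A * h.a * h.b + Q'.B * (h.a * h.e + h.b * h.c) + 2 * Q'.C * h.c * h.e + r * Q.B) * h3

/-- A scaled similarity. -/
def Similar.scale {Q Q' : BForm} {r : ℤ} (h : Similar Q Q' r) (d : ℕ) (hd : 0 < d) :
    Similar (Q.scale d hd) (Q'.scale d hd) r where
  a := h.a
  b := h.b
  c := h.c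
  e := h.e
  val_map x y := by
    rw [scale_val, scale_val, h.val_map]
    ring

/-- Gauss sums do not change under a similarity whose ratio is a square prime to the modulus. -/
theorem Similar.gauss_eq {Q Q' : BForm} {n : ℤ} (h : Similar Q Q' (n ^ 2))
    (hdet : Q.det = Q'.det) (δ : ℕ) [NeZero δ] (hn : IsCoprime n (δ : ℤ)) (α : ℤ) :
    Q'.gauss α δ 0 = Q.gauss α δ 0 := by
  have hu : IsUnit (n : ZMod δ) := by
    rw [ZMod.coe_int_isUnit_iff_isCoprime]
    exact hn.symm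
  obtain ⟨u, hu⟩ := hu
  set P : ZMod δ × ZMod δ → ZMod δ × ZMod δ := fun k =>
    ((↑u⁻¹ : ZMod δ) * ((h.a : ZMod δ) * k.1 + (h.b : ZMod δ) * k.2),
      (↑u⁻¹ : ZMod δ) * ((h.c : ZMod δ) * k.1 + (h.e : ZMod δ) * k.2)) with hP
  set w : ZMod δ := ((h.a * h.e - h.b * h.c : ℤ) : ZMod δ) with hw
  have hwu : IsUnit w := by
    have h2 : (h.a * h.e - h.b * h.c) ^ 2 = ((n ^ 2) ^ 2 : ℤ) := by
      have := h.det_sq
      rw [← hdet, mul_comm _ Q.det] at this
      exact mul_left_cancel₀ Q.det_pos.ne' this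
    have : w ^ 2 = (u : ZMod δ) ^ 4 := by
      rw [hw, ← Int.cast_pow, h2, hu]
      push_cast
      ring
    exact (isUnit_pow_iff two_ne_zero).mp (this ▸ u.isUnit.pow 4)
  have hbij : Function.Bijective P := by
    refine Finite.injective_iff_bijective.mp fun k l hkl => ?_
    simp only [hP, Prod.mk.injEq] at hkl
    obtain ⟨e1, e2⟩ := hkl
    have e1' := u⁻¹.isUnit.mul_left_cancel e1
    have e2' := u⁻¹.isUnit.mul_left_cancel e2
    have f1 : w * (k.1 - l.1) = 0 := by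
      rw [hw]
      push_cast
      linear_combination (h.e : ZMod δ) * e1' - (h.b : ZMod δ) * e2'
    have f2 : w * (k.2 - l.2) = 0 := by
      rw [hw]
      push_cast
      linear_combination (h.a : ZMod δ) * e2' - (h.c : ZMod δ) * e1'
    exact Prod.ext (sub_eq_zero.mp ((hwu.mul_right_eq_zero).mp f1))
      (sub_eq_zero.mp ((hwu.mul_right_eq_zero).mp f2))
  refine (Fintype.sum_bijective P hbij _ _ fun k => ?_).symm
  congr 1
  have huu : (↑u⁻¹ : ZMod δ) * (u : ZMod δ) = 1 := by simp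
  obtain ⟨h1, h2, h3⟩ := h.coeffs
  have h1' := congrArg (Int.cast : ℤ → ZMod δ) h1
  have h2' := congrArg (Int.cast : ℤ → ZMod δ) h2
  have h3' := congrArg (Int.cast : ℤ → ZMod δ) h3
  simp only [val, Int.cast_id] at h1' h2'
  push_cast at h1' h2' h3'
  rw [← hu] at h1' h2' h3'
  simp only [hP, val, Prod.fst_zero, Prod.snd_zero, Int.cast_zero, zero_mul, add_zero]
  linear_combination (-(α : ZMod δ) * (↑u⁻¹ : ZMod δ) ^ 2 * k.1 ^ 2) * h1' +
    (-(α : ZMod δ) * (↑u⁻¹ : ZMod δ) ^ 2 * k.2 ^ 2) * h2' +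
    (-(α : ZMod δ) * (↑u⁻¹ : ZMod δ) ^ 2 * (k.1 * k.2)) * h3' +
    (-(α : ZMod δ) * ((↑u⁻¹ : ZMod δ) * u + 1) *
      ((Q.A : ZMod δ) * k.1 ^ 2 + (Q.B : ZMod δ) * (k.1 * k.2) + (Q.C : ZMod δ) * k.2 ^ 2)) * huu

end BForm

end Fermat.Agent.Dihedral.Theta
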