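import Fermat.Agent.Hecke.Duality
import Fermat.Agent.Petersson.Hecke

/-!
# Eigenforms detect a Hecke stable space

Let `V` be a Hecke stable space of cusp forms of weight two and level `M` on which `U_p² = 1`
for all primes `p ∣ M` other than `p₀`.  Finitely many normalised eigenforms in `V` detect the
action on `V` of the Hecke algebra away from `p₀`.

Main result: `exists_eigenFamily`.
-/

set_option autoImplicit false

noncomputable section

open CongruenceSubgroup ModularFormClass CuspForm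
open Fermat.Agent.Hecke

namespace Fermat.Agent.Dihedral.Theta

variable {M : ℕ} [NeZero M] {V : Submodule ℂ (CuspForm (Gamma0 M) 2)}

/-- A common eigenvector of the whole Hecke algebra can be normalised. -/
theorem exists_normalized_of_common {v : CuspForm (Gamma0 M) 2} (hv0 : v ≠ 0)
    (h : ∀ t : ↥(heckeAlgebra M 2 ∅), ∃ c : ℂ,
      (t : Module.End ℂ (CuspForm (Gamma0 M) 2)) v = c • v) :
    ∃ g : CuspForm (Gamma0 M) 2, g.IsNormalizedEigenform ∧ ∃ c : ℂ, c ≠ 0 ∧ g = c • v := by
  choose c hc using h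
  have inj : ∀ {a b : ℂ}, a • v = b • v → a = b := fun {a b} e => smul_left_injective ℂ hv0 e
  let χ : ↥(heckeAlgebra M 2 ∅) →+* ℂ :=
    { toFun := c
      map_one' := inj (by rw [← hc, OneMemClass.coe_one, Module.End.one_apply, one_smul])
      map_mul' := fun s t => inj (by
        rw [← hc, MulMemClass.coe_mul, Module.End.mul_apply, hc t, map_smul, hc s, smul_smul,
          mul_comm])
      map_zero' := inj (by rw [← hc, ZeroMemClass.coe_zero, LinearMap.zero_apply, zero_smul])
      map_add' := fun s t => inj (by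
        rw [← hc, AddMemClass.coe_add, LinearMap.add_apply, hc s, hc t, add_smul]) }
  have hv : IsEigenvector χ v := hc
  have h1 := hv.qCoeff_one_ne_zero hv0
  refine ⟨(qCoeff ⇑v 1)⁻¹ • v, ?_, _, inv_ne_zero h1, rfl⟩
  have hgv : IsEigenvector χ ((qCoeff ⇑v 1)⁻¹ • v) := fun t => by
    rw [map_smul, hv t, smul_comm]
  exact hgv.isNormalizedEigenform (by rw [qCoeff_smul, inv_mul_cancel₀ h1])

/-- An invariant operator whose square is the identity has no generalised eigenvectors other than
eigenvectors. -/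
theorem eq_smul_of_sq_eq_one {W : Type*} [AddCommGroup W] [Module ℂ W] (U : Module.End ℂ W)
    (hU : ∀ w, U (U w) = w) (μ : ℂ) {w : W} (hw : w ∈ U.maxGenEigenspace μ) : U w = μ • w := by
  have hss : U.IsSemisimple := by
    refine Module.End.isSemisimple_of_squarefree_aeval_eq_zero
      (p := Polynomial.X ^ 2 - Polynomial.C 1) ?_ ?_
    · exact (Polynomial.separable_X_pow_sub_C (1 : ℂ) (by norm_num) one_ne_zero).squarefree
    · refine LinearMap.ext fun z => ?_
      simp [pow_two, hU z]
  rw [hss.isFinitelySemisimple.maxGenEigenspace_eq_eigenspace] at hw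
  exact Module.End.mem_eigenspace_iff.mp hw

/-- **Eigenforms detect the Hecke action on `V`.** -/
theorem exists_eigenFamily (p₀ : ℕ) (hp₀ : p₀.Prime) (hp₀M : p₀ ∣ M)
    (hV : ∀ t ∈ heckeAlgebra M 2 ∅, ∀ f ∈ V, t f ∈ V)
    (hU : ∀ p : ℕ, p.Prime → ∀ hpM : p ∣ M, p ≠ p₀ →
      ∀ f ∈ V, heckeULin 2 hpM (heckeULin 2 hpM f) = f) :
    ∃ s : Finset (CuspForm (Gamma0 M) 2), (∀ g ∈ s, g.IsNormalizedEigenform ∧ g ∈ V) ∧
      ∀ t : ↥(heckeAlgebra M 2 ({p₀} : Set ℕ)),
        (∀ g ∈ s, (t : Module.End ℂ (CuspForm (Gamma0 M) 2)) g = 0) →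
          ∀ f ∈ V, (t : Module.End ℂ (CuspForm (Gamma0 M) 2)) f = 0 := by
  classical
  have := MFCore.finiteDimensional_cuspForm_Gamma0 M 2
  let ι : Type := ↥(heckeGenerators M 2 ({p₀} : Set ℕ))
  have hmem : ∀ i : ι, i.1 ∈ heckeAlgebra M 2 (∅ : Set ℕ) := fun i =>
    heckeAlgebra_mono (Set.empty_subset _) (Algebra.subset_adjoin i.2)
  let R : ι → Module.End ℂ V := fun i => i.1.restrict (hV i.1 (hmem i))
  have hR : ∀ (i : ι) (v : V),
      (((R i) v : V) : CuspForm (Gamma0 M) 2) = i.1 (v : CuspForm (Gamma0 M) 2) := fun i v => rfl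
  have hcomm : ∀ i j, Commute (R i) (R j) := fun i j =>
    LinearMap.ext fun v => Subtype.ext (by
      simp only [Module.End.mul_apply, hR]
      exact LinearMap.congr_fun (commute_of_mem_heckeGenerators i.2 j.2).eq _)
  have hdiag : ∀ (i : ι) (μ : ℂ) (v : V), v ∈ (R i).maxGenEigenspace μ → R i v = μ • v := by
    intro i μ v hv
    rcases i.2 with ⟨l, hl, hlM, -, he⟩ | ⟨p, hpM, hp, hps, he⟩
    · refine Petersson.apply_eq_smul_of_mem_maxGenEigenspace
        (((Petersson.pairing0 M).domRestrict V).flip.domRestrict V).flip ?_ ?_ (Commute.refl _) ?_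
        μ hv
      · intro a b
        exact Petersson.pairing0_symm _ _
      · intro a ha
        exact Subtype.ext (Petersson.pairing0_self_eq_zero _ ha)
      · intro a b
        change Petersson.pairing0 M ((R i a : V) : CuspForm (Gamma0 M) 2) b =
          Petersson.pairing0 M a ((R i b : V) : CuspForm (Gamma0 M) 2)
        rw [hR, hR, he]
        exact Petersson.pairing0_heckeTLin hl hlM _ _
    · refine eq_smul_of_sq_eq_one (R i) (fun w => Subtype.ext ?_) μ hv
      rw [hR, hR, he]
      exact hU p hp hpM hps w w.2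
  set W : (ι → ℂ) → Submodule ℂ V := fun χ => ⨅ i, (R i).eigenspace (χ i) with hW
  have htop : ⨆ χ, W χ = ⊤ := by
    rw [eq_top_iff,
      ← Module.End.iSup_iInf_maxGenEigenspace_eq_top_of_iSup_maxGenEigenspace_eq_top_of_commute
        R (fun i j _ => hcomm i j) fun i => Module.End.iSup_maxGenEigenspace_eq_top (R i)]
    refine iSup_mono fun χ => iInf_mono fun i v hv => ?_
    rw [Module.End.mem_eigenspace_iff]
    exact hdiag i _ v hv
  -- the eigenforms extending each joint eigenvalue system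
  have hext : ∀ χ, ∀ w ∈ W χ, w ≠ 0 → ∃ g : CuspForm (Gamma0 M) 2, g.IsNormalizedEigenform ∧
      g ∈ V ∧ ∀ i : ι, i.1 g = χ i • g := by
    intro χ w₀ hw₀ hne
    let U := heckeULin (2 : ℤ) hp₀M
    have hUmem : U ∈ heckeAlgebra M 2 (∅ : Set ℕ) :=
      heckeULin_mem_heckeAlgebra hp₀ hp₀M (Set.notMem_empty _)
    let UV : Module.End ℂ V := U.restrict (hV U hUmem)
    have hgen' : ∀ v ∈ W χ, ∀ i : ι,
        i.1 (v : CuspForm (Gamma0 M) 2) = χ i • (v : CuspForm (Gamma0 M) 2) := by
      intro v hv i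
      simp only [hW, Submodule.mem_iInf, Module.End.mem_eigenspace_iff] at hv
      exact congrArg Subtype.val (hv i)
    have hstab : ∀ v ∈ W χ, UV v ∈ W χ := by
      intro v hv
      simp only [hW, Submodule.mem_iInf, Module.End.mem_eigenspace_iff]
      intro i
      refine Subtype.ext ?_
      change i.1 (U v) = χ i • U (v : CuspForm (Gamma0 M) 2)
      have hc := commute_of_mem_heckeGenerators
        (heckeGenerators_mono (Set.empty_subset _) i.2)
        (heckeULin_mem_heckeGenerators (k := 2) hp₀ hp₀M (Set.notMem_empty _))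
      rw [← map_smul, show i.1 (U v) = U (i.1 v) from LinearMap.congr_fun hc.eq _, hgen' v hv i]
    have : Nontrivial (W χ) := ⟨⟨⟨w₀, hw₀⟩, 0, fun h => hne (congrArg Subtype.val h)⟩⟩
    obtain ⟨c, hc⟩ := Module.End.exists_eigenvalue (UV.restrict hstab)
    obtain ⟨w, hw⟩ := hc.exists_hasEigenvector
    have hv0 : ((w : V) : CuspForm (Gamma0 M) 2) ≠ 0 := fun h =>
      hw.2 (Subtype.ext (Subtype.ext h))
    have hUw : U ((w : V) : CuspForm (Gamma0 M) 2) = c • ((w : V) : CuspForm (Gamma0 M) 2) :=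
      congrArg (fun z : W χ => ((z : V) : CuspForm (Gamma0 M) 2)) hw.apply_eq_smul
    have hsc : ∀ t : ↥(heckeAlgebra M 2 (∅ : Set ℕ)), ∃ b : ℂ,
        (t : Module.End ℂ (CuspForm (Gamma0 M) 2)) (w : V) =
          b • ((w : V) : CuspForm (Gamma0 M) 2) := by
      rintro ⟨x, hx⟩
      induction hx using Algebra.adjoin_induction with
      | mem x hx =>
        rcases hx with ⟨l, hl, hlM, -, rfl⟩ | ⟨q, hqM, hq, -, rfl⟩
        · exact ⟨_, hgen' _ w.2 ⟨_, heckeTLin_mem_heckeGenerators hl hlM (fun h => hlM (by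
            rw [Set.mem_singleton_iff] at h; exact h ▸ hp₀M))⟩⟩
        · by_cases hqp : q = p₀
          · subst hqp
            exact ⟨c, hUw⟩
          · exact ⟨_, hgen' _ w.2 ⟨_, heckeULin_mem_heckeGenerators hq hqM hqp⟩⟩
      | algebraMap r =>
        exact ⟨(r : ℂ), by simp [Int.cast_smul_eq_zsmul]⟩
      | add x y _ _ hx hy =>
        obtain ⟨a, ha⟩ := hx
        obtain ⟨b, hb⟩ := hy
        exact ⟨a + b, by
          change x _ + y _ = _
          rw [ha, hb, add_smul]⟩
      | mul x y _ _ hx hy =>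
        obtain ⟨a, ha⟩ := hx
        obtain ⟨b, hb⟩ := hy
        exact ⟨a * b, by
          change x (y _) = _
          rw [hb, map_smul, ha, smul_smul, mul_comm]⟩
    obtain ⟨g, hg, a, -, hga⟩ := exists_normalized_of_common hv0 hsc
    exact ⟨g, hg, hga ▸ V.smul_mem a (w : V).2, fun i => by
      rw [hga, map_smul, hgen' _ w.2, smul_comm]⟩
  obtain ⟨b, hbG, hbspan, hbli⟩ := exists_linearIndependent ℂ
    {g : CuspForm (Gamma0 M) 2 | g.IsNormalizedEigenform ∧ g ∈ V}
  refine ⟨hbli.setFinite.toFinset, fun g hg => hbG (by simpa using hg), fun t ht => ?_⟩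
  have hkill : ∀ g : CuspForm (Gamma0 M) 2, g.IsNormalizedEigenform → g ∈ V →
      (t : Module.End ℂ (CuspForm (Gamma0 M) 2)) g = 0 := by
    intro g hg hgV
    have hle : Submodule.span ℂ b ≤ LinearMap.ker (t : Module.End ℂ (CuspForm (Gamma0 M) 2)) :=
      Submodule.span_le.mpr fun x hx => LinearMap.mem_ker.mpr (ht x (by simpa using hx))
    exact LinearMap.mem_ker.mp (hle (hbspan ▸ Submodule.subset_span ⟨hg, hgV⟩))
  have hscal : ∀ χ : ι → ℂ, ∃ c : ℂ, ∀ v : CuspForm (Gamma0 M) 2, (∀ i : ι, i.1 v = χ i • v) →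
      (t : Module.End ℂ (CuspForm (Gamma0 M) 2)) v = c • v := by
    intro χ
    obtain ⟨x, hx⟩ := t
    clear ht hkill
    induction hx using Algebra.adjoin_induction with
    | mem x hx => exact ⟨χ ⟨x, hx⟩, fun v hv => hv ⟨x, hx⟩⟩
    | algebraMap r =>
      exact ⟨(r : ℂ), fun v _ => by
        simp [Int.cast_smul_eq_zsmul]⟩
    | add x y _ _ hx hy =>
      obtain ⟨a, ha⟩ := hx
      obtain ⟨b, hb⟩ := hy
      exact ⟨a + b, fun v hv => by
        change x v + y v = _
        rw [show x v = a • v from ha v hv, show y v = b • v from hb v hv, add_smul]⟩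
    | mul x y _ _ hx hy =>
      obtain ⟨a, ha⟩ := hx
      obtain ⟨b, hb⟩ := hy
      exact ⟨a * b, fun v hv => by
        change x (y v) = _
        rw [show y v = b • v from hb v hv, map_smul, show x v = a • v from ha v hv, smul_smul,
          mul_comm]⟩
  intro f hf
  have hWle : ⨆ χ, W χ ≤ LinearMap.ker
      ((t : Module.End ℂ (CuspForm (Gamma0 M) 2)).comp V.subtype) := by
    refine iSup_le fun χ v hv => LinearMap.mem_ker.mpr ?_
    rcases eq_or_ne v 0 with rfl | hne
    · simp
    obtain ⟨g, hg, hgV, hgi⟩ := hext χ v hv hne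
    obtain ⟨c, hc⟩ := hscal χ
    have hg0 : g ≠ 0 := fun h => by
      have := hg.qCoeff_one
      rw [h, qCoeff_zero_form] at this
      exact zero_ne_one this
    have hc0 : c = 0 := by
      have := hkill g hg hgV
      rw [hc g hgi] at this
      exact (smul_eq_zero.mp this).resolve_right hg0
    simp only [hW, Submodule.mem_iInf, Module.End.mem_eigenspace_iff] at hv
    change (t : Module.End ℂ (CuspForm (Gamma0 M) 2)) (v : CuspForm (Gamma0 M) 2) = 0
    rw [hc (v : CuspForm (Gamma0 M) 2) fun i => congrArg Subtype.val (hv i), hc0, zero_smul]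
  have h1 : (⟨f, hf⟩ : V) ∈ ⨆ χ, W χ := htop ▸ Submodule.mem_top
  exact LinearMap.mem_ker.mp (hWle h1)

end Fermat.Agent.Dihedral.Theta
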