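import Fermat.Agent.Dihedral.ThetaAniso
import Fermat.Agent.Hecke.QCoeff

/-!
# Cusp forms from products of two binary theta series

A combination of products of two binary theta series of level `N` whose constant term vanishes
at every cusp (`BForm.PairDatum`) is a cusp form of weight two (`PairDatum.toForm`), with
coefficients given by `pairCount` (`PairDatum.qCoeff_toForm`).
-/

set_option autoImplicit false

noncomputable section

open Complex UpperHalfPlane CongruenceSubgroup ModularFormClass Filter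
open scoped Real MatrixGroups ModularForm Manifold
open Fermat.Agent.Eisenstein (HasExp)

namespace Fermat.Agent.Dihedral.Theta

namespace BForm

theorem pairCount_zero (Q R : BForm) : pairCount Q R 0 = 1 := by
  have h := coeff_repSeries_mul Q R 0
  rw [PowerSeries.coeff_zero_eq_constantCoeff_apply, map_mul,
    ← PowerSeries.coeff_zero_eq_constantCoeff_apply,
    ← PowerSeries.coeff_zero_eq_constantCoeff_apply] at h
  simp only [repSeries, PowerSeries.coeff_mk, repCount_zero, Nat.cast_one, mul_one] at h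
  exact_mod_cast h.symm

/-- A combination of products of two theta series, of level `N`, with vanishing constant term at
every cusp. -/
structure PairDatum (N : ℕ) (ι : Type*) [Fintype ι] where
  Q : ι → BForm
  R : ι → BForm
  c : ι → ℂ
  levelQ : ∀ i, (Q i).LevelDvd N
  levelR : ∀ i, (R i).LevelDvd N
  square : ∀ i, IsSquare ((Q i).det * (R i).det)
  sum_eq_zero : ∑ i, c i = 0
  gauss_eq_zero : ∀ (α : ℤ) (δ : ℕ) [NeZero δ], IsCoprime α (δ : ℤ) →
    ∑ i, c i * (1 / sqrtDet (Q i) (R i) * ((Q i).gauss α δ 0 * (R i).gauss α δ 0)) = 0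

variable {N : ℕ} {ι : Type*} [Fintype ι] (D : PairDatum N ι)

/-- The combination as a function. -/
def PairDatum.fn : ℍ → ℂ := ∑ i, D.c i • pairTheta (D.Q i) (D.R i)

/-- Its expansion. -/
def PairDatum.series : PowerSeries ℂ :=
  ∑ i, PowerSeries.C (D.c i) * ((D.Q i).repSeries * (D.R i).repSeries)

theorem PairDatum.coeff_series (n : ℕ) :
    D.series.coeff n = ∑ i, D.c i * (pairCount (D.Q i) (D.R i) n : ℂ) := by
  rw [PairDatum.series, map_sum]
  exact Finset.sum_congr rfl fun i _ => by rw [PowerSeries.coeff_C_mul, coeff_repSeries_mul]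

theorem PairDatum.hasExp : HasExp 1 D.fn D.series :=
  Fermat.Agent.Eisenstein.HasExp.sum _ fun i _ => ((D.Q i).hasExp_pairTheta (D.R i)).smul _

theorem PairDatum.mdifferentiable : MDiff D.fn := D.hasExp.mdifferentiable one_ne_zero

theorem PairDatum.slash_fn (γ : SL(2, ℤ)) :
    D.fn ∣[(2 : ℤ)] γ = ∑ i, D.c i • (pairTheta (D.Q i) (D.R i) ∣[(2 : ℤ)] γ) := by
  rw [PairDatum.fn, SlashAction.sum_slash]
  exact Finset.sum_congr rfl fun i _ => ModularForm.SL_smul_slash _ _ _ _

theorem PairDatum.slash_Gamma0 (γ : SL(2, ℤ)) (hγ : γ ∈ Gamma0 N) :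
    D.fn ∣[(2 : ℤ)] γ = D.fn := by
  rw [PairDatum.slash_fn]
  exact Finset.sum_congr rfl fun i _ => by
    rw [pairTheta_slash_Gamma0 (D.levelQ i) (D.levelR i) (D.square i) γ hγ]

theorem PairDatum.isZeroAtImInfty_pos (γ : SL(2, ℤ)) (δ : ℕ) [NeZero δ] (hδ : γ 1 0 = δ) :
    IsZeroAtImInfty (D.fn ∣[(2 : ℤ)] γ) := by
  have hcop : IsCoprime (γ 0 0) (δ : ℤ) := by
    have hdet := γ.2
    rw [Matrix.det_fin_two, hδ] at hdet
    exact ⟨γ 1 1, -γ 0 1, by linarith⟩
  have h : Tendsto (fun τ => ∑ i, D.c i • (pairTheta (D.Q i) (D.R i) ∣[(2 : ℤ)] γ) τ) atImInfty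
      (nhds (∑ i, D.c i • (-(1 / ((δ : ℂ) ^ 2 * sqrtDet (D.Q i) (D.R i))) *
        ((D.Q i).gauss (γ 0 0) δ 0 * (D.R i).gauss (γ 0 0) δ 0)))) :=
    tendsto_finsetSum _ fun i _ => (tendsto_pairTheta_slash γ δ hδ).const_smul (D.c i)
  have hz : (∑ i, D.c i • (-(1 / ((δ : ℂ) ^ 2 * sqrtDet (D.Q i) (D.R i))) *
        ((D.Q i).gauss (γ 0 0) δ 0 * (D.R i).gauss (γ 0 0) δ 0))) = 0 := by
    refine Eq.trans ?_ (mul_eq_zero_of_right (-(1 / (δ : ℂ) ^ 2)) (D.gauss_eq_zero (γ 0 0) δ hcop))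
    rw [Finset.mul_sum]
    refine Finset.sum_congr rfl fun i _ => ?_
    rw [smul_eq_mul]
    ring
  rw [hz] at h
  rw [PairDatum.slash_fn]
  exact h.congr fun τ => by simp [Finset.sum_apply]

theorem PairDatum.isZeroAtImInfty_slash (γ : SL(2, ℤ)) :
    IsZeroAtImInfty (D.fn ∣[(2 : ℤ)] γ) := by
  rcases lt_trichotomy (γ 1 0) 0 with h | h | h
  · have hneg : D.fn ∣[(2 : ℤ)] γ = D.fn ∣[(2 : ℤ)] (-γ) := by
      rw [PairDatum.slash_fn, PairDatum.slash_fn]
      exact Finset.sum_congr rfl fun i _ => by rw [pairTheta_slash_neg]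
    have : NeZero (γ 1 0).natAbs := ⟨Int.natAbs_ne_zero.mpr h.ne⟩
    rw [hneg]
    refine D.isZeroAtImInfty_pos (-γ) (γ 1 0).natAbs ?_
    rw [Matrix.SpecialLinearGroup.coe_neg, Matrix.neg_apply]
    omega
  · rw [D.slash_Gamma0 γ (by rw [Gamma0_mem, h, Int.cast_zero])]
    refine D.hasExp.isZeroAtImInfty one_ne_zero D.mdifferentiable ?_
    simp only [D.coeff_series, pairCount_zero, Nat.cast_one, mul_one, D.sum_eq_zero]
  · have : NeZero (γ 1 0).natAbs := ⟨Int.natAbs_ne_zero.mpr h.ne'⟩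
    exact D.isZeroAtImInfty_pos γ (γ 1 0).natAbs (by omega)

/-- The combination as a cusp form. -/
def PairDatum.toForm [NeZero N] : CuspForm (Gamma0 N) 2 where
  toFun := D.fn
  slash_action_eq' := by
    rintro _ ⟨γ, hγ, rfl⟩
    exact D.slash_Gamma0 γ hγ
  holo' := D.mdifferentiable
  zero_at_cusps' {c} hc := by
    rw [Subgroup.IsArithmetic.isCusp_iff_isCusp_SL2Z] at hc
    rw [OnePoint.isZeroAt_iff_forall_SL2Z hc]
    intro γ _
    exact D.isZeroAtImInfty_slash γ

theorem PairDatum.qCoeff_toForm [NeZero N] (n : ℕ) :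
    qCoeff ⇑D.toForm n = ∑ i, D.c i * (pairCount (D.Q i) (D.R i) n : ℂ) := by
  have h := D.hasExp.eq_qExpansion one_ne_zero D.mdifferentiable
  rw [Nat.cast_one] at h
  change qCoeff D.fn n = _
  rw [qCoeff, h, D.coeff_series]

end BForm

end Fermat.Agent.Dihedral.Theta
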