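import Fermat.Agent.ExtVanish.ClassDensity

/-!
# Group algebras in characteristic two and a prime of degree one

A subalgebra `B` of the group algebra over a field of characteristic two of a finite abelian
`2`-group is everything if its group `genGroup B` is everything (`eq_top_of_genGroup`).

A class group character of order three and one of order two are simultaneously non-trivial on
some prime of degree one outside a given finite set (`exists_prime_ne_one`).
-/

set_option autoImplicit false

noncomputable section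

open NumberField Module
open scoped nonZeroDivisors Topology

namespace Fermat.Agent.Dihedral.Theta

section GroupAlgebra

variable {k : Type*} [Field k] [CharP k 2] {H : Type*} [CommGroup H] [Fintype H]

/-- The augmentation ideal. -/
def augIdeal (k H : Type*) [Field k] [CommGroup H] : Ideal (MonoidAlgebra k H) :=
  Ideal.span (Set.range fun g : H => MonoidAlgebra.of k H g - 1)

omit [CharP k 2] [Fintype H] in
theorem sub_one_mem_augIdeal (g : H) : MonoidAlgebra.of k H g - 1 ∈ augIdeal k H :=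
  Ideal.subset_span ⟨g, rfl⟩

omit [CharP k 2] [Fintype H] in
theorem exists_scalar_sub_mem (a : MonoidAlgebra k H) :
    ∃ c : k, a - algebraMap k _ c ∈ augIdeal k H := by
  induction a using MonoidAlgebra.induction_on with
  | of g => exact ⟨1, by rw [map_one]; exact sub_one_mem_augIdeal g⟩
  | add a b ha hb =>
    obtain ⟨c, hc⟩ := ha
    obtain ⟨d, hd⟩ := hb
    exact ⟨c + d, by rw [map_add, add_sub_add_comm]; exact Ideal.add_mem _ hc hd⟩
  | smul r a ha =>
    obtain ⟨c, hc⟩ := ha
    refine ⟨r * c, ?_⟩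
    rw [map_mul, Algebra.smul_def, ← mul_sub]
    exact Ideal.mul_mem_left _ _ hc

theorem isNilpotent_augIdeal (n : ℕ) (hH : ∀ g : H, g ^ 2 ^ n = 1) :
    IsNilpotent (augIdeal k H) := by
  have : CharP (MonoidAlgebra k H) 2 :=
    charP_of_injective_algebraMap (FaithfulSMul.algebraMap_injective k (MonoidAlgebra k H)) 2
  have hfg : (augIdeal k H).FG := Submodule.fg_span (Set.finite_range _)
  rw [hfg.isNilpotent_iff_le_nilradical, augIdeal, Ideal.span_le]
  rintro _ ⟨g, rfl⟩
  refine ⟨2 ^ n, ?_⟩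
  rw [sub_pow_char_pow, one_pow, ← map_pow, hH, map_one, sub_self]
  exact Submodule.zero_mem _

/-- The elements `h` with `h - 1` in `B + I²` form a subgroup. -/
def genGroup (B : Subalgebra k (MonoidAlgebra k H)) : Subgroup H where
  carrier := {h | ∃ b ∈ B, MonoidAlgebra.of k H h - 1 - b ∈ augIdeal k H ^ 2}
  one_mem' := ⟨0, B.zero_mem, by rw [map_one, sub_self, sub_zero]; exact Submodule.zero_mem _⟩
  mul_mem' {g h} := by
    rintro ⟨b, hb, hgb⟩ ⟨c, hc, hhc⟩
    refine ⟨b + c, B.add_mem hb hc, ?_⟩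
    have e : MonoidAlgebra.of k H (g * h) - 1 - (b + c) =
        (MonoidAlgebra.of k H g - 1) * (MonoidAlgebra.of k H h - 1) +
          (MonoidAlgebra.of k H g - 1 - b) + (MonoidAlgebra.of k H h - 1 - c) := by
      rw [map_mul]; ring
    rw [e]
    refine Ideal.add_mem _ (Ideal.add_mem _ ?_ hgb) hhc
    rw [pow_two]
    exact Ideal.mul_mem_mul (sub_one_mem_augIdeal g) (sub_one_mem_augIdeal h)
  inv_mem' {g} := by
    rintro ⟨b, hb, hgb⟩
    refine ⟨-b, B.neg_mem hb, ?_⟩
    have h1 : MonoidAlgebra.of k H g * MonoidAlgebra.of k H g⁻¹ = 1 := by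
      rw [← map_mul, mul_inv_cancel, map_one]
    have e : MonoidAlgebra.of k H g⁻¹ - 1 - -b =
        -((MonoidAlgebra.of k H g - 1) * (MonoidAlgebra.of k H g⁻¹ - 1)) -
          (MonoidAlgebra.of k H g - 1 - b) := by
      linear_combination h1
    rw [e]
    refine Ideal.sub_mem _ (neg_mem ?_) hgb
    rw [pow_two]
    exact Ideal.mul_mem_mul (sub_one_mem_augIdeal g) (sub_one_mem_augIdeal g⁻¹)

omit [Fintype H] in
theorem sq_mem_genGroup (B : Subalgebra k (MonoidAlgebra k H)) (g : H) : g ^ 2 ∈ genGroup B := by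
  refine ⟨0, B.zero_mem, ?_⟩
  have : CharP (MonoidAlgebra k H) 2 :=
    charP_of_injective_algebraMap (FaithfulSMul.algebraMap_injective k (MonoidAlgebra k H)) 2
  rw [sub_zero, map_pow, show MonoidAlgebra.of k H g ^ 2 - 1 =
    (MonoidAlgebra.of k H g - 1) ^ 2 by rw [sub_pow_char, one_pow]]
  exact Ideal.pow_mem_pow (sub_one_mem_augIdeal g) 2

theorem eq_top_of_genGroup (n : ℕ) (hH : ∀ g : H, g ^ 2 ^ n = 1)
    (B : Subalgebra k (MonoidAlgebra k H)) (hB : genGroup B = ⊤) : B = ⊤ := by
  set I := augIdeal k H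
  have h1 : ∀ x ∈ I, ∃ b ∈ B, x - b ∈ I ^ 2 := by
    intro x hx
    induction hx using Submodule.span_induction with
    | mem y hy =>
      obtain ⟨g, rfl⟩ := hy
      exact (show g ∈ genGroup B from hB ▸ Subgroup.mem_top g)
    | zero => exact ⟨0, B.zero_mem, by simp⟩
    | add y z _ _ hy hz =>
      obtain ⟨b, hb, hb'⟩ := hy
      obtain ⟨c, hc, hc'⟩ := hz
      exact ⟨b + c, B.add_mem hb hc, by rw [add_sub_add_comm]; exact Ideal.add_mem _ hb' hc'⟩
    | smul a y hy ih =>
      obtain ⟨b, hb, hb'⟩ := ih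
      obtain ⟨c, hc⟩ := exists_scalar_sub_mem a
      refine ⟨algebraMap k _ c * b, B.mul_mem (B.algebraMap_mem c) hb, ?_⟩
      have e : a • y - algebraMap k _ c * b = (a - algebraMap k _ c) * y +
          algebraMap k _ c * (y - b) := by rw [smul_eq_mul]; ring
      rw [e]
      refine Ideal.add_mem _ ?_ (Ideal.mul_mem_left _ _ hb')
      rw [pow_two]
      exact Ideal.mul_mem_mul hc hy
  have h2 : ∀ j : ℕ, ∀ x ∈ I ^ (j + 1), ∃ b ∈ B, x - b ∈ I ^ (j + 2) := by
    intro j
    induction j with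
    | zero => intro x hx; rw [zero_add, pow_one] at hx; exact h1 x hx
    | succ j ih =>
      intro x hx
      rw [pow_succ (n := j + 1)] at hx
      refine Submodule.mul_induction_on hx ?_ ?_
      · intro y hy z hz
        obtain ⟨b, hb, hb'⟩ := ih y hy
        obtain ⟨c, hc, hc'⟩ := h1 z hz
        refine ⟨b * c, B.mul_mem hb hc, ?_⟩
        have hbI : b ∈ I ^ (j + 1) := by
          have := Ideal.sub_mem _ hy (Ideal.pow_le_pow_right (by omega) hb')
          rwa [sub_sub_cancel] at this
        have e : y * z - b * c = (y - b) * z + b * (z - c) := by ring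
        rw [e]
        refine Ideal.add_mem _ ?_ ?_
        · rw [show j + 1 + 2 = (j + 2) + 1 by omega, pow_succ]
          exact Ideal.mul_mem_mul hb' hz
        · rw [show j + 1 + 2 = (j + 1) + 2 by omega, pow_add]
          exact Ideal.mul_mem_mul hbI hc'
      · rintro y z ⟨b, hb, hb'⟩ ⟨c, hc, hc'⟩
        exact ⟨b + c, B.add_mem hb hc, by rw [add_sub_add_comm]; exact Ideal.add_mem _ hb' hc'⟩
  have h3 : ∀ j : ℕ, ∀ a, ∃ b ∈ B, a - b ∈ I ^ (j + 1) := by
    intro j
    induction j with
    | zero =>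
      intro a
      obtain ⟨c, hc⟩ := exists_scalar_sub_mem a
      exact ⟨_, B.algebraMap_mem c, by rwa [zero_add, pow_one]⟩
    | succ j ih =>
      intro a
      obtain ⟨b, hb, hb'⟩ := ih a
      obtain ⟨c, hc, hc'⟩ := h2 j _ hb'
      exact ⟨b + c, B.add_mem hb hc, by rw [← sub_sub]; exact hc'⟩
  obtain ⟨N, hN⟩ := isNilpotent_augIdeal (k := k) n hH
  refine eq_top_iff.mpr fun a _ => ?_
  obtain ⟨b, hb, hab⟩ := h3 N a
  rw [pow_succ, hN, zero_mul, Submodule.zero_eq_bot, Submodule.mem_bot, sub_eq_zero] at hab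
  rw [hab]
  exact hb

omit [Fintype H] in
/-- `h` lies in `genGroup B` if `x h + x⁻¹ h⁻¹ ∈ B`, `x` a primitive cube root of unity. -/
theorem mem_genGroup_of_trace (B : Subalgebra k (MonoidAlgebra k H)) (h : H) (x y : k)
    (hxy : x + y = 1)
    (hs : x • MonoidAlgebra.of k H h + y • MonoidAlgebra.of k H h⁻¹ ∈ B) : h ∈ genGroup B := by
  refine ⟨x • MonoidAlgebra.of k H h + y • MonoidAlgebra.of k H h⁻¹ - 1,
    B.sub_mem hs B.one_mem, ?_⟩
  have h1 : MonoidAlgebra.of k H h * MonoidAlgebra.of k H h⁻¹ = 1 := by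
    rw [← map_mul, mul_inv_cancel, map_one]
  have h2 : (2 : MonoidAlgebra k H) = 0 := by
    rw [← map_ofNat (algebraMap k (MonoidAlgebra k H)), CharTwo.two_eq_zero, map_zero]
  have hxy' : algebraMap k (MonoidAlgebra k H) x + algebraMap k _ y = 1 := by
    rw [← map_add, hxy, map_one]
  have e : MonoidAlgebra.of k H h - 1 -
      (x • MonoidAlgebra.of k H h + y • MonoidAlgebra.of k H h⁻¹ - 1) =
      algebraMap k _ y * ((MonoidAlgebra.of k H h - 1) * (MonoidAlgebra.of k H h⁻¹ - 1)) := by
    simp only [Algebra.smul_def]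
    linear_combination (-MonoidAlgebra.of k H h) * hxy' - algebraMap k _ y * h1 +
      algebraMap k _ y * (MonoidAlgebra.of k H h - 1) * h2
  rw [e, pow_two]
  exact Ideal.mul_mem_left _ _ (Ideal.mul_mem_mul (sub_one_mem_augIdeal h)
    (sub_one_mem_augIdeal h⁻¹))

/-- A proper subgroup containing all squares lies in the kernel of a quadratic character. -/
theorem exists_quadratic {G : Type*} [CommGroup G] [Finite G] (S : Subgroup G)
    (hS : ∀ g : G, g ^ 2 ∈ S) (hne : S ≠ ⊤) :
    ∃ η : G →* ℂ, (∀ g, η g ^ 2 = 1) ∧ (∀ g ∈ S, η g = 1) ∧ η ≠ 1 := by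
  obtain ⟨g₀, hg₀⟩ : ∃ g₀, g₀ ∉ S := by
    by_contra h
    push Not at h
    exact hne (eq_top_iff.mpr fun g _ => h g)
  obtain ⟨ψ, hψ⟩ := CommGroup.exists_apply_ne_one_of_hasEnoughRootsOfUnity (G ⧸ S) ℂ
    (a := QuotientGroup.mk g₀) (by rwa [Ne, QuotientGroup.eq_one_iff])
  refine ⟨(Units.coeHom ℂ).comp (ψ.comp (QuotientGroup.mk' S)), fun g => ?_, fun g hg => ?_,
    fun h => ?_⟩
  · rw [← map_pow, MonoidHom.comp_apply, MonoidHom.comp_apply, QuotientGroup.mk'_apply,
      (QuotientGroup.eq_one_iff _).mpr (hS g), map_one, map_one]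
  · rw [MonoidHom.comp_apply, MonoidHom.comp_apply, QuotientGroup.mk'_apply,
      (QuotientGroup.eq_one_iff _).mpr hg, map_one, map_one]
  · refine hψ (Units.ext ?_)
    exact DFunLike.congr_fun h g₀

end GroupAlgebra

section Density

open Fermat.Agent.Density Fermat.Agent.ExtVanish Filter

variable {K : Type*} [Field K] [NumberField K]

/-- A prime of degree one outside a finite set on which neither character is trivial. -/
theorem exists_prime_ne_one (χ η : ClassGroup (𝓞 K) →* ℂ) (hχ : ∀ C, χ C ^ 3 = 1) (hχ1 : χ ≠ 1)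
    (hη : ∀ C, η C ^ 2 = 1) (hη1 : η ≠ 1) (S : Finset ℕ) :
    ∃ P : (Ideal (𝓞 K))⁰, (Ideal.absNorm P.1).Prime ∧ Ideal.absNorm P.1 ∉ S ∧
      χ (ClassGroup.mk0 P) ≠ 1 ∧ η (ClassGroup.mk0 P) ≠ 1 := by
  classical
  by_contra hcon
  push Not at hcon
  obtain ⟨B₃, hB₃⟩ := exists_density_bound Nat.prime_three χ hχ hχ1
  obtain ⟨B₂, hB₂⟩ := exists_density_bound Nat.prime_two η hη hη1
  obtain ⟨C, hC⟩ := eventually_abs_primeTerm_add_log_le K
  set CS : ℝ := ∑ l ∈ S, (normCount K l : ℝ)
  have hlim : Tendsto (fun s : ℝ => Real.log (s - 1)) (𝓝[>] (1 : ℝ)) atBot := by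
    refine Real.tendsto_log_nhdsGT_zero.comp ?_
    rw [tendsto_nhdsWithin_iff]
    refine ⟨?_, ?_⟩
    · have : Tendsto (fun s : ℝ => s - 1) (𝓝 1) (𝓝 (1 - 1)) := tendsto_id.sub_const 1
      rw [sub_self] at this
      exact this.mono_left nhdsWithin_le_nhds
    · filter_upwards [self_mem_nhdsWithin] with s hs
      exact Set.mem_Ioi.mpr (sub_pos.mpr hs)
  have hfalse : ∀ᶠ s in 𝓝[>] (1 : ℝ), False := by
    filter_upwards [hB₃, hB₂, hC, hlim.eventually
      (eventually_lt_atBot (-6 * (C + CS + |B₃| + |B₂|))),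
      self_mem_nhdsWithin] with s h3 h2 hCs hlog hs
    have hs1 : 1 < s := hs
    set L := -Real.log (s - 1)
    have hbound : ∑' p, primeTerm K s p ≤ CS + (L + |B₃|) / 3 + (L + |B₂|) / 2 := by
      refine Real.tsum_le_of_sum_le (primeTerm_nonneg s) fun U => ?_
      let fib : ℕ → Finset (Ideal (𝓞 K)) := fun p =>
        (Ideal.finite_setOfPred_absNorm_eq (S := 𝓞 K) p).toFinset
      have hfib : ∀ p I, I ∈ fib p ↔ Ideal.absNorm I = p := fun p I => by simp [fib]
      have hsum : ∀ p : Nat.Primes, primeTerm K s p = ∑ P ∈ fib p, idealWeight s P := by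
        intro p
        rw [Finset.sum_congr rfl (g := fun _ => ((p : ℕ) : ℝ) ^ (-s))
          (fun I hI => by rw [idealWeight, (hfib p I).mp hI]), Finset.sum_const, nsmul_eq_mul]
        unfold primeTerm normCount
        congr 1
        exact congrArg (Nat.cast : ℕ → ℝ) (Nat.card_eq_card_finite_toFinset
          (Ideal.finite_setOfPred_absNorm_eq (S := 𝓞 K) (p : ℕ)))
      set T := U.biUnion fun p => fib p with hT
      have hmem : ∀ P ∈ T, ∃ p : Nat.Primes, Ideal.absNorm P = (p : ℕ) := fun P hP => by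
        obtain ⟨p, -, hp⟩ := Finset.mem_biUnion.mp hP
        exact ⟨p, (hfib _ _).mp hp⟩
      have hprime : ∀ P ∈ T, P.IsPrime ∧ P ≠ ⊥ := fun P hP => by
        obtain ⟨p, hp⟩ := hmem P hP
        exact ⟨isPrime_of_absNorm_eq_prime p.2 hp, ne_bot_of_absNorm_eq p.2.ne_zero hp⟩
      have hdisj : (U : Set Nat.Primes).PairwiseDisjoint fun p => fib p := by
        intro p _ q _ hpq
        rw [Function.onFun, Finset.disjoint_left]
        intro I hp hq
        exact hpq (Subtype.ext (((hfib _ _).1 hp).symm.trans ((hfib _ _).1 hq)))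
      have hsumT : ∑ p ∈ U, primeTerm K s p = ∑ P ∈ T, idealWeight s P := by
        rw [hT, Finset.sum_biUnion hdisj]
        exact Finset.sum_congr rfl fun p _ => hsum p
      rw [hsumT]
      set T₀ := T.filter fun P => Ideal.absNorm P ∈ S
      set T₃ := T.filter fun P => classCharFun χ P = 1
      set T₂ := T.filter fun P => classCharFun η P = 1
      have hcover : T ⊆ T₀ ∪ (T₃ ∪ T₂) := by
        intro P hP
        obtain ⟨p, hp⟩ := hmem P hP
        simp only [T₀, T₃, T₂, Finset.mem_union, Finset.mem_filter, hP, true_and]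
        by_cases hPS : Ideal.absNorm P ∈ S
        · exact Or.inl hPS
        refine Or.inr ?_
        have hP0 := (hprime P hP).2
        rw [classCharFun_of_ne_bot χ hP0, classCharFun_of_ne_bot η hP0]
        by_cases hx : χ (ClassGroup.mk0 ⟨P, mem_nonZeroDivisors_iff_ne_zero.mpr hP0⟩) = 1
        · exact Or.inl hx
        · refine Or.inr (hcon _ ?_ ?_ hx)
          · change (Ideal.absNorm P).Prime
            rw [hp]
            exact p.2
          · exact hPS
      have h0 : ∑ P ∈ T₀, idealWeight s P ≤ CS := by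
        refine (Finset.sum_le_sum fun P _ => idealWeight_le_one (by linarith) P).trans ?_
        rw [Finset.sum_const, nsmul_eq_mul, mul_one]
        have hcard : T₀.card ≤ ∑ l ∈ S, normCount K l := by
          refine le_of_eq_of_le (Finset.card_eq_sum_card_fiberwise
            (f := fun P : Ideal (𝓞 K) => Ideal.absNorm P)
            (s := T₀) (t := S) fun P hP => (Finset.mem_filter.mp hP).2) ?_
          exact Finset.sum_le_sum fun l _ => card_filter_absNorm_le_normCount T₀ l
        exact (Nat.cast_le.mpr hcard).trans (le_of_eq (Nat.cast_sum _ _))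
      have h3' := h3 T₃ fun P hP => ⟨(hprime P (Finset.mem_filter.mp hP).1).1,
        (hprime P (Finset.mem_filter.mp hP).1).2, (Finset.mem_filter.mp hP).2⟩
      have h2' := h2 T₂ fun P hP => ⟨(hprime P (Finset.mem_filter.mp hP).1).1,
        (hprime P (Finset.mem_filter.mp hP).1).2, (Finset.mem_filter.mp hP).2⟩
      have hun : ∀ A B : Finset (Ideal (𝓞 K)), ∑ P ∈ A ∪ B, idealWeight s P ≤
          ∑ P ∈ A, idealWeight s P + ∑ P ∈ B, idealWeight s P := fun A B => by
        rw [← Finset.sum_union_inter]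
        exact le_add_of_nonneg_right (Finset.sum_nonneg fun P _ => idealWeight_nonneg s P)
      have hle := (Finset.sum_le_sum_of_subset_of_nonneg hcover
        fun P _ _ => idealWeight_nonneg s P).trans (hun _ _)
      have := hun T₃ T₂
      have := le_abs_self B₃
      have := le_abs_self B₂
      push_cast at h3' h2'
      linarith
    have := (abs_le.mp hCs).1
    have := le_abs_self B₃
    have := abs_nonneg B₃
    have := abs_nonneg B₂
    linarith
  obtain ⟨s, hs⟩ := hfalse.exists
  exact hs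

end Density

end Fermat.Agent.Dihedral.Theta
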