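import Fermat.Agent.Dihedral.ThetaRep

/-!
# Invariants of Frobenius composed with inversion

On the group algebra `k[H]` of an abelian group over a field `k` of characteristic two, the
invariants of Frobenius on scalars composed with inversion on `H` form the ring `fixedRing k H`.

Main results: `eq_fixedRing_and_card` (a subring of invariants spanning `k[H]` is the whole ring
of invariants and has `2 ^ #H` elements), `isLocalRing_fixedRing` for a finite `2`-group, and the
residue map to `ZMod 2` (`exists_residue`).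
-/

set_option autoImplicit false

noncomputable section

open Module

namespace Fermat.Agent.Dihedral.Theta

section Conj

variable (k : Type*) [Field k] [CharP k 2] (H : Type*) [CommGroup H]

/-- Frobenius on scalars composed with inversion on the group. -/
def frobInv : MonoidAlgebra k H →+* MonoidAlgebra k H :=
  (MonoidAlgebra.mapDomainRingHom k (invMonoidHom : H →* H)).comp
    (MonoidAlgebra.mapRingHom H (frobenius k 2))

variable {k H}

theorem frobInv_single (h : H) (c : k) :
    frobInv k H (MonoidAlgebra.single h c) = MonoidAlgebra.single h⁻¹ (c ^ 2) := by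
  simp [frobInv, frobenius_def]

theorem frobInv_smul_of (c : k) (h : H) :
    frobInv k H (c • MonoidAlgebra.of k H h) = c ^ 2 • MonoidAlgebra.of k H h⁻¹ := by
  simp [MonoidAlgebra.of_apply, frobInv_single]

theorem frobInv_smul (c : k) (x : MonoidAlgebra k H) :
    frobInv k H (c • x) = c ^ 2 • frobInv k H x := by
  rw [Algebra.smul_def, Algebra.smul_def, map_mul]
  congr 1
  simp [MonoidAlgebra.coe_algebraMap, frobInv_single]

variable (k H)

/-- The augmentation. -/
def augHom : MonoidAlgebra k H →ₐ[k] k := MonoidAlgebra.lift k k H 1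

variable {k H}

theorem augHom_frobInv (x : MonoidAlgebra k H) : augHom k H (frobInv k H x) = augHom k H x ^ 2 := by
  induction x using MonoidAlgebra.induction_on with
  | of g => simp [augHom, MonoidAlgebra.of_apply, frobInv_single]
  | add a b ha hb => rw [map_add, map_add, map_add, ha, hb, CharTwo.add_sq]
  | smul r a ha => rw [frobInv_smul, map_smul, map_smul, ha, smul_eq_mul, smul_eq_mul, mul_pow]

/-- The ring of invariants. -/
def fixedRing (k : Type*) [Field k] [CharP k 2] (H : Type*) [CommGroup H] :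
    Subring (MonoidAlgebra k H) :=
  (frobInv k H).eqLocus (RingHom.id _)

theorem mem_fixedRing {x : MonoidAlgebra k H} : x ∈ fixedRing k H ↔ frobInv k H x = x := Iff.rfl

theorem sq_eq_self_of_mem {x : MonoidAlgebra k H} (hx : x ∈ fixedRing k H) :
    augHom k H x ^ 2 = augHom k H x := by
  rw [← augHom_frobInv, mem_fixedRing.mp hx]

theorem augHom_eq_zero_or_one {x : MonoidAlgebra k H} (hx : x ∈ fixedRing k H) :
    augHom k H x = 0 ∨ augHom k H x = 1 := by
  have h := sq_eq_self_of_mem hx
  rcases eq_or_ne (augHom k H x) 0 with h0 | h0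
  · exact Or.inl h0
  · exact Or.inr (mul_left_cancel₀ h0 (by rw [mul_one, ← pow_two, h]))

theorem isUnit_of_augHom_ne_zero [Fintype H] (n : ℕ) (hH : ∀ g : H, g ^ 2 ^ n = 1)
    {x : MonoidAlgebra k H} (hx : augHom k H x ≠ 0) : IsUnit x := by
  obtain ⟨c, hc⟩ := exists_scalar_sub_mem x
  have hle : augIdeal k H ≤ RingHom.ker (augHom k H).toRingHom := by
    rw [augIdeal, Ideal.span_le]
    rintro _ ⟨g, rfl⟩
    simp [augHom, MonoidAlgebra.of_apply]
  have hcx : augHom k H x = c := by
    have := hle hc
    simp only [RingHom.mem_ker, AlgHom.toRingHom_eq_coe, RingHom.coe_coe, map_sub, AlgHom.commutes,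
      Algebra.algebraMap_self, RingHom.id_apply] at this
    exact sub_eq_zero.mp this
  obtain ⟨N, hN⟩ := isNilpotent_augIdeal (k := k) n hH
  have hnil : IsNilpotent (x - algebraMap k _ c) :=
    ⟨N, by simpa [hN] using Ideal.pow_mem_pow hc N⟩
  have := hnil.isUnit_add_left_of_commute
    ((isUnit_iff_ne_zero.mpr (hcx ▸ hx)).map (algebraMap k (MonoidAlgebra k H))) (mul_comm _ _)
  rwa [add_sub_cancel] at this

theorem eq_fixedRing_and_card [Finite H]
    (Λ : Subring (MonoidAlgebra k H)) (hΛ : Λ ≤ fixedRing k H)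
    (hspan : Submodule.span k (Λ : Set (MonoidAlgebra k H)) = ⊤) :
    Λ = fixedRing k H ∧ Nat.card Λ = 2 ^ Nat.card H := by
  classical
  have := Fintype.ofFinite H
  let b := Basis.ofSpan hspan.ge
  have hb : ∀ i, b i ∈ Λ := fun i => Basis.ofSpan_subset hspan.ge ⟨i, rfl⟩
  have : Fintype _ := FiniteDimensional.fintypeBasisIndex b
  have hfix : ∀ x ∈ fixedRing k H, ∀ i, b.repr x i = 0 ∨ b.repr x i = 1 := by
    intro x hx i
    have h1 : frobInv k H x = ∑ j, (b.repr x j) ^ 2 • b j := by
      conv_lhs => rw [← b.sum_repr x]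
      rw [map_sum]
      exact Finset.sum_congr rfl fun j _ => by rw [frobInv_smul, mem_fixedRing.mp (hΛ (hb j))]
    rw [mem_fixedRing.mp hx] at h1
    have h2 : b.repr x i = (b.repr x i) ^ 2 := by
      conv_lhs => rw [h1, b.repr_sum_self]
    rcases eq_or_ne (b.repr x i) 0 with h0 | h0
    · exact Or.inl h0
    · exact Or.inr (mul_left_cancel₀ h0 (by rw [mul_one, ← pow_two, ← h2]))
  have hle : fixedRing k H ≤ Λ := fun x hx => by
    rw [← b.sum_repr x]
    refine Subring.sum_mem _ fun i _ => ?_
    rcases hfix x hx i with h | h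
    · rw [h, zero_smul]; exact Λ.zero_mem
    · rw [h, one_smul]; exact hb i
  refine ⟨le_antisymm hΛ hle, ?_⟩
  let f : (_ → Bool) → Λ := fun s => ⟨∑ i, (if s i then (1 : k) else 0) • b i,
    Subring.sum_mem _ fun i _ => by
      split_ifs
      · rw [one_smul]; exact hb i
      · rw [zero_smul]; exact Λ.zero_mem⟩
  have hbij : Function.Bijective f := by
    refine ⟨fun s t hst => funext fun i => ?_, fun x => ?_⟩
    · have := congrArg (fun y : Λ => b.repr (y : MonoidAlgebra k H) i) hst
      simp only [f, b.repr_sum_self] at this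
      cases hs : s i <;> cases ht : t i <;> simp [hs, ht] at this ⊢
    · refine ⟨fun i => decide (b.repr (x : MonoidAlgebra k H) i = 1), Subtype.ext ?_⟩
      conv_rhs => rw [← b.sum_repr (x : MonoidAlgebra k H)]
      refine Finset.sum_congr rfl fun i _ => ?_
      rcases hfix _ (hΛ x.2) i with h | h <;> simp [h]
  rw [← Nat.card_congr (Equiv.ofBijective f hbij), Nat.card_fun,
    Nat.card_eq_fintype_card (α := Bool),
    Fintype.card_bool, ← Module.finrank_eq_nat_card_basis b]
  congr 1
  exact Module.finrank_eq_nat_card_basis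
    ((Finsupp.basisSingleOne (R := k) (ι := H)).map (MonoidAlgebra.coeffLinearEquiv k).symm)

theorem isLocalRing_fixedRing [Fintype H] (n : ℕ) (hH : ∀ g : H, g ^ 2 ^ n = 1) :
    IsLocalRing (fixedRing k H) := by
  have key : ∀ y : fixedRing k H, augHom k H (y : MonoidAlgebra k H) ≠ 0 → IsUnit y := by
    intro y hy
    obtain ⟨u, hu⟩ := isUnit_of_augHom_ne_zero n hH hy
    have h1 : frobInv k H (u⁻¹ : (MonoidAlgebra k H)ˣ) * u = 1 := by
      have hyf : frobInv k H (u : MonoidAlgebra k H) = u := by rw [hu]; exact y.2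
      calc frobInv k H (u⁻¹ : (MonoidAlgebra k H)ˣ) * u
          = frobInv k H (u⁻¹ : (MonoidAlgebra k H)ˣ) * frobInv k H u := by rw [hyf]
        _ = 1 := by rw [← map_mul, Units.inv_mul, map_one]
    have h2 : (u⁻¹ : (MonoidAlgebra k H)ˣ).val ∈ fixedRing k H :=
      mem_fixedRing.mpr (Units.eq_inv_of_mul_eq_one_left (u := u) ((mul_comm _ _).trans h1))
    exact IsUnit.of_mul_eq_one ⟨_, h2⟩ (Subtype.ext (by
      change (y : MonoidAlgebra k H) * _ = 1
      rw [← hu, Units.mul_inv]))
  refine IsLocalRing.of_isUnit_or_isUnit_one_sub_self fun a => ?_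
  rcases augHom_eq_zero_or_one a.2 with h | h
  · right
    refine key _ ?_
    simp [h]
  · left
    exact key _ (by rw [h]; exact one_ne_zero)

/-- The residue map. -/
theorem exists_residue :
    ∃ π : fixedRing k H →+* ZMod 2, ∀ x : fixedRing k H,
      augHom k H (x : MonoidAlgebra k H) = ZMod.castHom (dvd_refl 2) k (π x) := by
  let f := ZMod.castHom (dvd_refl 2) k
  let e := RingEquiv.ofBijective f.rangeRestrict
    ⟨fun a b h => f.injective (congrArg Subtype.val h),
      f.rangeRestrict_surjective⟩
  refine ⟨e.symm.toRingHom.comp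
    (((augHom k H).toRingHom.comp (fixedRing k H).subtype).codRestrict f.range
      fun x => ?_), fun x => ?_⟩
  · rcases augHom_eq_zero_or_one x.2 with h | h
    · exact ⟨0, by simp [h]⟩
    · exact ⟨1, by simp [h]⟩
  · exact (congrArg Subtype.val (e.apply_symm_apply
      (((augHom k H).toRingHom.comp (fixedRing k H).subtype).codRestrict f.range _ x))).symm

end Conj

section Values

variable {K : Type*} [Field K] [NumberField K] {k : Type*} [Field k] [CharP k 2]
  {G : Type*} [CommGroup G]

open NumberField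

omit [CharP k 2] in
theorem cubeVal_sq (ω : k) (hω : ω ^ 2 + ω + 1 = 0) (z : Multiplicative (ZMod 3)) :
    cubeVal ω hω z ^ 2 = cubeVal ω hω z⁻¹ := by
  rw [← map_pow]
  congr 1
  revert z
  decide

omit [NumberField K] in
theorem frobInv_twistChar [Fintype G] (E : Type*) [CommGroup E] (ω : k) (hω : ω ^ 2 + ω + 1 = 0)
    (u : ClassGroup (𝓞 K) →* G) (X : ClassGroup (𝓞 K) →* Multiplicative (ZMod 3))
    (C : ClassGroup (𝓞 K)) :
    frobInv k (G × E) (twistChar E ω hω u X C) = twistChar E ω hω u X C⁻¹ := by
  rw [twistChar_apply, twistChar_apply, frobInv_smul_of, cubeVal_sq, map_inv X, map_inv u,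
    Prod.inv_mk, inv_one]

omit [NumberField K] [CharP k 2] in
theorem augHom_twistChar [Fintype G] (E : Type*) [CommGroup E] (ω : k) (hω : ω ^ 2 + ω + 1 = 0)
    (u : ClassGroup (𝓞 K) →* G) (X : ClassGroup (𝓞 K) →* Multiplicative (ZMod 3))
    (C : ClassGroup (𝓞 K)) :
    augHom k (G × E) (twistChar E ω hω u X C) = cubeVal ω hω (X C) := by
  rw [twistChar_apply, map_smul, augHom, MonoidAlgebra.lift_of, MonoidHom.one_apply, smul_eq_mul,
    mul_one]

theorem frobInv_qElt (Q : Finset ℕ) (q : ℕ) :
    frobInv k (G × (↥Q → Multiplicative (ZMod 2))) (MonoidAlgebra.of k _ (qElt G Q q)) =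
      MonoidAlgebra.of k _ (qElt G Q q) := by
  have h : (qElt G Q q)⁻¹ = qElt G Q q := by
    refine Prod.ext (by simp [qElt]) (funext fun i => ?_)
    simp only [qElt, Prod.snd_inv, Pi.inv_apply]
    split_ifs <;> rfl
  rw [MonoidAlgebra.of_apply, frobInv_single, one_pow, h]

end Values

end Fermat.Agent.Dihedral.Theta
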