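import Fermat.Agent.Dihedral.ThetaBinary
import Fermat.Agent.Eisenstein.ThetaLattice
import Fermat.Agent.Eisenstein.Exp

/-!
# Products of two binary theta series

For two positive definite binary forms whose product of determinants is a square, the product
of their theta series has weight two for `Γ₀(N)` (`pairTheta_slash_Gamma0`), and its value at
every cusp is expressed by Gauss sums (`tendsto_pairTheta_slash`).
-/

set_option autoImplicit false

noncomputable section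

open Complex UpperHalfPlane CongruenceSubgroup Filter
open scoped Real MatrixGroups ModularForm Manifold
open Fermat.Agent.Eisenstein (ex ex_add norm_ex)

namespace Fermat.Agent.Dihedral.Theta

open ModularGroup (S T)

namespace BForm

variable (Q R : BForm)

/-- The theta series. -/
def theta (τ : ℂ) : ℂ := ∑' x : ℤ × ℤ, ex (τ * Q.val (x.1 : ℂ) (x.2 : ℂ))

/-- The dual theta series. -/
def thetaStar (τ : ℂ) : ℂ := ∑' y : ℤ × ℤ, ex (τ * Q.dval (y.1 : ℂ) (y.2 : ℂ) / (Q.det : ℂ))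

/-- The Gauss sums of the form modulo `δ`. -/
def gauss (α : ℤ) (δ : ℕ) [NeZero δ] (y : ℤ × ℤ) : ℂ :=
  ∑ h : ZMod δ × ZMod δ,
    ZMod.stdAddChar ((α : ZMod δ) * Q.val h.1 h.2 + ((y.1 : ZMod δ) * h.1 + (y.2 : ZMod δ) * h.2))

theorem norm_gauss_le (α : ℤ) (δ : ℕ) [NeZero δ] (y : ℤ × ℤ) :
    ‖Q.gauss α δ y‖ ≤ (δ : ℝ) * δ := by
  refine (norm_sum_le _ _).trans (le_of_eq ?_)
  simp [AddChar.norm_apply, ZMod.card]

theorem ex_intCast_div (δ : ℕ) [NeZero δ] (z : ℤ) :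
    ex ((z : ℂ) / (δ : ℂ)) = ZMod.stdAddChar ((z : ℤ) : ZMod δ) := by
  rw [ZMod.stdAddChar_coe, ex]
  congr 1
  ring

theorem ex_intCast (z : ℤ) : ex (z : ℂ) = 1 := by
  rw [ex, mul_comm]
  exact Complex.exp_int_mul_two_pi_mul_I z

/-- Splitting `ℤ²` into classes modulo `δ`. -/
def classEquiv (δ : ℕ) [NeZero δ] : (ZMod δ × ZMod δ) × (ℤ × ℤ) ≃ ℤ × ℤ where
  toFun p := ((δ : ℤ) * p.2.1 + (p.1.1.val : ℤ), (δ : ℤ) * p.2.2 + (p.1.2.val : ℤ))
  invFun x := (((x.1 : ZMod δ), (x.2 : ZMod δ)), (x.1 / δ, x.2 / δ))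
  left_inv := by
    rintro ⟨⟨h1, h2⟩, z1, z2⟩
    have hδ : (0 : ℤ) < δ := by exact_mod_cast Nat.pos_of_ne_zero (NeZero.ne δ)
    have aux : ∀ (h : ZMod δ) (z : ℤ), ((δ : ℤ) * z + (h.val : ℤ)) / δ = z := fun h z => by
      rw [Int.add_comm, Int.add_mul_ediv_left _ _ hδ.ne', Int.ediv_eq_zero_of_lt (by positivity)
        (by exact_mod_cast ZMod.val_lt h), zero_add]
    simp only [Prod.mk.injEq, aux, and_true]
    simp
  right_inv := by
    rintro ⟨x1, x2⟩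
    simp only [ZMod.val_intCast, Int.mul_ediv_add_emod]

theorem summable_theta (τ : ℍ) :
    Summable fun x : ℤ × ℤ => ‖ex ((τ : ℂ) * Q.val (x.1 : ℂ) (x.2 : ℂ))‖ := by
  let τ' : ℍ := ⟨-1 / (τ : ℂ), Fermat.Agent.Eisenstein.neg_one_div_im_pos τ⟩
  refine (Q.summable_norm_val τ' 0 0).congr fun x => ?_
  have hτ : (τ : ℂ) ≠ 0 := τ.ne_zero
  congr 2
  simp only [τ', Complex.ofReal_zero, add_zero]
  field_simp

theorem summable_star (τ : ℍ) :
    Summable fun y : ℤ × ℤ => ‖ex ((τ : ℂ) * Q.dval (y.1 : ℂ) (y.2 : ℂ) / (Q.det : ℂ))‖ :=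
  (Q.summable_norm_dval τ 0 0).congr fun y => by simp

/-- The series appearing at a general cusp. -/
def cuspSeries (α : ℤ) (δ : ℕ) [NeZero δ] (w : ℂ) : ℂ :=
  ∑' y : ℤ × ℤ, Q.gauss α δ y * ex (w * Q.dval (y.1 : ℂ) (y.2 : ℂ) / (Q.det : ℂ))

/-- The transformation of a single theta series. -/
theorem theta_transform (α : ℤ) (δ : ℕ) [NeZero δ] (w : ℍ) :
    Q.theta ((α : ℂ) / δ - 1 / ((δ : ℂ) ^ 2 * (w : ℂ))) =
      (-Complex.I * (w : ℂ) / (Real.sqrt Q.det : ℝ)) * Q.cuspSeries α δ (w : ℂ) := by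
  have hδ : (δ : ℂ) ≠ 0 := Nat.cast_ne_zero.mpr (NeZero.ne δ)
  have hw : (w : ℂ) ≠ 0 := w.ne_zero
  set σ : ℂ := (α : ℂ) / δ - 1 / ((δ : ℂ) ^ 2 * (w : ℂ)) with hσ
  have hσim : 0 < σ.im := by
    have h1 : ((α : ℂ) / δ).im = 0 := by simp
    have h2 : -(1 / ((δ : ℂ) ^ 2 * (w : ℂ))) = (((1 / (δ : ℝ) ^ 2 : ℝ)) : ℂ) * (-1 / (w : ℂ)) := by
      push_cast
      field_simp
    rw [hσ, sub_eq_add_neg, Complex.add_im, h1, zero_add, h2, Complex.im_ofReal_mul]
    have hδ' : (0 : ℝ) < δ := by exact_mod_cast Nat.pos_of_ne_zero (NeZero.ne δ)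
    exact mul_pos (by positivity) (Fermat.Agent.Eisenstein.neg_one_div_im_pos w)
  have hterm : ∀ (h : ZMod δ × ZMod δ) (z : ℤ × ℤ),
      ex (σ * Q.val ((classEquiv δ (h, z)).1 : ℂ) ((classEquiv δ (h, z)).2 : ℂ)) =
        ZMod.stdAddChar ((α : ZMod δ) * Q.val h.1 h.2) *
          ex (-(Q.val ((z.1 : ℂ) + (((h.1.val : ℝ) / δ : ℝ) : ℂ))
            ((z.2 : ℂ) + (((h.2.val : ℝ) / δ : ℝ) : ℂ))) / (w : ℂ)) := by
    intro h z
    set X := classEquiv δ (h, z) with hX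
    have hmod : (α : ZMod δ) * Q.val h.1 h.2 = ((α * Q.val X.1 X.2 : ℤ) : ZMod δ) := by
      simp [hX, classEquiv, val]
    rw [hmod, ← ex_intCast_div, ← ex_add]
    congr 1
    simp only [hσ, hX, classEquiv, Equiv.coe_fn_mk, val]
    push_cast
    field_simp
    ring
  have hsum := (Q.summable_theta ⟨σ, hσim⟩).of_norm
  simp only at hsum
  rw [theta, ← (classEquiv δ).tsum_eq]
  have hsum' := (classEquiv δ).summable_iff.mpr hsum
  simp only [Function.comp_def] at hsum'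
  rw [Summable.tsum_prod hsum', tsum_fintype]
  simp only [hterm, tsum_mul_left, Q.poisson w]
  have hgsum : ∀ h : ZMod δ × ZMod δ, Summable fun y : ℤ × ℤ =>
      ZMod.stdAddChar ((α : ZMod δ) * Q.val h.1 h.2) *
        ex ((w : ℂ) * Q.dval (y.1 : ℂ) (y.2 : ℂ) / (Q.det : ℂ) +
          ((y.1 : ℂ) * (((h.1.val : ℝ) / δ : ℝ) : ℂ) +
            (y.2 : ℂ) * (((h.2.val : ℝ) / δ : ℝ) : ℂ))) :=
    fun h => (Q.summable_norm_dval w _ _).of_norm.mul_left _
  simp only [mul_left_comm (ZMod.stdAddChar (N := δ) _)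
    (-Complex.I * (w : ℂ) / (Real.sqrt Q.det : ℝ)), ← Finset.mul_sum, ← tsum_mul_left (a :=
      ZMod.stdAddChar (N := δ) _)]
  rw [← Summable.tsum_finsetSum fun h _ => hgsum h, cuspSeries]
  congr 1
  refine tsum_congr fun y => ?_
  rw [gauss, Finset.sum_mul]
  refine Finset.sum_congr rfl fun h _ => ?_
  rw [AddChar.map_add_eq_mul, mul_assoc, ex_add, mul_comm (ex _) (ex _)]
  congr 2
  have : (y.1 : ℂ) * (((h.1.val : ℝ) / δ : ℝ) : ℂ) + (y.2 : ℂ) * (((h.2.val : ℝ) / δ : ℝ) : ℂ) =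
      ((y.1 * (h.1.val : ℤ) + y.2 * (h.2.val : ℤ) : ℤ) : ℂ) / (δ : ℂ) := by
    push_cast
    ring
  rw [this, ex_intCast_div]
  congr 1
  push_cast
  rw [ZMod.natCast_zmod_val, ZMod.natCast_zmod_val]

theorem theta_add_one (τ : ℂ) : Q.theta (τ + 1) = Q.theta τ := by
  refine tsum_congr fun x => ?_
  have : (Q.val (x.1 : ℂ) (x.2 : ℂ)) = ((Q.val x.1 x.2 : ℤ) : ℂ) := by simp [val]
  rw [add_mul, one_mul, ex_add, this, ex_intCast, mul_one]

/-- The product of two theta series. -/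
def pairTheta (τ : ℍ) : ℂ := Q.theta (τ : ℂ) * R.theta (τ : ℂ)

theorem pairTheta_slash_T : pairTheta Q R ∣[(2 : ℤ)] T = pairTheta Q R := by
  funext τ
  rw [ModularForm.SL_slash_apply, UpperHalfPlane.modular_T_smul]
  have : UpperHalfPlane.denom (T : GL (Fin 2) ℝ) τ = 1 := by
    simp [UpperHalfPlane.denom, ModularGroup.coe_T]
  rw [this, one_zpow, mul_one, pairTheta, pairTheta, UpperHalfPlane.coe_vadd, Complex.ofReal_one,
    add_comm, theta_add_one, theta_add_one]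

theorem pairTheta_slash_T_zpow (k : ℤ) :
    pairTheta Q R ∣[(2 : ℤ)] (T ^ k : SL(2, ℤ)) = pairTheta Q R := by
  induction k using Int.induction_on with
  | zero => rw [zpow_zero, SlashAction.slash_one]
  | succ n ih => rw [zpow_add_one, SlashAction.slash_mul, ih, pairTheta_slash_T]
  | pred n ih =>
    conv_rhs => rw [← ih]
    rw [zpow_sub_one, SlashAction.slash_mul]
    conv_lhs => rw [ih]
    conv_rhs => rw [ih]
    have h := congrArg (· ∣[(2 : ℤ)] (T⁻¹ : SL(2, ℤ))) (pairTheta_slash_T Q R)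
    simp only [← SlashAction.slash_mul, mul_inv_cancel, SlashAction.slash_one] at h
    exact h.symm

/-- The product of the square roots of the determinants. -/
def sqrtDet : ℂ := ((Real.sqrt Q.det * Real.sqrt R.det : ℝ) : ℂ)

theorem sqrtDet_ne_zero : sqrtDet Q R ≠ 0 := by
  have h1 : (0 : ℝ) < Q.det := by exact_mod_cast Q.det_pos
  have h2 : (0 : ℝ) < R.det := by exact_mod_cast R.det_pos
  rw [sqrtDet]
  exact_mod_cast (mul_pos (Real.sqrt_pos.mpr h1) (Real.sqrt_pos.mpr h2)).ne'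

/-- The level condition: `N` times the inverse Gram matrix is integral and even. -/
def LevelDvd (N : ℕ) : Prop := Q.det ∣ N * Q.A ∧ Q.det ∣ N * Q.B ∧ Q.det ∣ N * Q.C

variable {Q R} {N : ℕ}

theorem LevelDvd.dvd_dval (h : Q.LevelDvd N) (x y : ℤ) : Q.det ∣ N * Q.dval x y := by
  obtain ⟨⟨a, ha⟩, ⟨b, hb⟩, c, hc⟩ := h
  refine ⟨c * x ^ 2 - b * (x * y) + a * y ^ 2, ?_⟩
  simp only [dval, Int.cast_id]
  linear_combination x ^ 2 * hc - x * y * hb + y ^ 2 * ha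

/-- The expansion at the cusp `γ ∞`. -/
theorem pairTheta_slash (γ : SL(2, ℤ)) (δ : ℕ) [NeZero δ]
    (hδ : γ 1 0 = δ) (τ : ℍ) :
    (pairTheta Q R ∣[(2 : ℤ)] γ) τ =
      -(1 / ((δ : ℂ) ^ 2 * sqrtDet Q R)) *
        (Q.cuspSeries (γ 0 0) δ ((τ : ℂ) + (γ 1 1 : ℂ) / δ) *
          R.cuspSeries (γ 0 0) δ ((τ : ℂ) + (γ 1 1 : ℂ) / δ)) := by
  have hδ0 : (δ : ℂ) ≠ 0 := Nat.cast_ne_zero.mpr (NeZero.ne δ)
  let w : ℍ := ⟨(τ : ℂ) + (γ 1 1 : ℂ) / δ, by
    have : ((γ 1 1 : ℂ) / δ).im = 0 := by simp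
    rw [Complex.add_im, this, add_zero]
    exact τ.im_pos⟩
  have hdet : (γ 0 0 : ℂ) * γ 1 1 - γ 0 1 * (δ : ℂ) = 1 := by
    have h := γ.2
    rw [Matrix.det_fin_two, hδ] at h
    exact_mod_cast h
  have hden : UpperHalfPlane.denom (γ : GL (Fin 2) ℝ) τ = (δ : ℂ) * (w : ℂ) := by
    simp [UpperHalfPlane.denom, hδ, w]
    field_simp
  have hw : (w : ℂ) ≠ 0 := w.ne_zero
  have hsmul : ((γ • τ : ℍ) : ℂ) = (γ 0 0 : ℂ) / δ - 1 / ((δ : ℂ) ^ 2 * (w : ℂ)) := by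
    rw [UpperHalfPlane.coe_specialLinearGroup_apply]
    simp only [algebraMap_int_eq, eq_intCast, Complex.ofReal_intCast, hδ]
    push_cast
    have e : (δ : ℂ) * (τ : ℂ) + (γ 1 1 : ℂ) = (δ : ℂ) * (w : ℂ) := by
      simp only [w]
      field_simp
    rw [e]
    field_simp
    simp only [w]
    field_simp
    linear_combination -hdet
  rw [ModularForm.SL_slash_apply, hden, pairTheta, hsmul, Q.theta_transform, R.theta_transform,
    sqrtDet]
  have h1 : ((Real.sqrt Q.det : ℝ) : ℂ) ≠ 0 := by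
    exact_mod_cast (Real.sqrt_pos.mpr (by exact_mod_cast Q.det_pos : (0 : ℝ) < Q.det)).ne'
  have h2 : ((Real.sqrt R.det : ℝ) : ℂ) ≠ 0 := by
    exact_mod_cast (Real.sqrt_pos.mpr (by exact_mod_cast R.det_pos : (0 : ℝ) < R.det)).ne'
  rw [zpow_neg, zpow_ofNat]
  push_cast
  set W := (w : ℂ) with hW
  have hW' : (τ : ℂ) + (γ 1 1 : ℂ) / δ = W := rfl
  rw [hW']
  set X := Q.cuspSeries (γ 0 0) δ W
  set Y := R.cuspSeries (γ 0 0) δ W
  field_simp
  linear_combination (X * Y) * Complex.I_sq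

/-- Completing the square modulo `δ`. -/
theorem gauss_complete (α : ℤ) (δ : ℕ) [NeZero δ] (s : ZMod δ)
    (hs : s * (α : ZMod δ) * (Q.det : ZMod δ) = 1) (y : ℤ × ℤ) :
    Q.gauss α δ y = ZMod.stdAddChar (-(s * Q.dval (y.1 : ZMod δ) (y.2 : ZMod δ))) *
      Q.gauss α δ 0 := by
  rw [gauss, gauss, Finset.mul_sum,
    ← Equiv.sum_comp (Equiv.addRight
      ((-(s * (2 * (Q.C : ZMod δ) * y.1 - (Q.B : ZMod δ) * y.2)),
        -(s * (-(Q.B : ZMod δ) * y.1 + 2 * (Q.A : ZMod δ) * y.2))) : ZMod δ × ZMod δ))]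
  refine Finset.sum_congr rfl fun h _ => ?_
  rw [← AddChar.map_add_eq_mul]
  congr 1
  simp only [det] at hs
  push_cast at hs
  simp only [Equiv.coe_addRight, Prod.fst_add, Prod.snd_add, val, dval, Prod.fst_zero,
    Prod.snd_zero, Int.cast_zero, zero_mul, add_zero]
  linear_combination (s * ((Q.C : ZMod δ) * (y.1 : ZMod δ) ^ 2 -
    (Q.B : ZMod δ) * ((y.1 : ZMod δ) * y.2) + (Q.A : ZMod δ) * (y.2 : ZMod δ) ^ 2) -
    ((y.1 : ZMod δ) * h.1 + (y.2 : ZMod δ) * h.2)) * hs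

theorem gauss_one (α : ℤ) (y : ℤ × ℤ) : Q.gauss α 1 y = 1 := by
  have h0 : ∀ z : ZMod 1, ZMod.stdAddChar z = (1 : ℂ) := fun z => by
    rw [Subsingleton.elim z 0, AddChar.map_zero_eq_one]
  simp [gauss, h0]

theorem pairTheta_slash_S (τ : ℍ) :
    (pairTheta Q R ∣[(2 : ℤ)] S) τ =
      -(1 / sqrtDet Q R) * (Q.thetaStar (τ : ℂ) * R.thetaStar (τ : ℂ)) := by
  rw [pairTheta_slash S 1 (by simp [ModularGroup.coe_S]) τ]
  simp [cuspSeries, thetaStar, gauss_one, ModularGroup.coe_S]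

/-- The Gauss sum modulo an odd prime not dividing the first coefficient or the determinant. -/
theorem gauss_prime {d : ℕ} [Fact d.Prime] (hd : d ≠ 2) (α : ℤ) (hα : (α : ZMod d) ≠ 0)
    (hA : (Q.A : ZMod d) ≠ 0) (hdet : (Q.det : ZMod d) ≠ 0) :
    Q.gauss α d 0 = (quadraticChar (ZMod d) (-(Q.det : ZMod d)) : ℂ) * d := by
  have hchar : ringChar (ZMod d) ≠ 2 := by rwa [ZMod.ringChar_zmod_n]
  have h2 : (2 : ZMod d) ≠ 0 := Ring.two_ne_zero hchar
  have h4 : (4 : ZMod d) ≠ 0 := by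
    rw [show (4 : ZMod d) = 2 * 2 by norm_num]; exact mul_ne_zero h2 h2
  set u := (α : ZMod d) * (Q.A : ZMod d) with hu
  set v := (α : ZMod d) * (Q.det : ZMod d) / (4 * (Q.A : ZMod d)) with hv
  have hu0 : u ≠ 0 := mul_ne_zero hα hA
  have hv0 : v ≠ 0 := div_ne_zero (mul_ne_zero hα hdet) (mul_ne_zero h4 hA)
  have key : ∀ h : ZMod d × ZMod d, (α : ZMod d) * Q.val h.1 h.2 +
      (((0 : ℤ × ℤ).1 : ZMod d) * h.1 + ((0 : ℤ × ℤ).2 : ZMod d) * h.2) =
      u * (h.1 + (Q.B : ZMod d) * h.2 / (2 * (Q.A : ZMod d))) ^ 2 + v * h.2 ^ 2 := by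
    intro h
    rw [hu, hv]
    simp only [val, det, Prod.fst_zero, Prod.snd_zero, Int.cast_zero, zero_mul, add_zero]
    push_cast
    field_simp
    ring
  have hbij : Function.Bijective (fun h : ZMod d × ZMod d =>
      (h.1 + (Q.B : ZMod d) * h.2 / (2 * (Q.A : ZMod d)), h.2)) := by
    refine Finite.injective_iff_bijective.mp fun x y h => ?_
    simp only [Prod.mk.injEq] at h
    refine Prod.ext ?_ h.2
    have h1 := h.1
    rw [h.2] at h1
    exact add_right_cancel h1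
  rw [gauss, Fintype.sum_congr _ _ fun h => congrArg ZMod.stdAddChar (key h),
    Fintype.sum_bijective _ hbij _
      (fun z : ZMod d × ZMod d => ZMod.stdAddChar (u * z.1 ^ 2 + v * z.2 ^ 2)) fun h => rfl,
    Fintype.sum_prod_type]
  simp only [AddChar.map_add_eq_mul, ← Finset.mul_sum, ← Finset.sum_mul]
  rw [Fermat.Agent.Eisenstein.QuatDatum.quadratic_gauss_sum hd u hu0,
    Fermat.Agent.Eisenstein.QuatDatum.quadratic_gauss_sum hd v hv0]
  set χ := (quadraticChar (ZMod d)).ringHomComp (Int.castRingHom ℂ) with hχ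
  have hg : gaussSum χ ZMod.stdAddChar ^ 2 = χ (-1) * (d : ℂ) := by
    rw [gaussSum_sq ?_ ((quadraticChar_isQuadratic (ZMod d)).comp _)
      (ZMod.isPrimitive_stdAddChar d), ZMod.card]
    exact (MulChar.ringHomComp_ne_one_iff Int.cast_injective).mpr (quadraticChar_ne_one hchar)
  have huv : quadraticChar (ZMod d) u * quadraticChar (ZMod d) v =
      quadraticChar (ZMod d) (Q.det : ZMod d) := by
    rw [← map_mul, show u * v = (Q.det : ZMod d) * ((α : ZMod d) / 2) ^ 2 by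
      rw [hu, hv]; field_simp; ring, map_mul, map_pow,
      quadraticChar_sq_one (div_ne_zero hα h2), mul_one]
  have hneg : quadraticChar (ZMod d) (-(Q.det : ZMod d)) = quadraticChar (ZMod d) (-1) *
      (quadraticChar (ZMod d) u * quadraticChar (ZMod d) v) := by
    rw [huv, ← map_mul, neg_one_mul]
  rw [hneg, Int.cast_mul, Int.cast_mul]
  have hχ1 : χ (-1) = (quadraticChar (ZMod d) (-1) : ℂ) := by simp [hχ]
  rw [hχ1] at hg
  linear_combination (quadraticChar (ZMod d) u : ℂ) * (quadraticChar (ZMod d) v : ℂ) * hg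

theorem cuspSeries_complete (hL : Q.LevelDvd N) {d : ℕ} [Fact d.Prime] (hdet : (Q.det : ZMod d) ≠ 0)
    (b c : ℤ) (hbc : ((-(c * b * (N : ℤ)) : ℤ) : ZMod d) = 1) (τ : ℂ) :
    Q.cuspSeries b d (τ + (-((N : ℤ) * c) : ℤ) / (d : ℂ)) = Q.gauss b d 0 * Q.thetaStar τ := by
  have hM : (Q.det : ℂ) ≠ 0 := by exact_mod_cast Q.det_pos.ne'
  have hb : ((b : ℤ) : ZMod d) ≠ 0 := fun h => by
    push_cast at hbc
    rw [h] at hbc
    simp at hbc
  rw [cuspSeries, thetaStar, ← tsum_mul_left]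
  refine tsum_congr fun y => ?_
  obtain ⟨f, hf⟩ := hL.dvd_dval y.1 y.2
  have hs : ((b : ZMod d) * (Q.det : ZMod d))⁻¹ * (b : ZMod d) * (Q.det : ZMod d) = 1 := by
    rw [mul_assoc, inv_mul_cancel₀ (mul_ne_zero hb hdet)]
  rw [gauss_complete b d _ hs y, mul_comm _ (Q.gauss b d 0), mul_assoc]
  congr 1
  have hphase : -(((b : ZMod d) * (Q.det : ZMod d))⁻¹ * Q.dval (y.1 : ZMod d) (y.2 : ZMod d)) =
      ((c * f : ℤ) : ZMod d) := by
    have hf' := congrArg (Int.cast : ℤ → ZMod d) hf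
    simp only [dval, Int.cast_id] at hf'
    push_cast at hf' hbc ⊢
    field_simp
    simp only [dval]
    linear_combination (c : ZMod d) * (b : ZMod d) * hf' +
      ((Q.C : ZMod d) * (y.1 : ZMod d) ^ 2 - (Q.B : ZMod d) * ((y.1 : ZMod d) * y.2) +
        (Q.A : ZMod d) * (y.2 : ZMod d) ^ 2) * hbc
  rw [hphase, ← ex_intCast_div, ← ex_add]
  congr 1
  have hf' := congrArg (Int.cast : ℤ → ℂ) hf
  simp only [dval, Int.cast_id] at hf'
  push_cast at hf'
  simp only [dval]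
  push_cast
  have hd0 : (d : ℂ) ≠ 0 := Nat.cast_ne_zero.mpr (Fact.out : d.Prime).ne_zero
  field_simp
  linear_combination -(c : ℂ) * hf'

/-- Invariance for a matrix whose lower right entry is a large prime. -/
theorem pairTheta_slash_of_prime (hQ : Q.LevelDvd N) (hR : R.LevelDvd N)
    (hsq : IsSquare (Q.det * R.det)) (γ : SL(2, ℤ)) (c : ℤ)
    (hc : γ 1 0 = (N : ℤ) * c) {d : ℕ} [Fact d.Prime] (hd : γ 1 1 = d) (hd2 : d ≠ 2)
    (hdQ : Q.A.natAbs < d) (hdR : R.A.natAbs < d) (hdQ' : Q.det.natAbs < d)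
    (hdR' : R.det.natAbs < d) :
    pairTheta Q R ∣[(2 : ℤ)] γ = pairTheta Q R := by
  have : NeZero d := ⟨(Fact.out : d.Prime).ne_zero⟩
  have hdet := γ.2
  rw [Matrix.det_fin_two, hc, hd] at hdet
  have h10 : (γ * S) 1 0 = (d : ℤ) := by
    rw [Matrix.SpecialLinearGroup.coe_mul, ModularGroup.coe_S, Matrix.mul_apply, Fin.sum_univ_two]
    simp [hd]
  have h00 : (γ * S) 0 0 = γ 0 1 := by
    rw [Matrix.SpecialLinearGroup.coe_mul, ModularGroup.coe_S, Matrix.mul_apply, Fin.sum_univ_two]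
    simp
  have h11 : (γ * S) 1 1 = -((N : ℤ) * c) := by
    rw [Matrix.SpecialLinearGroup.coe_mul, ModularGroup.coe_S, Matrix.mul_apply, Fin.sum_univ_two]
    simp [hc]
  have hbc : ((-(c * γ 0 1 * (N : ℤ)) : ℤ) : ZMod d) = 1 := by
    rw [show -(c * γ 0 1 * (N : ℤ)) = 1 - γ 0 0 * d by linarith]
    push_cast
    rw [ZMod.natCast_self, mul_zero, sub_zero]
  have hb : ((γ 0 1 : ℤ) : ZMod d) ≠ 0 := fun h => by
    push_cast at hbc
    rw [h] at hbc
    simp at hbc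
  have hA : ∀ {z : ℤ}, 0 < z → z.natAbs < d → (z : ZMod d) ≠ 0 := fun {z} hz hzd h => by
    rw [ZMod.intCast_zmod_eq_zero_iff_dvd] at h
    have := Nat.le_of_dvd (Int.natAbs_pos.mpr hz.ne') (Int.natCast_dvd.mp h)
    omega
  have hQd := hA Q.det_pos hdQ'
  have hRd := hA R.det_pos hdR'
  have hGQ := gauss_prime (Q := Q) hd2 (γ 0 1) hb (hA Q.A_pos hdQ) hQd
  have hGR := gauss_prime (Q := R) hd2 (γ 0 1) hb (hA R.A_pos hdR) hRd
  have hχ : (quadraticChar (ZMod d) (-(Q.det : ZMod d)) : ℂ) *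
      (quadraticChar (ZMod d) (-(R.det : ZMod d)) : ℂ) = 1 := by
    rw [← Int.cast_mul, ← map_mul, neg_mul_neg]
    obtain ⟨s, hs⟩ := hsq
    have hs' : (Q.det : ZMod d) * (R.det : ZMod d) = (s : ZMod d) ^ 2 := by
      rw [← Int.cast_mul, hs, Int.cast_mul, pow_two]
    have hs0 : (s : ZMod d) ≠ 0 := fun h => mul_ne_zero hQd hRd (by rw [hs', h]; ring)
    rw [hs', map_pow, quadraticChar_sq_one hs0, Int.cast_one]
  have key : pairTheta Q R ∣[(2 : ℤ)] (γ * S) = pairTheta Q R ∣[(2 : ℤ)] S := by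
    funext τ
    rw [pairTheta_slash (γ * S) d h10 τ, h00, h11,
      cuspSeries_complete hQ hQd (γ 0 1) c hbc, cuspSeries_complete hR hRd (γ 0 1) c hbc,
      pairTheta_slash_S τ, hGQ, hGR]
    have hd0 : (d : ℂ) ≠ 0 := Nat.cast_ne_zero.mpr (Fact.out : d.Prime).ne_zero
    have := sqrtDet_ne_zero Q R
    field_simp
    linear_combination (-(Q.thetaStar (τ : ℂ) * R.thetaStar (τ : ℂ))) * hχ
  have h := congrArg (· ∣[(2 : ℤ)] (S⁻¹ : SL(2, ℤ))) key
  simpa [← SlashAction.slash_mul] using h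

theorem pairTheta_slash_neg (γ : SL(2, ℤ)) :
    pairTheta Q R ∣[(2 : ℤ)] (-γ) = pairTheta Q R ∣[(2 : ℤ)] γ := by
  funext τ
  rw [ModularForm.SL_slash_apply, ModularForm.SL_slash_apply]
  have h1 : (-γ) • τ = γ • τ := by
    ext
    simp only [UpperHalfPlane.coe_specialLinearGroup_apply]
    conv_rhs => rw [← neg_div_neg_eq]
    simp
    ring
  have h2 : UpperHalfPlane.denom ((-γ : SL(2, ℤ)) : GL (Fin 2) ℝ) τ =
      -UpperHalfPlane.denom (γ : GL (Fin 2) ℝ) τ := by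
    simp [UpperHalfPlane.denom]
    ring
  rw [h1, h2]
  simp

/-- Invariance under `Γ₀(N)`. -/
theorem pairTheta_slash_Gamma0 (hQ : Q.LevelDvd N) (hR : R.LevelDvd N)
    (hsq : IsSquare (Q.det * R.det)) (γ : SL(2, ℤ)) (hγ : γ ∈ Gamma0 N) :
    pairTheta Q R ∣[(2 : ℤ)] γ = pairTheta Q R := by
  rcases eq_or_ne (γ 1 0) 0 with h0 | h0
  · have hdet := γ.2
    rw [Matrix.det_fin_two, h0, mul_zero, sub_zero] at hdet
    rcases Int.eq_one_or_neg_one_of_mul_eq_one' hdet with ⟨h1, h2⟩ | ⟨h1, h2⟩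
    · have : γ = T ^ γ 0 1 := by
        apply Subtype.ext
        rw [ModularGroup.coe_T_zpow]
        ext i j
        fin_cases i <;> fin_cases j <;> simp [h0, h1, h2]
      rw [this, pairTheta_slash_T_zpow]
    · have : γ = -(T ^ (-γ 0 1) : SL(2, ℤ)) := by
        apply Subtype.ext
        rw [Matrix.SpecialLinearGroup.coe_neg, ModularGroup.coe_T_zpow]
        ext i j
        fin_cases i <;> fin_cases j <;> simp [h0, h1, h2]
      rw [this, pairTheta_slash_neg, pairTheta_slash_T_zpow]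
  · obtain ⟨c, hc⟩ : (N : ℤ) ∣ γ 1 0 := by
      rw [← ZMod.intCast_zmod_eq_zero_iff_dvd]
      exact Gamma0_mem.mp hγ
    have hcop : IsCoprime (γ 1 1) ((γ 1 0).natAbs : ℤ) := by
      have hdet := γ.2
      rw [Matrix.det_fin_two] at hdet
      have h : IsCoprime (γ 1 1) (γ 1 0) := ⟨γ 0 0, -γ 0 1, by linarith⟩
      rcases Int.natAbs_eq (γ 1 0) with he | he
      · rwa [he] at h
      · rw [he] at h
        simpa using h.neg_right
    obtain ⟨d, hdgt, hdp, hdmod⟩ := Nat.forall_exists_prime_gt_and_zmodEq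
      (2 + Q.det.natAbs + R.det.natAbs + Q.A.natAbs + R.A.natAbs) (Int.natAbs_ne_zero.mpr h0) hcop
    obtain ⟨k, hk⟩ : γ 1 0 ∣ (d : ℤ) - γ 1 1 :=
      Int.natAbs_dvd.mp (Int.modEq_iff_dvd.mp hdmod.symm)
    have : Fact d.Prime := ⟨hdp⟩
    have h10 : (γ * (T ^ k : SL(2, ℤ))) 1 0 = (N : ℤ) * c := by
      rw [Matrix.SpecialLinearGroup.coe_mul, ModularGroup.coe_T_zpow, Matrix.mul_apply,
        Fin.sum_univ_two]
      simp [hc]
    have h11 : (γ * (T ^ k : SL(2, ℤ))) 1 1 = (d : ℤ) := by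
      rw [Matrix.SpecialLinearGroup.coe_mul, ModularGroup.coe_T_zpow, Matrix.mul_apply,
        Fin.sum_univ_two]
      simp
      linarith
    have h := pairTheta_slash_of_prime hQ hR hsq _ c h10 h11 (by omega) (by omega) (by omega)
      (by omega) (by omega)
    have h' := congrArg (· ∣[(2 : ℤ)] (T ^ (-k) : SL(2, ℤ))) h
    simp only [← SlashAction.slash_mul, pairTheta_slash_T_zpow] at h'
    rwa [zpow_neg, mul_inv_cancel_right] at h'

theorem tendsto_cuspSeries (α : ℤ) (δ : ℕ) [NeZero δ] (s : ℝ) :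
    Tendsto (fun τ : ℍ => Q.cuspSeries α δ ((τ : ℂ) + s)) atImInfty (nhds (Q.gauss α δ 0)) := by
  have hM : (0 : ℝ) < Q.det := by exact_mod_cast Q.det_pos
  have hlim : ∑' y : ℤ × ℤ, (if y = 0 then Q.gauss α δ 0 else 0) = Q.gauss α δ 0 := tsum_ite_eq 0 _
  rw [← hlim]
  unfold cuspSeries
  refine tendsto_tsum_of_dominated_convergence
    (bound := fun y : ℤ × ℤ => (δ : ℝ) * δ *
      ‖ex ((Complex.I : ℂ) * Q.dval (y.1 : ℂ) (y.2 : ℂ) / (Q.det : ℂ))‖) ?_ (fun y => ?_) ?_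
  · exact (Q.summable_star ⟨Complex.I, by simp⟩).mul_left _
  · have hval : Q.dval (y.1 : ℂ) (y.2 : ℂ) = ((Q.dval y.1 y.2 : ℤ) : ℂ) := by simp [dval]
    split_ifs with hy
    · subst hy
      simp [dval, ex]
    · have hpos : (0 : ℝ) < ((Q.dval y.1 y.2 : ℤ) : ℝ) := by
        have h0 : Q.dval y.1 y.2 ≠ 0 := fun h =>
          hy (Prod.ext ((Q.dval_eq_zero_iff _ _).mp h).1 ((Q.dval_eq_zero_iff _ _).mp h).2)
        have h1 := Q.dval_lower (y.1 : ℝ) (y.2 : ℝ)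
        have h2 : (0 : ℝ) ≤ ((Q.dval y.1 y.2 : ℤ) : ℝ) := by
          refine le_trans ?_ (le_of_le_of_eq h1 (by simp [dval]))
          have := Q.low_pos
          positivity
        exact lt_of_le_of_ne h2 (by exact_mod_cast h0.symm)
      rw [tendsto_zero_iff_norm_tendsto_zero]
      have hlim0 : Tendsto (fun τ : ℍ => (δ : ℝ) * δ *
          Real.exp (-(2 * π * (τ.im * ((Q.dval y.1 y.2 : ℤ) : ℝ) / Q.det))))
          atImInfty (nhds 0) := by
        rw [show (0 : ℝ) = (δ : ℝ) * δ * 0 by ring]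
        refine Tendsto.const_mul _ (Real.tendsto_exp_atBot.comp (tendsto_neg_atTop_atBot.comp ?_))
        refine Tendsto.const_mul_atTop Real.two_pi_pos (Tendsto.atTop_div_const hM ?_)
        exact Tendsto.atTop_mul_const hpos Filter.tendsto_comap
      refine squeeze_zero (fun _ => norm_nonneg _) (fun τ => ?_) hlim0
      rw [norm_mul, norm_ex, hval]
      refine mul_le_mul (Q.norm_gauss_le α δ y) (le_of_eq ?_) (Real.exp_pos _).le (by positivity)
      congr 3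
      rw [show ((Q.det : ℤ) : ℂ) = ((Q.det : ℝ) : ℂ) by simp,
        show ((Q.dval y.1 y.2 : ℤ) : ℂ) = (((Q.dval y.1 y.2 : ℤ) : ℝ) : ℂ) by simp]
      simp
  · have h1 : ∀ᶠ τ : ℍ in atImInfty, 1 ≤ τ.im :=
      (atImInfty_mem _).mpr ⟨1, fun z hz => hz⟩
    filter_upwards [h1] with τ hτ
    intro y
    rw [norm_mul, norm_ex, norm_ex]
    refine mul_le_mul (Q.norm_gauss_le α δ y) (Real.exp_le_exp.mpr ?_) (Real.exp_pos _).le
      (by positivity)
    have hval : Q.dval (y.1 : ℂ) (y.2 : ℂ) = ((Q.dval (y.1 : ℝ) (y.2 : ℝ) : ℝ) : ℂ) := by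
      simp [dval]
    have hdv : 0 ≤ Q.dval (y.1 : ℝ) (y.2 : ℝ) :=
      le_trans (by have := Q.low_pos; positivity) (Q.dval_lower _ _)
    rw [hval, show ((Q.det : ℤ) : ℂ) = ((Q.det : ℝ) : ℂ) by simp]
    simp
    gcongr
    exact le_mul_of_one_le_left hdv hτ

/-- The value at the cusp `γ ∞`, `δ = γ 1 0 > 0`. -/
theorem tendsto_pairTheta_slash (γ : SL(2, ℤ)) (δ : ℕ)
    [NeZero δ] (hδ : γ 1 0 = δ) :
    Tendsto (pairTheta Q R ∣[(2 : ℤ)] γ) atImInfty
      (nhds (-(1 / ((δ : ℂ) ^ 2 * sqrtDet Q R)) *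
        (Q.gauss (γ 0 0) δ 0 * R.gauss (γ 0 0) δ 0))) := by
  have h : ((γ 1 1 : ℂ) / δ) = ((((γ 1 1 : ℤ) : ℝ) / δ : ℝ) : ℂ) := by push_cast; rfl
  rw [funext (pairTheta_slash γ δ hδ)]
  simp only [h]
  exact ((tendsto_cuspSeries _ _ _).mul (tendsto_cuspSeries _ _ _)).const_mul _

end BForm

end Fermat.Agent.Dihedral.Theta
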