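import Fermat.Agent.Dihedral.ThetaWitness
import Fermat.Agent.Dihedral.ThetaGroupAlg

/-!
# The mod 2 theta character of the Hecke algebra

The characters of `ThetaChar` for the group algebra of `G × (ℤ/2)^Q`, where `G` is a
`2`-group quotient of the class group, twisted by a cubic class group character: their values
and the fact that they span the group algebra.

Main result: `exists_thetaRep`.
-/

set_option autoImplicit false

noncomputable section

open NumberField Module CongruenceSubgroup CuspForm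
open scoped nonZeroDivisors

namespace Fermat.Agent.Dihedral.Theta

/-- The character `z ↦ ω ^ z` of the group of order three. -/
def cubeVal {R : Type*} [CommRing R] (ω : R) (hω : ω ^ 2 + ω + 1 = 0) :
    Multiplicative (ZMod 3) →* R where
  toFun z := ω ^ (Multiplicative.toAdd z).val
  map_one' := by simp
  map_mul' a b := by
    have h3 : ω ^ 3 = 1 := by linear_combination (ω - 1) * hω
    have key : ∀ i : ℕ, ω ^ i = ω ^ (i % 3) := fun i => by
      conv_lhs => rw [← Nat.div_add_mod i 3, pow_add, pow_mul, h3, one_pow, one_mul]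
    rw [toAdd_mul, ZMod.val_add, ← pow_add]
    exact (key _).symm

theorem cubeVal_add_inv {R : Type*} [CommRing R] (ω : R) (hω : ω ^ 2 + ω + 1 = 0)
    (h2 : (2 : R) = 0) {z : Multiplicative (ZMod 3)} (hz : z ≠ 1) :
    cubeVal ω hω z + cubeVal ω hω z⁻¹ = 1 := by
  obtain ⟨a, rfl⟩ := Multiplicative.ofAdd.surjective z
  fin_cases a
  · exact absurd rfl hz
  · change ω ^ 1 + ω ^ 2 = 1
    linear_combination hω - h2
  · change ω ^ 2 + ω ^ 1 = 1
    linear_combination hω - h2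

theorem cubeVal_ne_one {R : Type*} [CommRing R] [IsDomain R] (ω : R) (hω : ω ^ 2 + ω + 1 = 0)
    (h3 : (3 : R) ≠ 0) {z : Multiplicative (ZMod 3)} (hz : z ≠ 1) : cubeVal ω hω z ≠ 1 := by
  obtain ⟨a, rfl⟩ := Multiplicative.ofAdd.surjective z
  have h1 : ω ≠ 1 := fun h => h3 (by rw [h] at hω; linear_combination hω)
  fin_cases a
  · exact absurd rfl hz
  · change ω ^ 1 ≠ 1
    rwa [pow_one]
  · change ω ^ 2 ≠ 1
    intro h
    refine h1 ?_
    linear_combination (-1 : R) * h * ω + (ω - 1) * hω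

variable {K : Type*} [Field K] [NumberField K] {k : Type*} [Field k] [CharP k 2]
  {G : Type*} [CommGroup G] [Fintype G]

/-- `C ↦ X(C) [u C]` in the group algebra of `G × E`. -/
def twistChar (E : Type*) [CommGroup E] (ω : k) (hω : ω ^ 2 + ω + 1 = 0)
    (u : ClassGroup (𝓞 K) →* G) (X : ClassGroup (𝓞 K) →* Multiplicative (ZMod 3)) :
    ClassGroup (𝓞 K) →* MonoidAlgebra k (G × E) :=
  (algebraMap k (MonoidAlgebra k (G × E))).toMonoidHom.comp ((cubeVal ω hω).comp X) *
    (MonoidAlgebra.of k (G × E)).comp ((MonoidHom.inl G E).comp u)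

omit [NumberField K] [CharP k 2] [Fintype G] in
theorem twistChar_apply (E : Type*) [CommGroup E] (ω : k) (hω : ω ^ 2 + ω + 1 = 0)
    (u : ClassGroup (𝓞 K) →* G) (X : ClassGroup (𝓞 K) →* Multiplicative (ZMod 3))
    (C : ClassGroup (𝓞 K)) :
    twistChar E ω hω u X C = cubeVal ω hω (X C) • MonoidAlgebra.of k (G × E) (u C, 1) := by
  rw [Algebra.smul_def]
  rfl

/-- The generator attached to an element of `Q`. -/
def qElt (G : Type*) [CommGroup G] (Q : Finset ℕ) (q : ℕ) :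
    G × (↥Q → Multiplicative (ZMod 2)) :=
  (1, fun i => if i.1 = q then Multiplicative.ofAdd 1 else 1)

omit [CharP k 2] [Fintype G] in
theorem classVal_coe (ξ : ClassGroup (𝓞 K) →* MonoidAlgebra k G) (P : (Ideal (𝓞 K))⁰) :
    classVal ξ P.1 = ξ (ClassGroup.mk0 P) := by
  rw [classVal, dif_neg (show P.1 ≠ ⊥ from nonZeroDivisors.coe_ne_zero P)]

/-- A Hecke stable space `V` of weight two forms of level `2m ∏ Q` with `U_p² = 1` for `p ≠ p₀`,
and a character `φ` of the Hecke algebra away from `p₀`, factoring through its action on `V`, with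
values in `k[G × (ℤ/2)^Q]`: the sum of the twisted class group character at `P` and `P⁻¹` on
`T_{N P}`, zero on inert `T_l`, the generators on `U_q` for `q ∈ Q`; its image spans. -/
theorem exists_thetaRep (hK : finrank ℚ K = 2) (m : ℕ) (hm : Odd m) (hsf : Squarefree m)
    (hD : discr K = -((8 * m : ℕ) : ℤ)) (Q : Finset ℕ) (hQ : ∀ q ∈ Q, q.Prime)
    (hQ2 : ∀ q ∈ Q, q ≠ 2) (hQi : ∀ q ∈ Q, ¬ IsSquare (-((8 * m : ℕ) : ZMod q)))
    (p₀ : ℕ) (hp₀ : p₀.Prime) (hp₀m : p₀ ∣ m) [NeZero (2 * m * ∏ q ∈ Q, q)]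
    (ω : k) (hω : ω ^ 2 + ω + 1 = 0) (X : ClassGroup (𝓞 K) →* Multiplicative (ZMod 3))
    (hX : X ≠ 1) (n : ℕ) (hG : ∀ g : G, g ^ 2 ^ n = 1) (u : ClassGroup (𝓞 K) →* G)
    (hu : Function.Surjective u) :
    ∃ V : Submodule ℂ (CuspForm (Gamma0 (2 * m * ∏ q ∈ Q, q)) 2),
      (∀ t ∈ heckeAlgebra (2 * m * ∏ q ∈ Q, q) 2 ∅, ∀ f ∈ V, t f ∈ V) ∧
      (∀ p : ℕ, p.Prime → ∀ hpN : p ∣ 2 * m * ∏ q ∈ Q, q, p ≠ p₀ →
        ∀ f ∈ V, heckeULin 2 hpN (heckeULin 2 hpN f) = f) ∧
      ∃ φ : ↥(heckeAlgebra (2 * m * ∏ q ∈ Q, q) 2 ({p₀} : Set ℕ)) →+*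
          MonoidAlgebra k (G × (↥Q → Multiplicative (ZMod 2))),
        (∀ t : ↥(heckeAlgebra (2 * m * ∏ q ∈ Q, q) 2 ({p₀} : Set ℕ)),
          (∀ f ∈ V, (t : Module.End ℂ (CuspForm (Gamma0 (2 * m * ∏ q ∈ Q, q)) 2)) f = 0) →
            φ t = 0) ∧
        (∀ (l : ℕ) (hl : l.Prime) (hlN : ¬ l ∣ 2 * m * ∏ q ∈ Q, q) (hls : l ∉ ({p₀} : Set ℕ))
          (P : (Ideal (𝓞 K))⁰), Ideal.absNorm P.1 = l →
            φ (heckeAlgebra.T hl hlN hls) =
              twistChar (↥Q → Multiplicative (ZMod 2)) ω hω u X (ClassGroup.mk0 P) +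
                twistChar (↥Q → Multiplicative (ZMod 2)) ω hω u X (ClassGroup.mk0 P)⁻¹) ∧
        (∀ (l : ℕ) (hl : l.Prime) (hlN : ¬ l ∣ 2 * m * ∏ q ∈ Q, q) (hls : l ∉ ({p₀} : Set ℕ)),
          (∀ P : Ideal (𝓞 K), Ideal.absNorm P ≠ l) → φ (heckeAlgebra.T hl hlN hls) = 0) ∧
        (∀ (q : ℕ) (hq : q.Prime) (hqN : q ∣ 2 * m * ∏ q ∈ Q, q) (hqs : q ∉ ({p₀} : Set ℕ)),
          q ∈ Q → φ (heckeAlgebra.U hq hqN hqs) = MonoidAlgebra.of k _ (qElt G Q q)) ∧
        (∀ (p : ℕ) (hp : p.Prime) (hpN : p ∣ 2 * m * ∏ q ∈ Q, q) (hps : p ∉ ({p₀} : Set ℕ)),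
          p ∣ 2 * m → ∀ P : (Ideal (𝓞 K))⁰, Ideal.absNorm P.1 = p →
            φ (heckeAlgebra.U hp hpN hps) =
              twistChar (↥Q → Multiplicative (ZMod 2)) ω hω u X (ClassGroup.mk0 P)) ∧
        Submodule.span k (Set.range φ) = ⊤ := by
  classical
  obtain ⟨D, h1, h2, h3, hXT⟩ := exists_twist m hm hsf hK hD Q hQ hQ2 hQi p₀ hp₀ hp₀m X hX
  subst h1 h2 h3
  set E := ↥D.Q → Multiplicative (ZMod 2) with hE
  set ξ := twistChar E ω hω u X with hξ
  set v : ℕ → MonoidAlgebra k (G × E) := fun q => MonoidAlgebra.of k _ (qElt G D.Q q) with hv'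
  have hA : (2 : MonoidAlgebra k (G × E)) = 0 := by
    rw [← map_ofNat (algebraMap k (MonoidAlgebra k (G × E))) 2, (CharTwo.two_eq_zero : (2 : k) = 0),
      map_zero]
  have h3k : (3 : k) ≠ 0 := by
    rw [show (3 : k) = 2 + 1 by norm_num, (CharTwo.two_eq_zero : (2 : k) = 0), zero_add]
    exact one_ne_zero
  have hH : ∀ g : G × E, g ^ 2 ^ (n + 1) = 1 := fun g => by
    refine Prod.ext ?_ ?_
    · rw [Prod.pow_fst, pow_succ 2 n, pow_mul, hG, one_pow]
      rfl
    · rw [Prod.pow_snd, pow_succ' 2 n, pow_mul]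
      have h22 : ∀ z : Multiplicative (ZMod 2), z ^ 2 = 1 := by decide
      have : g.2 ^ 2 = 1 := funext fun i => h22 _
      rw [this, one_pow]
      rfl
  have hvv : ∀ q ∈ D.Q, v q * v q = 1 := fun q _ => by
    rw [hv', ← map_mul, ← map_one (MonoidAlgebra.of k (G × E))]
    congr 1
    refine Prod.ext (by simp [qElt]) (funext fun i => ?_)
    simp only [qElt, Prod.mk_mul_mk, Pi.mul_apply, Prod.snd_one]
    split_ifs
    all_goals rfl
  obtain ⟨c, hc⟩ : ∃ c, X c ≠ 1 := by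
    by_contra h
    push Not at h
    exact hX (MonoidHom.ext fun c => by rw [h c, MonoidHom.one_apply])
  have hpow3 : ∀ (z : Multiplicative (ZMod 3)) (j : ℕ), z ≠ 1 → z ^ 2 ^ j ≠ 1 := by
    intro z j hz
    induction j with
    | zero => simpa using hz
    | succ j ih =>
      rw [pow_succ, pow_mul]
      have : ∀ y : Multiplicative (ZMod 3), y ≠ 1 → y ^ 2 ≠ 1 := by decide
      exact this _ ih
  set s := c ^ 2 ^ n with hs
  have hus : u s = 1 := by rw [hs, map_pow, hG]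
  have hXs : X ((s ^ 2)⁻¹) ≠ 1 := by
    rw [map_inv, inv_ne_one, map_pow, hs, map_pow, ← pow_mul, ← pow_succ]
    exact hpow3 _ _ hc
  have hξs : ξ ((s ^ 2)⁻¹) = algebraMap k _ (cubeVal ω hω (X ((s ^ 2)⁻¹))) := by
    rw [hξ, twistChar_apply, map_inv u, map_pow u, hus, one_pow, inv_one, ← Prod.one_eq_mk, map_one,
      Algebra.algebraMap_eq_smul_one]
  set μ : MonoidAlgebra k (G × E) := algebraMap k _ (1 - cubeVal ω hω (X ((s ^ 2)⁻¹)))⁻¹
  have hμ : μ * (1 - ξ ((s ^ 2)⁻¹)) = 1 := by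
    rw [hξs, ← map_one (algebraMap k (MonoidAlgebra k (G × E))), ← map_sub, ← map_mul,
      inv_mul_cancel₀ (sub_ne_zero.mpr (Ne.symm (cubeVal_ne_one ω hω h3k hXs))), map_one]
  obtain ⟨w, hw⟩ : ∃ w, w * (1 + ξ (ClassGroup.mk0 D.twist) * Datum.weight v D.Q) = 1 := by
    set g₀ := u (ClassGroup.mk0 D.twist)
    set e : G × E := ∏ q ∈ D.Q, qElt G D.Q q
    have hW : Datum.weight v D.Q = MonoidAlgebra.of k _ e := (map_prod _ _ _).symm
    have : CharP (MonoidAlgebra k (G × E)) 2 :=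
      charP_of_injective_algebraMap
        (FaithfulSMul.algebraMap_injective k (MonoidAlgebra k (G × E))) 2
    set x := cubeVal ω hω (X (ClassGroup.mk0 D.twist))
    have hx : (1 + x ^ 2 ^ (n + 1)) ≠ 0 := by
      intro h
      rw [← map_pow] at h
      refine cubeVal_ne_one ω hω h3k (hpow3 _ (n + 1) hXT) ?_
      exact (CharTwo.add_eq_zero.mp h).symm
    have hunit : IsUnit (1 + ξ (ClassGroup.mk0 D.twist) * Datum.weight v D.Q) := by
      refine (isUnit_pow_iff (n := 2 ^ (n + 1)) (by positivity)).mp ?_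
      rw [add_pow_char_pow, one_pow, hξ, twistChar_apply, hW, smul_mul_assoc, ← map_mul, smul_pow,
        ← map_pow (MonoidAlgebra.of k (G × E)), hH, map_one, ← Algebra.algebraMap_eq_smul_one,
        ← map_one (algebraMap k (MonoidAlgebra k (G × E))), ← map_add]
      exact (isUnit_iff_ne_zero.mpr hx).map _
    exact ⟨(hunit.unit⁻¹ : (MonoidAlgebra k (G × E))ˣ), hunit.val_inv_mul⟩
  obtain ⟨φ, hT, hU, hkill⟩ := D.exists_thetaChar ξ v hA hvv s μ hμ w hw
  have hmono : heckeAlgebra D.level 2 ({D.p₀} : Set ℕ) ≤ heckeAlgebra D.level 2 ∅ :=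
    heckeAlgebra_mono (Set.empty_subset _)
  set ψ : ↥(heckeAlgebra D.level 2 ({D.p₀} : Set ℕ)) →+* MonoidAlgebra k (G × E) :=
    φ.comp (Subalgebra.inclusion hmono).toRingHom with hψ
  have hψT : ∀ (l : ℕ) (hl : l.Prime) (hlN : ¬ l ∣ D.level) (hls : l ∉ ({D.p₀} : Set ℕ)),
      ψ (heckeAlgebra.T hl hlN hls) = D.target ξ v l := fun l hl hlN hls => hT l hl hlN
  have hψU : ∀ (q : ℕ) (hq : q.Prime) (hqN : q ∣ D.level) (hqs : q ∉ ({D.p₀} : Set ℕ)),
      ψ (heckeAlgebra.U hq hqN hqs) = D.target ξ v q := fun q hq hqN hqs => hU q hq hqN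
  have hsplit : ∀ (l : ℕ), l.Prime → ¬ l ∣ D.level → ∀ P : (Ideal (𝓞 K))⁰,
      Ideal.absNorm P.1 = l →
        D.target ξ v l = ξ (ClassGroup.mk0 P) + ξ (ClassGroup.mk0 P)⁻¹ := by
    intro l hl hlN P hP
    rcases D.split_or_inert hl hlN with hno | -
    · exact absurd hP (hno _)
    obtain ⟨P', hPP', hP'⟩ := exists_cofactor D.finrank_eq hl hP
    have hne : P.1 ≠ P' := by
      intro he
      exact hlN (((D.dvd_discr_iff hl).mp
        (dvd_discr_of_sq_eq D.finrank_eq hl hP (by rw [← hPP', he]))).mul_right _)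
    have h1 := D.target_good_split ξ v hA hl hlN hP hPP' hne 1
    rw [if_neg (fun h => hl.ne_one (Nat.dvd_one.mp h)), add_zero, one_mul, D.target_one,
      mul_one] at h1
    rw [h1]
    have hP'0 : P' ≠ ⊥ := ne_bot_of_absNorm hl.ne_zero hP'
    rw [classVal, dif_neg (show P.1 ≠ ⊥ from nonZeroDivisors.coe_ne_zero P), classVal, dif_neg hP'0]
    congr 2
    rw [eq_inv_iff_mul_eq_one, mul_comm, ← map_mul, ClassGroup.mk0_eq_one_iff]
    exact ⟨(l : 𝓞 K), hPP'⟩
  have hqval : ∀ q ∈ D.Q, D.target ξ v q = v q := fun q hq => by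
    have h1 := D.target_inert ξ v hvv hq 1
    rwa [one_mul, D.target_one, mul_one] at h1
  refine ⟨D.fixedSpace, ?_, fun p hp hpN hp0 f hf => D.mem_fixedSpace.mp hf p hp hpN hp0, ψ,
    fun t ht => hkill _ fun f hf => ht f hf, fun l hl hlN hls P hP => ?_,
    fun l hl hlN hls hno => ?_, fun q hq hqN hqs hqQ => ?_, fun p hp hpN hps hpm P hP => ?_, ?_⟩
  · intro t ht f hf
    refine D.mem_fixedSpace.mpr fun p hp hpN hp0 => ?_
    have hc : ∀ g, t (heckeULin 2 hpN g) = heckeULin 2 hpN (t g) := fun g => by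
      have h := mul_comm (⟨t, ht⟩ : ↥(heckeAlgebra D.level 2 ∅))
        (heckeAlgebra.U hp hpN (Set.notMem_empty p))
      exact DFunLike.congr_fun (congrArg Subtype.val h) g
    exact ((congrArg _ (hc f).symm).trans (hc _).symm).trans
      (congrArg t (D.mem_fixedSpace.mp hf p hp hpN hp0))
  · exact (hψT l hl hlN hls).trans (hsplit l hl hlN P hP)
  · refine (hψT l hl hlN hls).trans ?_
    have h1 := D.target_good_inert ξ v hA hl hlN hno 1
    rwa [if_neg (fun h => hl.ne_one (Nat.dvd_one.mp h)), add_zero, one_mul] at h1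
  · exact (hψU q hq hqN hqs).trans (hqval q hqQ)
  · refine (hψU p hp hpN hps).trans ?_
    obtain ⟨P₁, hP₁, hPP⟩ := exists_sq_eq_of_dvd_discr D.finrank_eq hp
      ((D.dvd_discr_iff hp).mpr hpm)
    have hPeq : P.1 = P₁ := by
      have hmem : (p : 𝓞 K) ∈ P.1 := hP ▸ Ideal.absNorm_mem P.1
      rcases eq_or_eq_of_mem D.finrank_eq hp hP₁ hPP
          (isMaximal_of_absNorm hp hP) hmem with h | h <;>
        exact h
    subst hPeq
    have h1 := D.target_ramified ξ v hp hpm hP hPP 1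
    rw [one_mul, D.target_one, mul_one] at h1
    rw [h1, classVal_coe]
  · set B := Algebra.adjoin k (Set.range ψ) with hB
    have hspan : Subalgebra.toSubmodule B = Submodule.span k (Set.range ψ) := by
      rw [hB, Algebra.adjoin_eq_span,
        show Set.range ψ = (MonoidHom.mrange (ψ : ↥(heckeAlgebra D.level 2 ({D.p₀} : Set ℕ)) →*
          MonoidAlgebra k (G × E)) : Set (MonoidAlgebra k (G × E))) from rfl,
        Submonoid.closure_eq]
    refine hspan.symm.trans ?_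
    suffices h : B = ⊤ by rw [h, Algebra.top_toSubmodule]
    refine eq_top_of_genGroup (n + 1) hH B ?_
    by_contra hne
    obtain ⟨η, hη2, hη1, hηne⟩ := exists_quadratic (genGroup B) (sq_mem_genGroup B) hne
    have hQmem : ∀ q ∈ D.Q, qElt G D.Q q ∈ genGroup B := by
      intro q hq
      have hqs : q ∉ ({D.p₀} : Set ℕ) := fun h => by
        rw [Set.mem_singleton_iff] at h
        subst h
        exact D.not_dvd_m hq hp₀m
      refine ⟨MonoidAlgebra.of k _ (qElt G D.Q q) - 1, B.sub_mem ?_ B.one_mem, ?_⟩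
      · refine Algebra.subset_adjoin ⟨heckeAlgebra.U (D.prime q hq)
          ((Finset.dvd_prod_of_mem _ hq).mul_left _) hqs, ?_⟩
        exact (hψU _ _ _ hqs).trans (hqval q hq)
      · rw [sub_self]
        exact Submodule.zero_mem _
    set η' : ClassGroup (𝓞 K) →* ℂ := η.comp ((MonoidHom.inl G E).comp u) with hη'
    have hηQ : ∀ e : E, η (1, e) = 1 := by
      intro e
      refine hη1 _ ?_
      have he : ((1, e) : G × E) = ∏ i : ↥D.Q, (if e i = 1 then 1 else qElt G D.Q i) := by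
        refine Prod.ext ?_ (funext fun j => ?_)
        · rw [Prod.fst_prod]
          exact (Finset.prod_eq_one fun i _ => by split_ifs <;> rfl).symm
        · rw [Prod.snd_prod, Finset.prod_apply, Finset.prod_eq_single j]
          · have h22 : ∀ z : Multiplicative (ZMod 2), z ≠ 1 →
              z = Multiplicative.ofAdd 1 := by decide
            by_cases hj : e j = 1
            · simp [hj]; rfl
            · simp [qElt, h22 _ hj]
          · intro i _ hij
            split_ifs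
            · rfl
            · simp [qElt, Ne.symm hij]
          · simp
      rw [he]
      refine Subgroup.prod_mem _ fun i _ => ?_
      split_ifs
      · exact Subgroup.one_mem _
      · exact hQmem _ i.2
    have hη'ne : η' ≠ 1 := by
      intro h
      refine hηne (MonoidHom.ext fun g => ?_)
      obtain ⟨C, hC⟩ := hu g.1
      have h1 : η (g.1, 1) = 1 := by
        have := DFunLike.congr_fun h C
        rw [← hC]
        exact this
      have : g = (g.1, 1) * (1, g.2) := by simp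
      rw [this, map_mul, h1, hηQ, one_mul, MonoidHom.one_apply]
    obtain ⟨ζ, hζ⟩ : ∃ ζ : ℂ, ζ ^ 2 + ζ + 1 = 0 := by
      refine ⟨(-1 + Complex.I * (Real.sqrt 3 : ℝ)) / 2, ?_⟩
      have h3 : ((Real.sqrt 3 : ℝ) : ℂ) ^ 2 = 3 := by
        rw [← Complex.ofReal_pow, Real.sq_sqrt (by norm_num)]
        norm_num
      field_simp
      linear_combination ((Real.sqrt 3 : ℝ) : ℂ) ^ 2 * Complex.I_sq - h3
    set χ : ClassGroup (𝓞 K) →* ℂ := (cubeVal ζ hζ).comp X with hχ
    have hχ3 : ∀ C, χ C ^ 3 = 1 := fun C => by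
      rw [hχ, MonoidHom.comp_apply, ← map_pow]
      have h33 : ∀ z : Multiplicative (ZMod 3), z ^ 3 = 1 := by decide
      rw [h33, map_one]
    have hχne : χ ≠ 1 := fun h =>
      cubeVal_ne_one ζ hζ (by norm_num) hc (DFunLike.congr_fun h c)
    obtain ⟨P, hPp, hPS, hPX, hPη⟩ :=
      exists_prime_ne_one χ η' hχ3 hχne (fun C => hη2 _) hη'ne
        (insert D.p₀ (2 * D.m * ∏ q ∈ D.Q, q).primeFactors)
    rw [Finset.mem_insert, not_or] at hPS
    have hlN : ¬ Ideal.absNorm P.1 ∣ D.level := fun h =>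
      hPS.2 (Nat.mem_primeFactors.mpr ⟨hPp, h, D.level_pos.ne'⟩)
    have hls : Ideal.absNorm P.1 ∉ ({D.p₀} : Set ℕ) := hPS.1
    have hXP : X (ClassGroup.mk0 P) ≠ 1 := fun h =>
      hPX (by rw [hχ, MonoidHom.comp_apply, h, map_one])
    refine hPη (hη1 _ (mem_genGroup_of_trace B _ _ _
      (cubeVal_add_inv ω hω CharTwo.two_eq_zero hXP) (Algebra.subset_adjoin
        ⟨heckeAlgebra.T hPp hlN hls, ?_⟩)))
    rw [hψT _ hPp hlN hls, hsplit _ hPp hlN P rfl, hξ, twistChar_apply, twistChar_apply, map_inv,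
      map_inv]
    simp

end Fermat.Agent.Dihedral.Theta
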