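import Fermat.Agent.Dihedral.ThetaChar

/-!
# Existence of the twisting ideal

A split prime with prescribed local symbols, times a square, gives a twisting ideal with the
local conditions of a `Datum` on which a given cubic class group character is non-trivial.

Main result: `exists_twist`.
-/

set_option autoImplicit false

noncomputable section

open NumberField Module
open scoped nonZeroDivisors

namespace Fermat.Agent.Dihedral.Theta

variable {K : Type*} [Field K] [NumberField K]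

/-- A prime modulo which the discriminant is a nonzero square is the norm of an ideal. -/
theorem exists_absNorm_of_isSquare {M : ℕ} (hK : finrank ℚ K = 2) (hD : discr K = -(M : ℤ))
    {l : ℕ} (hl : l.Prime) (hl2 : l ≠ 2) (_hlM : ¬ l ∣ M) (hsq : IsSquare (-(M : ZMod l))) :
    ∃ P : Ideal (𝓞 K), Ideal.absNorm P = l := by
  have : Fact l.Prime := ⟨hl⟩
  have h2 : (2 : ZMod l) ≠ 0 := Ring.two_ne_zero (by rwa [ZMod.ringChar_zmod_n])
  set F := formOf hK hD ⊤ top_ne_bot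
  set β := coordOf hK hD ⊤ top_ne_bot
  obtain ⟨r, hr⟩ := hsq
  have hdet : (4 * F.A * F.C - F.B ^ 2 : ZMod l) = (M : ZMod l) := by
    have h := congrArg (Int.cast : ℤ → ZMod l) (det_formOf hK hD ⊤ top_ne_bot)
    simp only [BForm.det] at h
    push_cast at h
    exact h
  -- an isotropic vector modulo `l`
  obtain ⟨v, hv0, hvl⟩ : ∃ v : ℤ × ℤ, ¬ ((l : ℤ) ∣ v.1 ∧ (l : ℤ) ∣ v.2) ∧
      (l : ℤ) ∣ F.val v.1 v.2 := by
    by_cases hA : (F.A : ZMod l) = 0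
    · refine ⟨(1, 0), fun h => hl.ne_one (Nat.dvd_one.mp (Int.natCast_dvd_natCast.mp
        (by simpa using h.1))), ?_⟩
      rw [← ZMod.intCast_zmod_eq_zero_iff_dvd]
      simp [BForm.val, hA]
    · refine ⟨((((-(F.B : ZMod l) + r) / (2 * F.A)).val : ℕ), 1),
        fun h => hl.ne_one (Nat.dvd_one.mp (Int.natCast_dvd_natCast.mp (by simpa using h.2))), ?_⟩
      rw [← ZMod.intCast_zmod_eq_zero_iff_dvd]
      simp only [BForm.val]
      push_cast
      rw [ZMod.natCast_zmod_val]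
      field_simp
      linear_combination hdet - hr
  set x : 𝓞 K := ((β v : (⊤ : Ideal (𝓞 K))) : 𝓞 K) with hx
  have hN : (l : ℤ) ∣ Algebra.norm ℤ x := by
    rw [hx, norm_coordOf, Ideal.absNorm_top, Nat.cast_one, one_mul]
    exact hvl
  have hnot : x ∉ Ideal.span {(l : 𝓞 K)} := by
    intro hmem
    obtain ⟨y, hy⟩ := Ideal.mem_span_singleton'.mp hmem
    obtain ⟨w, hw⟩ := β.surjective ⟨y, Submodule.mem_top⟩
    have hv : v = (l : ℤ) • w := by
      apply β.injective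
      rw [map_zsmul, hw]
      apply Subtype.ext
      simp [← hx, ← hy, zsmul_eq_mul, mul_comm]
    exact hv0 ⟨⟨w.1, by rw [hv]; simp⟩, ⟨w.2, by rw [hv]; simp⟩⟩
  by_contra hno
  push Not at hno
  have hdvd : l ∣ Ideal.absNorm (Ideal.span {x}) := by
    rw [Ideal.absNorm_span_singleton]
    exact Int.natCast_dvd.mp hN
  obtain ⟨P, hP, hlP, hPx⟩ := exists_factor hl hdvd
  have hPl : P ∣ Ideal.span {(l : 𝓞 K)} :=
    Ideal.dvd_iff_le.mpr ((Ideal.span_singleton_le_iff_mem _).mpr hlP)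
  obtain ⟨k, hk, hPk⟩ := (Nat.dvd_prime_pow hl).mp
    (absNorm_span_natCast hK l ▸ map_dvd Ideal.absNorm hPl)
  interval_cases k
  · exact hP.ne_top (Ideal.absNorm_eq_one_iff.mp hPk)
  · exact hno P (by simpa using hPk)
  · obtain ⟨R, hR⟩ := hPl
    have hR' := congrArg Ideal.absNorm hR
    rw [absNorm_span_natCast hK, map_mul, hPk] at hR'
    have hRt : R = ⊤ := Ideal.absNorm_eq_one_iff.mp
      (Nat.eq_of_mul_eq_mul_left (pow_pos hl.pos 2) (by rw [mul_one]; exact hR'.symm))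
    rw [hRt, Ideal.mul_top] at hR
    exact hnot (hR ▸ (Ideal.dvd_iff_le.mp hPx (Ideal.mem_span_singleton_self x)))

theorem exists_residue_eight : ∀ m T : ZMod 8, m * m = 1 → T * T = 1 →
    ∃ e : ZMod 8, (e = 1 ∨ e = 5) ∧ ∀ x y : ZMod 8, x ^ 2 + 2 * m * y ^ 2 ≠ -(T * e) := by
  decide

theorem exists_nat_legendre {p : ℕ} [Fact p.Prime] (hp : p ≠ 2) (s : ℤ) (hs : s = 1 ∨ s = -1) :
    ∃ r : ℕ, ¬ p ∣ r ∧ jacobiSym (r : ℤ) p = s := by
  rcases hs with rfl | rfl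
  · exact ⟨1, (Fact.out : p.Prime).not_dvd_one, by simp⟩
  · obtain ⟨a, ha⟩ := quadraticChar_exists_neg_one (F := ZMod p) (by rwa [ZMod.ringChar_zmod_n])
    have ha0 : a ≠ 0 := fun h => by simp [h] at ha
    refine ⟨a.val, fun h => ha0 ?_, ?_⟩
    · rw [← ZMod.natCast_zmod_val a]
      exact (ZMod.natCast_eq_zero_iff _ _).mpr h
    · rw [← jacobiSym.legendreSym.to_jacobiSym, legendreSym]
      simpa using ha

theorem exists_nat_nonsquare {p : ℕ} [Fact p.Prime] (hp : p ≠ 2) {T : ℕ} (hT : ¬ p ∣ T) :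
    ∃ r : ℕ, ¬ p ∣ r ∧ ¬ IsSquare (-((T : ZMod p) * (r : ZMod p))) := by
  obtain ⟨a, ha⟩ := FiniteField.exists_nonsquare (F := ZMod p) (by rwa [ZMod.ringChar_zmod_n])
  have hT' : (T : ZMod p) ≠ 0 := fun h => hT ((ZMod.natCast_eq_zero_iff _ _).mp h)
  have ha0 : a ≠ 0 := fun h => ha (h ▸ IsSquare.zero)
  refine ⟨(-a / (T : ZMod p)).val, fun h => ?_, ?_⟩
  · have h' := (ZMod.natCast_eq_zero_iff _ _).mpr h
    rw [ZMod.natCast_zmod_val, div_eq_zero_iff, neg_eq_zero] at h'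
    exact h'.elim ha0 hT'
  · rw [ZMod.natCast_zmod_val]
    convert ha using 2
    field_simp

/-- A prime with the prescribed symbols. -/
theorem exists_prime_symbols {m T p₀ : ℕ} (hm : Odd m) (hsf : Squarefree m) (hp₀ : p₀.Prime)
    (hp₀m : p₀ ∣ m) (hT : ∀ p : ℕ, p.Prime → p ∣ 2 * m → ¬ p ∣ T) (B : ℕ) :
    ∃ l : ℕ, l.Prime ∧ B < l ∧ IsSquare (-((8 * m : ℕ) : ZMod l)) ∧
      (∀ p : ℕ, p.Prime → p ∣ m → p ≠ p₀ → ¬ IsSquare (-((T : ZMod p) * (l : ZMod p)))) ∧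
      ∀ x y : ZMod 8, x ^ 2 + 2 * (m : ZMod 8) * y ^ 2 ≠ -((T : ZMod 8) * (l : ZMod 8)) := by
  classical
  obtain ⟨m', rfl⟩ := hp₀m
  have : Fact p₀.Prime := ⟨hp₀⟩
  have hm' : Odd m' := (Nat.odd_mul.mp hm).2
  have hp₀2 : p₀ ≠ 2 := by
    rintro rfl
    exact absurd (Nat.odd_mul.mp hm).1 (by decide)
  have hne : ∀ p : ℕ, p ∣ p₀ * m' → p ≠ 2 := by
    rintro _ h rfl
    exact hm.not_two_dvd_nat h
  have hp₀m' : ¬ p₀ ∣ m' := fun h =>
    hp₀.ne_one (Nat.isUnit_iff.mp (hsf p₀ (mul_dvd_mul_left _ h)))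
  have hTodd : ¬ (2 : ℤ) ∣ (T : ℤ) := fun h =>
    hT 2 Nat.prime_two (dvd_mul_right _ _) (by exact_mod_cast h)
  have hmodd : ¬ (2 : ℤ) ∣ ((p₀ * m' : ℕ) : ℤ) := fun h => hm.not_two_dvd_nat (by exact_mod_cast h)
  obtain ⟨e, he, he'⟩ := exists_residue_eight ((p₀ * m' : ℕ) : ZMod 8) (T : ZMod 8)
    (by have := BForm.sq_eq_one_of_odd hmodd; push_cast at this ⊢; exact this)
    (by have := BForm.sq_eq_one_of_odd hTodd; push_cast at this; exact this)
  have hres : ∀ p : ℕ, ∃ r : ℕ, p.Prime → p ∣ m' →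
      ¬ p ∣ r ∧ ¬ IsSquare (-((T : ZMod p) * (r : ZMod p))) := by
    intro p
    by_cases h : p.Prime ∧ p ∣ m'
    · have : Fact p.Prime := ⟨h.1⟩
      obtain ⟨r, hr⟩ := exists_nat_nonsquare (hne p (h.2.mul_left _))
        (hT p h.1 ((h.2.mul_left _).mul_left _))
      exact ⟨r, fun _ _ => hr⟩
    · exact ⟨0, fun h1 h2 => absurd ⟨h1, h2⟩ h⟩
  choose r hr using hres
  let z := Nat.chineseRemainderOfFinset r id m'.primeFactors
    (fun p hp => (Nat.prime_of_mem_primeFactors hp).ne_zero)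
    (fun p hp q hq hpq => (Nat.coprime_primes (Nat.prime_of_mem_primeFactors hp)
      (Nat.prime_of_mem_primeFactors hq)).mpr hpq)
  have hz : ∀ p ∈ m'.primeFactors, (z : ℕ) ≡ r p [MOD p] := fun p hp => z.2 p hp
  have hzcop : ((z : ℕ) : ℕ).Coprime m' := by
    refine Nat.coprime_of_dvd fun p hp h1 h2 => ?_
    have hmem : p ∈ m'.primeFactors := Nat.mem_primeFactors.mpr ⟨hp, h2, hm'.pos.ne'⟩
    exact (hr p hp h2).1 ((Nat.ModEq.dvd_iff (hz p hmem) dvd_rfl).mp h1)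
  have hsign : ZMod.χ₈ e * jacobiSym ((z : ℕ) : ℤ) m' = 1 ∨
      ZMod.χ₈ e * jacobiSym ((z : ℕ) : ℤ) m' = -1 := by
    have hj := jacobiSym.eq_one_or_neg_one (a := ((z : ℕ) : ℤ)) (b := m')
      (by rw [Int.gcd_natCast_natCast]; exact hzcop)
    rcases he with rfl | rfl <;> rcases hj with hj | hj <;> rw [hj] <;> decide
  obtain ⟨r₀, hr₀, hr₀'⟩ := exists_nat_legendre hp₀2 _ hsign
  have h8m' : (8 : ℕ).Coprime m' := by
    rw [show (8 : ℕ) = 2 ^ 3 by norm_num]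
    exact (Nat.coprime_two_left.mpr hm').pow_left 3
  let z₁ := Nat.chineseRemainder h8m' e.val (z : ℕ)
  have h8p : (8 * m').Coprime p₀ := by
    refine Nat.Coprime.mul_left ?_ ((hp₀.coprime_iff_not_dvd).mpr hp₀m').symm
    rw [show (8 : ℕ) = 2 ^ 3 by norm_num]
    exact ((Nat.coprime_primes Nat.prime_two hp₀).mpr (Ne.symm hp₀2)).pow_left 3
  let z₂ := Nat.chineseRemainder h8p (z₁ : ℕ) r₀
  have e8 : (z₂ : ℕ) ≡ e.val [MOD 8] :=
    (Nat.ModEq.of_dvd (dvd_mul_right 8 m') z₂.2.1).trans z₁.2.1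
  have em' : (z₂ : ℕ) ≡ (z : ℕ) [MOD m'] :=
    (Nat.ModEq.of_dvd (dvd_mul_left m' 8) z₂.2.1).trans z₁.2.2
  have ep₀ : (z₂ : ℕ) ≡ r₀ [MOD p₀] := z₂.2.2
  have hcop : (z₂ : ℕ).Coprime (8 * m' * p₀) := by
    refine Nat.Coprime.mul_right (Nat.Coprime.mul_right ?_ ?_) ?_
    · rw [Nat.Coprime, e8.gcd_eq]
      rcases he with rfl | rfl <;> decide
    · rw [Nat.Coprime, em'.gcd_eq]
      exact hzcop
    · rw [Nat.Coprime, ep₀.gcd_eq]
      exact ((hp₀.coprime_iff_not_dvd).mpr hr₀).symm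
  obtain ⟨l, hgt, hl, hmod⟩ := Nat.forall_exists_prime_gt_and_modEq (B + 8 * m' * p₀ + 2)
    (q := 8 * m' * p₀) (by have := hm'.pos; have := hp₀.pos; positivity) hcop
  have : Fact l.Prime := ⟨hl⟩
  have l8 : l ≡ e.val [MOD 8] := (Nat.ModEq.of_dvd ⟨m' * p₀, by ring⟩ hmod).trans e8
  have l8' : (l : ZMod 8) = e := by
    rw [(ZMod.natCast_eq_natCast_iff _ _ _).mpr l8, ZMod.natCast_zmod_val]
  have lp₀ : l ≡ r₀ [MOD p₀] := (Nat.ModEq.of_dvd ⟨8 * m', by ring⟩ hmod).trans ep₀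
  have lm' : l ≡ (z : ℕ) [MOD m'] := (Nat.ModEq.of_dvd ⟨8 * p₀, by ring⟩ hmod).trans em'
  refine ⟨l, hl, by omega, ?_, ?_, fun x y => by rw [l8']; exact he' x y⟩
  · have hl4 : l % 4 = 1 := by
      have := l8
      rw [Nat.ModEq] at this
      rcases he with rfl | rfl
      · have e1 : ((1 : ZMod 8)).val = 1 := rfl
        rw [e1] at this; omega
      · have e5 : ((5 : ZMod 8)).val = 5 := rfl
        rw [e5] at this; omega
    have hlodd : Odd l := Nat.odd_iff.mpr (by omega)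
    have hj : jacobiSym (-((8 * (p₀ * m') : ℕ) : ℤ)) l = 1 := by
      have hχ : ZMod.χ₄ (l : ZMod 4) = 1 := ZMod.χ₄_nat_one_mod_four hl4
      have hsq8 : ZMod.χ₈ e * ZMod.χ₈ e = 1 := by rcases he with rfl | rfl <;> decide
      have hjm : jacobiSym ((z : ℕ) : ℤ) m' * jacobiSym ((z : ℕ) : ℤ) m' = 1 := by
        rcases jacobiSym.eq_one_or_neg_one (a := ((z : ℕ) : ℤ)) (b := m')
          (by rw [Int.gcd_natCast_natCast]; exact hzcop) with h | h <;> rw [h] <;> rfl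
      rw [jacobiSym.neg _ hlodd, hχ, one_mul, show ((8 * (p₀ * m') : ℕ) : ℤ) =
        2 * 2 * 2 * ((p₀ * m' : ℕ) : ℤ) by push_cast; ring]
      simp only [jacobiSym.mul_left, jacobiSym.at_two hlodd, l8']
      rw [← jacobiSym.quadratic_reciprocity_one_mod_four hl4 hm,
        jacobiSym.mul_right' _ hp₀.ne_zero hm'.pos.ne']
      have ea : jacobiSym (l : ℤ) p₀ = jacobiSym (r₀ : ℤ) p₀ :=
        jacobiSym.mod_left' (by exact_mod_cast lp₀)
      have eb : jacobiSym (l : ℤ) m' = jacobiSym ((z : ℕ) : ℤ) m' :=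
        jacobiSym.mod_left' (by exact_mod_cast lm')
      rw [ea, eb, hr₀']
      linear_combination (ZMod.χ₈ e * ZMod.χ₈ e * jacobiSym ((z : ℕ) : ℤ) m' *
        jacobiSym ((z : ℕ) : ℤ) m') * hsq8 + (ZMod.χ₈ e * ZMod.χ₈ e) * hjm + hsq8
    rw [← jacobiSym.legendreSym.to_jacobiSym] at hj
    have h0 : ((-((8 * (p₀ * m') : ℕ) : ℤ) : ℤ) : ZMod l) ≠ 0 := fun h0 => by
      have := (legendreSym.eq_zero_iff l _).mpr h0
      omega
    have := (legendreSym.eq_one_iff l h0).mp hj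
    push_cast at this ⊢
    exact this
  · intro p hp hpm hpp₀
    have hpm' : p ∣ m' := (hp.dvd_mul.mp hpm).resolve_left fun h =>
      hpp₀ ((Nat.prime_dvd_prime_iff_eq hp hp₀).mp h)
    have hmem : p ∈ m'.primeFactors := Nat.mem_primeFactors.mpr ⟨hp, hpm', hm'.pos.ne'⟩
    rw [(ZMod.natCast_eq_natCast_iff _ _ _).mpr
      ((Nat.ModEq.of_dvd hpm' lm').trans (hz p hmem))]
    exact (hr p hp hpm').2

/-- The twist. -/
theorem exists_twist (m : ℕ) (hm : Odd m) (hsf : Squarefree m) (hK : finrank ℚ K = 2)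
    (hD : discr K = -((8 * m : ℕ) : ℤ)) (Q : Finset ℕ) (hQ : ∀ q ∈ Q, q.Prime)
    (hQ2 : ∀ q ∈ Q, q ≠ 2) (hQi : ∀ q ∈ Q, ¬ IsSquare (-((8 * m : ℕ) : ZMod q))) (p₀ : ℕ)
    (hp₀ : p₀.Prime) (hp₀m : p₀ ∣ m) (X : ClassGroup (𝓞 K) →* Multiplicative (ZMod 3))
    (hX : X ≠ 1) :
    ∃ D : Datum K, D.m = m ∧ D.Q = Q ∧ D.p₀ = p₀ ∧ X (ClassGroup.mk0 D.twist) ≠ 1 := by
  set T := ∏ q ∈ Q, q with hT
  have hTp : ∀ p : ℕ, p.Prime → p ∣ 2 * m → ¬ p ∣ T := by
    intro p hp hpm hpT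
    obtain ⟨q, hq, hpq⟩ := (Prime.dvd_finsetProd_iff hp.prime _).mp hpT
    obtain rfl := (Nat.prime_dvd_prime_iff_eq hp (hQ q hq)).mp hpq
    rcases hp.dvd_mul.mp hpm with h | h
    · exact hQ2 p hq ((Nat.prime_dvd_prime_iff_eq hp Nat.prime_two).mp h)
    · exact hQi p hq ⟨0, by rw [(ZMod.natCast_eq_zero_iff _ _).mpr (h.mul_left 8)]; simp⟩
  have hTpos : 0 < T := Finset.prod_pos fun q hq => (hQ q hq).pos
  have hLpos : 0 < 2 * m * T := Nat.mul_pos (Nat.mul_pos two_pos hm.pos) hTpos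
  obtain ⟨l, hl, hgt, hsq, hodd, htwo⟩ :=
    exists_prime_symbols hm hsf hp₀ hp₀m hTp (2 * m * T + 8 * m)
  obtain ⟨P, hP⟩ := exists_absNorm_of_isSquare hK hD hl (by have := hm.pos; omega)
    (fun h => by have := Nat.le_of_dvd (by have := hm.pos; positivity) h; omega) hsq
  have hPne : P ≠ ⊥ := ne_bot_of_absNorm hl.ne_zero hP
  have key : ∀ R : (Ideal (𝓞 K))⁰, (Ideal.absNorm R.1).Coprime (2 * m * T) →
      ∃ D : Datum K, D.m = m ∧ D.Q = Q ∧ D.p₀ = p₀ ∧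
        D.twist = ⟨P, mem_nonZeroDivisors_iff_ne_zero.mpr hPne⟩ * R ^ 2 := by
    intro R hR
    have hN : Ideal.absNorm ((⟨P, mem_nonZeroDivisors_iff_ne_zero.mpr hPne⟩ : (Ideal (𝓞 K))⁰) *
        R ^ 2 : (Ideal (𝓞 K))⁰).1 = l * Ideal.absNorm R.1 ^ 2 := by
      rw [Submonoid.coe_mul, SubmonoidClass.coe_pow, map_mul, map_pow, hP]
    refine ⟨{ m := m, m_odd := hm, m_sqf := hsf, finrank_eq := hK, discr_eq := hD, Q := Q,
              prime := hQ, ne_two := hQ2, inert := hQi, p₀ := p₀,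
              twist := ⟨P, mem_nonZeroDivisors_iff_ne_zero.mpr hPne⟩ * R ^ 2,
              twist_coprime := ?_, odd_cond := ?_, two_cond := ?_ }, rfl, rfl, rfl, rfl⟩
    · rw [hN]
      exact Nat.Coprime.mul_left ((hl.coprime_iff_not_dvd).mpr fun h => by
        have := Nat.le_of_dvd hLpos h; omega) (hR.pow_left 2)
    · intro p hp hpm hpp
      rw [hN, ← hT]
      intro hsq'
      have : Fact p.Prime := ⟨hp⟩
      refine hodd p hp hpm hpp ?_
      have hR0 : (Ideal.absNorm R.1 : ZMod p) ≠ 0 := fun hc =>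
        Nat.not_coprime_of_dvd_of_dvd hp.one_lt ((ZMod.natCast_eq_zero_iff _ _).mp hc)
          ((hpm.mul_left 2).mul_right T) hR
      obtain ⟨s, hs⟩ := hsq'
      refine ⟨s / (Ideal.absNorm R.1 : ZMod p), ?_⟩
      push_cast at hs
      field_simp
      linear_combination hs
    · intro x y
      rw [hN, ← hT]
      have hRodd : ¬ (2 : ℤ) ∣ (Ideal.absNorm R.1 : ℤ) := fun hc =>
        Nat.not_coprime_of_dvd_of_dvd one_lt_two (by exact_mod_cast hc)
          ((dvd_mul_right 2 m).mul_right T) hR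
      have h1 := BForm.sq_eq_one_of_odd hRodd
      push_cast at h1
      intro h
      apply htwo x y
      push_cast at h
      linear_combination h - ((T : ZMod 8) * (l : ZMod 8)) * h1
  by_cases hXP : X (ClassGroup.mk0 ⟨P, mem_nonZeroDivisors_iff_ne_zero.mpr hPne⟩) = 1
  · obtain ⟨c, hc⟩ : ∃ c, X c ≠ 1 := by
      by_contra h
      push Not at h
      exact hX (MonoidHom.ext fun c => by rw [h c, MonoidHom.one_apply])
    obtain ⟨R, hRc, hRcop⟩ := exists_class_coprime c (2 * m * T) hLpos.ne'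
    obtain ⟨D, h1, h2, h3, h4⟩ := key R hRcop
    refine ⟨D, h1, h2, h3, ?_⟩
    rw [h4, map_mul, map_mul, hXP, one_mul, map_pow, map_pow, hRc]
    have : ∀ z : Multiplicative (ZMod 3), z ≠ 1 → z ^ 2 ≠ 1 := by decide
    exact this _ hc
  · obtain ⟨D, h1, h2, h3, h4⟩ := key 1 (by simp)
    exact ⟨D, h1, h2, h3, by rwa [h4, one_pow, mul_one]⟩

end Fermat.Agent.Dihedral.Theta
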